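import Mathlib

/-!
# Explicit forms of vanishing statements for `H¹` and `H²`

Bridges between Mathlib's `groupCohomology A 1`, `groupCohomology A 2` and statements about plain
functions (cocycles and coboundaries written out), also for restrictions to subgroups and in
"up to an integer prime to `p`" form.
-/

set_option autoImplicit false

namespace Fermat.Agent.S55

open CategoryTheory groupCohomology

variable {k G : Type} [CommRing k] [Group G]

/-- a function is a 1-cocycle (written out) -/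
def te_IsZ1 (A : Rep.{0} k G) (c : G → A.V) : Prop :=
  ∀ g h : G, c (g * h) = A.ρ g (c h) + c g

/-- a function is a 2-cocycle (written out, Mathlib's convention) -/
def te_IsZ2 (A : Rep.{0} k G) (z : G × G → A.V) : Prop :=
  ∀ g h j : G, z (g * h, j) + z (g, h) = A.ρ g (z (h, j)) + z (g, h * j)

/-- the coboundary of an element -/
def te_d0 (A : Rep.{0} k G) (a : A.V) : G → A.V := fun g => A.ρ g a - a

/-- the coboundary of a 1-cochain -/
def te_d1 (A : Rep.{0} k G) (y : G → A.V) : G × G → A.V :=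
  fun q => A.ρ q.1 (y q.2) - y (q.1 * q.2) + y q.1

theorem te_d0_eq (A : Rep.{0} k G) (a : A.V) : te_d0 A a = (d₀₁ A).hom a := rfl

theorem te_d1_eq (A : Rep.{0} k G) (y : G → A.V) : te_d1 A y = (d₁₂ A).hom y := rfl

theorem te_isZ1_iff (A : Rep.{0} k G) (c : G → A.V) : te_IsZ1 A c ↔ c ∈ cocycles₁ A :=
  (mem_cocycles₁_iff c).symm

theorem te_isZ2_iff (A : Rep.{0} k G) (z : G × G → A.V) : te_IsZ2 A z ↔ z ∈ cocycles₂ A :=
  (mem_cocycles₂_iff z).symm

theorem te_isZ1_d0 (A : Rep.{0} k G) (a : A.V) : te_IsZ1 A (te_d0 A a) := by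
  rw [te_isZ1_iff]; exact d₀₁_apply_mem_cocycles₁ a

theorem te_isZ2_d1 (A : Rep.{0} k G) (y : G → A.V) : te_IsZ2 A (te_d1 A y) := by
  rw [te_isZ2_iff]; exact d₁₂_apply_mem_cocycles₂ y

/-- the class of a written-out 1-cocycle -/
noncomputable def te_cl1 (A : Rep.{0} k G) (c : G → A.V) (hc : te_IsZ1 A c) : groupCohomology A 1 :=
  H1π A ⟨c, (te_isZ1_iff A c).mp hc⟩

/-- the class of a written-out 2-cocycle -/
noncomputable def te_cl2 (A : Rep.{0} k G) (z : G × G → A.V) (hz : te_IsZ2 A z) :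
    groupCohomology A 2 :=
  H2π A ⟨z, (te_isZ2_iff A z).mp hz⟩

theorem te_cl1_eq_zero_iff (A : Rep.{0} k G) (c : G → A.V) (hc : te_IsZ1 A c) :
    te_cl1 A c hc = 0 ↔ ∃ a : A.V, c = te_d0 A a := by
  rw [te_cl1, H1π_eq_zero_iff]
  constructor
  · rintro ⟨a, ha⟩; exact ⟨a, ha.symm⟩
  · rintro ⟨a, ha⟩; exact ⟨a, ha.symm⟩

theorem te_cl2_eq_zero_iff (A : Rep.{0} k G) (z : G × G → A.V) (hz : te_IsZ2 A z) :
    te_cl2 A z hz = 0 ↔ ∃ y : G → A.V, z = te_d1 A y := by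
  rw [te_cl2, H2π_eq_zero_iff]
  constructor
  · rintro ⟨a, ha⟩; exact ⟨a, ha.symm⟩
  · rintro ⟨a, ha⟩; exact ⟨a, ha.symm⟩

theorem te_cl1_surjective (A : Rep.{0} k G) (x : groupCohomology A 1) :
    ∃ (c : G → A.V) (hc : te_IsZ1 A c), te_cl1 A c hc = x := by
  induction x using H1_induction_on with
  | h c => exact ⟨c.1, (te_isZ1_iff A c.1).mpr c.2, rfl⟩

theorem te_cl2_surjective (A : Rep.{0} k G) (x : groupCohomology A 2) :
    ∃ (z : G × G → A.V) (hz : te_IsZ2 A z), te_cl2 A z hz = x := by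
  induction x using H2_induction_on with
  | h c => exact ⟨c.1, (te_isZ2_iff A c.1).mpr c.2, rfl⟩

theorem te_isZ1_nsmul (A : Rep.{0} k G) (m : ℕ) {c : G → A.V} (hc : te_IsZ1 A c) :
    te_IsZ1 A (m • c) := by
  rw [te_isZ1_iff] at hc ⊢
  exact (cocycles₁ A).toAddSubmonoid.nsmul_mem hc m

theorem te_isZ2_nsmul (A : Rep.{0} k G) (m : ℕ) {z : G × G → A.V} (hz : te_IsZ2 A z) :
    te_IsZ2 A (m • z) := by
  rw [te_isZ2_iff] at hz ⊢
  exact (cocycles₂ A).toAddSubmonoid.nsmul_mem hz m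

theorem te_cl1_nsmul (A : Rep.{0} k G) (m : ℕ) {c : G → A.V} (hc : te_IsZ1 A c) :
    te_cl1 A (m • c) (te_isZ1_nsmul A m hc) = m • te_cl1 A c hc := by
  rw [te_cl1, te_cl1, ← map_nsmul]
  rfl

theorem te_cl2_nsmul (A : Rep.{0} k G) (m : ℕ) {z : G × G → A.V} (hz : te_IsZ2 A z) :
    te_cl2 A (m • z) (te_isZ2_nsmul A m hz) = m • te_cl2 A z hz := by
  rw [te_cl2, te_cl2, ← map_nsmul]
  rfl

/-- `H¹ = 0` in explicit form. -/
theorem te_H1_explicit (A : Rep.{0} k G) (h : Limits.IsZero (groupCohomology A 1))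
    (c : G → A.V) (hc : te_IsZ1 A c) : ∃ a : A.V, c = te_d0 A a := by
  have := ModuleCat.subsingleton_of_isZero h
  exact (te_cl1_eq_zero_iff A c hc).mp (Subsingleton.elim _ _)

/-- `H² = 0` in explicit form. -/
theorem te_H2_explicit (A : Rep.{0} k G) (h : Limits.IsZero (groupCohomology A 2))
    (z : G × G → A.V) (hz : te_IsZ2 A z) : ∃ y : G → A.V, z = te_d1 A y := by
  have := ModuleCat.subsingleton_of_isZero h
  exact (te_cl2_eq_zero_iff A z hz).mp (Subsingleton.elim _ _)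

theorem te_isZero_H1_of_explicit (A : Rep.{0} k G)
    (h : ∀ c : G → A.V, te_IsZ1 A c → ∃ a : A.V, c = te_d0 A a) :
    Limits.IsZero (groupCohomology A 1) := by
  rw [ModuleCat.isZero_iff_subsingleton]
  refine ⟨fun x y => ?_⟩
  obtain ⟨c, hc, rfl⟩ := te_cl1_surjective A x
  obtain ⟨c', hc', rfl⟩ := te_cl1_surjective A y
  rw [(te_cl1_eq_zero_iff A c hc).mpr (h c hc), (te_cl1_eq_zero_iff A c' hc').mpr (h c' hc')]

theorem te_isZero_H2_of_explicit (A : Rep.{0} k G)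
    (h : ∀ z : G × G → A.V, te_IsZ2 A z → ∃ y : G → A.V, z = te_d1 A y) :
    Limits.IsZero (groupCohomology A 2) := by
  rw [ModuleCat.isZero_iff_subsingleton]
  refine ⟨fun x y => ?_⟩
  obtain ⟨c, hc, rfl⟩ := te_cl2_surjective A x
  obtain ⟨c', hc', rfl⟩ := te_cl2_surjective A y
  rw [(te_cl2_eq_zero_iff A c hc).mpr (h c hc), (te_cl2_eq_zero_iff A c' hc').mpr (h c' hc')]

/-- `p`-primary vanishing of `H¹` in explicit form. -/
theorem te_H1_explicit_prime (A : Rep.{0} k G) (p : ℕ)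
    (h : ∀ x : groupCohomology A 1, ∃ m : ℕ, ¬ p ∣ m ∧ m • x = 0)
    (c : G → A.V) (hc : te_IsZ1 A c) : ∃ m : ℕ, ¬ p ∣ m ∧ ∃ a : A.V, m • c = te_d0 A a := by
  obtain ⟨m, hm, h0⟩ := h (te_cl1 A c hc)
  refine ⟨m, hm, ?_⟩
  rw [← te_cl1_nsmul] at h0
  exact (te_cl1_eq_zero_iff A _ _).mp h0

/-- `p`-primary vanishing of `H²` in explicit form. -/
theorem te_H2_explicit_prime (A : Rep.{0} k G) (p : ℕ)
    (h : ∀ x : groupCohomology A 2, ∃ m : ℕ, ¬ p ∣ m ∧ m • x = 0)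
    (z : G × G → A.V) (hz : te_IsZ2 A z) :
    ∃ m : ℕ, ¬ p ∣ m ∧ ∃ y : G → A.V, m • z = te_d1 A y := by
  obtain ⟨m, hm, h0⟩ := h (te_cl2 A z hz)
  refine ⟨m, hm, ?_⟩
  rw [← te_cl2_nsmul] at h0
  exact (te_cl2_eq_zero_iff A _ _).mp h0

/-! ### functoriality on explicit cocycles -/

section map

variable {H : Type} [Group H] (f : H →* G) {A : Rep.{0} k G} {B : Rep.{0} k H}
  (φ : Rep.res f A ⟶ B)

theorem te_isZ1_map {c : G → A.V} (hc : te_IsZ1 A c) :
    te_IsZ1 B (fun h => φ.hom (c (f h))) := by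
  rw [te_isZ1_iff] at hc ⊢
  exact (mapCocycles₁ f φ ⟨c, hc⟩).2

theorem te_isZ2_map {z : G × G → A.V} (hz : te_IsZ2 A z) :
    te_IsZ2 B (fun q => φ.hom (z (f q.1, f q.2))) := by
  rw [te_isZ2_iff] at hz ⊢
  exact (mapCocycles₂ f φ ⟨z, hz⟩).2

theorem te_map_cl1 {c : G → A.V} (hc : te_IsZ1 A c) :
    (groupCohomology.map f φ 1).hom (te_cl1 A c hc) =
      te_cl1 B (fun h => φ.hom (c (f h))) (te_isZ1_map f φ hc) := by
  rw [te_cl1, te_cl1]
  exact H1π_comp_map_apply f φ _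

theorem te_map_cl2 {z : G × G → A.V} (hz : te_IsZ2 A z) :
    (groupCohomology.map f φ 2).hom (te_cl2 A z hz) =
      te_cl2 B (fun q => φ.hom (z (f q.1, f q.2))) (te_isZ2_map f φ hz) := by
  rw [te_cl2, te_cl2]
  exact H2π_comp_map_apply f φ _

end map

end Fermat.Agent.S55
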