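import Mathlib

/-!
# Seam A of the S55 blueprint: `p`-primary class modules

For a finite group `Γ`, a prime `p` and `C : Rep ℤ Γ`, the structure `PClassModule p C` records
the `p`-primary information of a class formation on the layers (= subgroups) of `Γ`:
invariant maps on `H²(H, C)`, vanishing of the `p`-part of `H¹(H, C)`, injectivity of the
invariants on `p`-primary classes, a `p`-primary class of maximal order, and compatibility of the
invariants with restriction.

Only definitions and elementary consequences are in this file; the Tate–Nakayama theorems for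
`PClassModule` are proved in `Tate/TateNakayama.lean`.
-/

set_option autoImplicit false

namespace Fermat.Agent.S55

open CategoryTheory groupCohomology

/-- `ℚ/ℤ`, the target of the invariant maps. -/
abbrev tt_QZ : Type := AddCircle (1 : ℚ)

section general

variable {k Γ : Type} [CommRing k] [Group Γ]

/-- Restriction of a `Γ`-module to a subgroup (a *layer*). -/
noncomputable abbrev tt_res (H : Subgroup Γ) (C : Rep.{0} k Γ) : Rep.{0} k H :=
  Rep.res H.subtype C

/-- The restriction map `Hⁿ(Γ, C) → Hⁿ(H, C)`. -/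
noncomputable abbrev tt_resMap (H : Subgroup Γ) (C : Rep.{0} k Γ) (n : ℕ) :
    groupCohomology C n ⟶ groupCohomology (tt_res H C) n :=
  groupCohomology.map H.subtype (𝟙 (tt_res H C)) n

/-- The map `Hⁿ(Γ, Y) → Hⁿ(Γ, C)` induced by a morphism of `Γ`-modules. -/
noncomputable abbrev tt_coeffMap {Y C : Rep.{0} k Γ} (φ : Y ⟶ C) (n : ℕ) :
    groupCohomology Y n ⟶ groupCohomology C n :=
  groupCohomology.map (MonoidHom.id Γ) φ n

end general

/-- An element of an additive group is `p`-primary if it is killed by a power of `p`. -/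
def tt_IsPPrimary (p : ℕ) {A : Type*} [AddCommGroup A] (a : A) : Prop :=
  ∃ k : ℕ, p ^ k • a = 0

variable {Γ : Type} [Group Γ]

/-- **Seam A.**  The `p`-primary part of a class formation on the layers of a finite group `Γ`
with class module `C`.  Layers are subgroups `H ≤ Γ`, the module is restricted along
`H.subtype`. -/
structure PClassModule (p : ℕ) (C : Rep.{0} ℤ Γ) where
  /-- the invariant map of the layer `H` -/
  inv : ∀ H : Subgroup Γ, groupCohomology (tt_res H C) 2 →+ tt_QZ
  /-- `H¹(H, C)` has no `p`-torsion -/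
  h1 : ∀ (H : Subgroup Γ) (x : groupCohomology (tt_res H C) 1), p • x = 0 → x = 0
  /-- the invariant map is injective on `p`-primary classes -/
  inv_inj : ∀ (H : Subgroup Γ) (z : groupCohomology (tt_res H C) 2),
    tt_IsPPrimary p z → inv H z = 0 → z = 0
  /-- there is a `p`-primary class on the top layer whose invariant has order the `p`-part
  of `|Γ|` -/
  inv_gen : ∃ u : groupCohomology C 2, tt_IsPPrimary p u ∧
    addOrderOf (inv ⊤ ((tt_resMap ⊤ C 2).hom u)) = ordProj[p] (Nat.card Γ)
  /-- invariants and restriction -/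
  inv_res : ∀ (H : Subgroup Γ) (z : groupCohomology C 2), tt_IsPPrimary p z →
    inv H ((tt_resMap H C 2).hom z) = H.index • inv ⊤ ((tt_resMap ⊤ C 2).hom z)

namespace PClassModule

variable {p : ℕ} {C : Rep.{0} ℤ Γ} (P : PClassModule p C)

/-- The invariant map on `H²(Γ, C)` itself. -/
noncomputable def invTop : groupCohomology C 2 →+ tt_QZ :=
  (P.inv ⊤).comp (tt_resMap ⊤ C 2).hom.toAddMonoidHom

theorem invTop_apply (z : groupCohomology C 2) :
    P.invTop z = P.inv ⊤ ((tt_resMap ⊤ C 2).hom z) := rfl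

theorem inv_resMap (H : Subgroup Γ) (z : groupCohomology C 2) (hz : tt_IsPPrimary p z) :
    P.inv H ((tt_resMap H C 2).hom z) = H.index • P.invTop z :=
  P.inv_res H z hz

/-- The Tate–Nakayama pairing `Hom_Γ(Y, C) × H²(Γ, Y) → ℚ/ℤ`, `(φ, y) ↦ inv (φ_* y)`. -/
noncomputable def pairing {Y : Rep.{0} ℤ Γ} (φ : Y ⟶ C) : groupCohomology Y 2 →+ tt_QZ :=
  P.invTop.comp (tt_coeffMap φ 2).hom.toAddMonoidHom

theorem pairing_apply {Y : Rep.{0} ℤ Γ} (φ : Y ⟶ C) (y : groupCohomology Y 2) :
    P.pairing φ y = P.invTop ((tt_coeffMap φ 2).hom y) := rfl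

end PClassModule

theorem tt_isPPrimary_map {p : ℕ} {A B : Type*} [AddCommGroup A] [AddCommGroup B]
    (f : A →+ B) {a : A} (ha : tt_IsPPrimary p a) : tt_IsPPrimary p (f a) := by
  obtain ⟨k, hk⟩ := ha
  exact ⟨k, by rw [← map_nsmul, hk, map_zero]⟩

theorem tt_isPPrimary_add {p : ℕ} {A : Type*} [AddCommGroup A] {a b : A}
    (ha : tt_IsPPrimary p a) (hb : tt_IsPPrimary p b) : tt_IsPPrimary p (a + b) := by
  obtain ⟨k, hk⟩ := ha
  obtain ⟨l, hl⟩ := hb
  refine ⟨k + l, ?_⟩
  rw [smul_add, pow_add, mul_smul, smul_comm (p ^ k) (p ^ l) a, hk, mul_smul, hl, smul_zero,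
    smul_zero, add_zero]

theorem tt_isPPrimary_zero {p : ℕ} {A : Type*} [AddCommGroup A] : tt_IsPPrimary p (0 : A) :=
  ⟨0, by simp⟩

theorem tt_isPPrimary_nsmul {p : ℕ} {A : Type*} [AddCommGroup A] {a : A} (n : ℕ)
    (ha : tt_IsPPrimary p a) : tt_IsPPrimary p (n • a) := by
  obtain ⟨k, hk⟩ := ha
  exact ⟨k, by rw [smul_comm, hk, smul_zero]⟩

end Fermat.Agent.S55
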