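import Fermat.Agent.S55.Tate.ClassModule
import Fermat.Agent.S55.Devissage.Transport

/-!
# Transport of `PClassModule` along a group isomorphism and a module isomorphism

For `e : Γ' ≃* Γ`, `C : Rep ℤ Γ`, `C' : Rep ℤ Γ'` and an isomorphism `φ : res e C ≅ C'` of
`Γ'`-modules, a `p`-class-module structure on `C` gives one on `C'`.
-/

set_option autoImplicit false

namespace Fermat.Agent.S55

open CategoryTheory groupCohomology

noncomputable section

section iso

variable {k G G' : Type} [CommRing k] [Group G] [Group G']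
variable (e : G' ≃* G) {A : Rep.{0} k G} {A' : Rep.{0} k G'}
  (φ : Rep.res (e : G' →* G) A ≅ A')

/-- `φ.inv` as a morphism `res e.symm A' ⟶ A`. -/
def tt_trInv : Rep.res (e.symm : G →* G') A' ⟶ A :=
  Rep.ofHom ⟨φ.inv.hom.toLinearMap, fun g => by
    have h := φ.inv.hom.isIntertwining' (e.symm g)
    have h2 : (Rep.res (e : G' →* G) A).ρ (e.symm g) = A.ρ g := by
      show A.ρ (e (e.symm g)) = A.ρ g
      rw [MulEquiv.apply_symm_apply]
    rw [h2] at h
    exact h⟩

lemma tt_trInv_apply (x : A'.V) : (tt_trInv e φ).hom x = φ.inv.hom x := rfl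

lemma tt_tr_hom_inv_apply (x : A.V) : φ.inv.hom (φ.hom.hom x) = x := by
  have h := φ.hom_inv_id
  have h2 := congrArg (fun f => f.hom x) h
  exact h2

lemma tt_tr_inv_hom_apply (x : A'.V) : φ.hom.hom (φ.inv.hom x) = x := by
  have h := φ.inv_hom_id
  have h2 := congrArg (fun f => f.hom x) h
  exact h2

/-- The isomorphism on cohomology induced by a group isomorphism `e : G' ≃* G` and an
isomorphism of `G'`-modules `res e A ≅ A'`. -/
def tt_trIso (n : ℕ) : groupCohomology A n ≅ groupCohomology A' n where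
  hom := map (e : G' →* G) φ.hom n
  inv := map (e.symm : G →* G') (tt_trInv e φ) n
  hom_inv_id := by
    rw [← map_comp, dv_map_congr (dv_comp_symm e).symm]
    have h : dv_resCongrHom (dv_comp_symm e).symm A ≫
        ((Rep.resFunctor (e.symm : G →* G')).map φ.hom ≫ tt_trInv e φ) = 𝟙 A := by
      ext x
      exact tt_tr_hom_inv_apply e φ x
    rw [h, map_id]
  inv_hom_id := by
    rw [← map_comp, dv_map_congr (dv_symm_comp e).symm]
    have h : dv_resCongrHom (dv_symm_comp e).symm A' ≫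
        ((Rep.resFunctor (e : G' →* G)).map (tt_trInv e φ) ≫ φ.hom) = 𝟙 A' := by
      ext x
      exact tt_tr_inv_hom_apply e φ x
    rw [h, map_id]

lemma tt_trIso_hom (n : ℕ) : (tt_trIso e φ n).hom = map (e : G' →* G) φ.hom n := rfl

lemma tt_trIso_inv (n : ℕ) :
    (tt_trIso e φ n).inv = map (e.symm : G →* G') (tt_trInv e φ) n := rfl


variable (H' : Subgroup G')

/-- The restriction of `φ` to a subgroup `H'`, seen over the isomorphism `H' ≃* e(H')`. -/
def tt_trSubCoeff :
    Rep.res ((e.subgroupMap H' : H' ≃* H'.map (e : G' →* G)) : H' →* H'.map (e : G' →* G))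
      (tt_res (H'.map (e : G' →* G)) A) ≅ tt_res H' A' :=
  (Rep.resFunctor H'.subtype).mapIso φ

lemma tt_trSubCoeff_hom_apply (x : A.V) : (tt_trSubCoeff e φ H').hom.hom x = φ.hom.hom x := rfl

/-- The isomorphism `Hⁿ(e(H'), A) ≅ Hⁿ(H', A')`. -/
def tt_trSub (n : ℕ) :
    groupCohomology (tt_res (H'.map (e : G' →* G)) A) n ≅ groupCohomology (tt_res H' A') n :=
  tt_trIso (e.subgroupMap H') (tt_trSubCoeff e φ H') n

/-- Restriction commutes with transport. -/
theorem tt_trSub_naturality (n : ℕ) :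
    tt_resMap (H'.map (e : G' →* G)) A n ≫ (tt_trSub e φ H' n).hom =
      (tt_trIso e φ n).hom ≫ tt_resMap H' A' n := by
  show map _ _ n ≫ map _ _ n = map _ _ n ≫ map _ _ n
  rw [← map_comp, ← map_comp]
  refine map_congr ?_ ?_ n
  · ext x
    rfl
  · rfl

end iso


section mkIso

variable {G : Type} [Group G]

/-- The `ℤ`-linear map (for the module structures carried by the representations) underlying an
additive map. -/
def tt_linOfAdd {A B : Rep.{0} ℤ G} (f : A.V →+ B.V) :
    @LinearMap ℤ ℤ _ _ (RingHom.id ℤ) A.V B.V _ _ A.hV2 B.hV2 :=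
  @LinearMap.mk ℤ ℤ _ _ (RingHom.id ℤ) A.V B.V _ _ A.hV2 B.hV2 ⟨f, f.map_add⟩
    (fun n v => by
      have h1 := int_smul_eq_zsmul A.hV2 n v
      have h2 := int_smul_eq_zsmul B.hV2 n (f v)
      change f (@SMul.smul ℤ A.V A.hV2.toSMul n v) = @SMul.smul ℤ B.V B.hV2.toSMul n (f v)
      rw [h1, h2]
      exact map_zsmul f n v)

/-- A morphism of `ℤ`-representations from an equivariant additive map. -/
def tt_homOfAdd {A B : Rep.{0} ℤ G} (f : A.V →+ B.V)
    (hf : ∀ (g : G) (v : A.V), f (A.ρ g v) = B.ρ g (f v)) : A ⟶ B :=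
  ConcreteCategory.ofHom (C := Rep ℤ G)
    (@Representation.IntertwiningMap.mk ℤ G A.V B.V _ _ _ _ A.hV2 B.hV2 A.ρ B.ρ
      (tt_linOfAdd f) (fun g => DFunLike.ext _ _ (hf g)))

theorem tt_homOfAdd_apply {A B : Rep.{0} ℤ G} (f : A.V →+ B.V)
    (hf : ∀ (g : G) (v : A.V), f (A.ρ g v) = B.ρ g (f v)) (v : A.V) :
    (tt_homOfAdd f hf).hom v = f v := rfl

/-- An isomorphism of `ℤ`-representations from an equivariant additive equivalence. -/
def tt_isoOfAddEquiv {A B : Rep.{0} ℤ G} (f : A.V ≃+ B.V)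
    (hf : ∀ (g : G) (v : A.V), f (A.ρ g v) = B.ρ g (f v)) : A ≅ B where
  hom := tt_homOfAdd f.toAddMonoidHom hf
  inv := tt_homOfAdd f.symm.toAddMonoidHom (fun g v => by
    apply f.injective
    show f (f.symm (B.ρ g v)) = f (A.ρ g (f.symm v))
    rw [hf, f.apply_symm_apply, f.apply_symm_apply])
  hom_inv_id := by
    ext
    refine DFunLike.ext _ _ fun x => ?_
    exact f.symm_apply_apply x
  inv_hom_id := by
    ext
    refine DFunLike.ext _ _ fun x => ?_
    exact f.apply_symm_apply x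

theorem tt_isoOfAddEquiv_hom_apply {A B : Rep.{0} ℤ G} (f : A.V ≃+ B.V)
    (hf : ∀ (g : G) (v : A.V), f (A.ρ g v) = B.ρ g (f v)) (v : A.V) :
    (tt_isoOfAddEquiv f hf).hom.hom v = f v := rfl

theorem tt_isoOfAddEquiv_inv_apply {A B : Rep.{0} ℤ G} (f : A.V ≃+ B.V)
    (hf : ∀ (g : G) (v : A.V), f (A.ρ g v) = B.ρ g (f v)) (v : B.V) :
    (tt_isoOfAddEquiv f hf).inv.hom v = f.symm v := rfl

/-- The coefficient isomorphism `res e C ≅ C'` from an additive equivalence `C ≃+ C'`
equivariant along `e`. -/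
def tt_trIsoOfAddEquiv {G' : Type} [Group G'] (e : G' ≃* G) {C : Rep.{0} ℤ G} {C' : Rep.{0} ℤ G'}
    (f : C.V ≃+ C'.V) (hf : ∀ (g' : G') (v : C.V), f (C.ρ (e g') v) = C'.ρ g' (f v)) :
    Rep.res (e : G' →* G) C ≅ C' :=
  tt_isoOfAddEquiv (A := Rep.res (e : G' →* G) C) (B := C') f hf

theorem tt_trIsoOfAddEquiv_hom_apply {G' : Type} [Group G'] (e : G' ≃* G) {C : Rep.{0} ℤ G}
    {C' : Rep.{0} ℤ G'} (f : C.V ≃+ C'.V)
    (hf : ∀ (g' : G') (v : C.V), f (C.ρ (e g') v) = C'.ρ g' (f v)) (v : C.V) :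
    (tt_trIsoOfAddEquiv e f hf).hom.hom v = f v := rfl

end mkIso

section transport

variable {Γ Γ' : Type} [Group Γ] [Group Γ'] {p : ℕ} {C : Rep.{0} ℤ Γ} {C' : Rep.{0} ℤ Γ'}

/-- The invariant of a restricted class only depends on the subgroup up to equality. -/
theorem PClassModule.inv_congr (P : PClassModule p C) {H K : Subgroup Γ} (h : H = K)
    (z : groupCohomology C 2) :
    P.inv H ((tt_resMap H C 2).hom z) = P.inv K ((tt_resMap K C 2).hom z) := by
  subst h
  rfl

variable (P : PClassModule p C) (e : Γ' ≃* Γ) (φ : Rep.res (e : Γ' →* Γ) C ≅ C')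

lemma tt_trSub_inv_res (H' : Subgroup Γ') (n : ℕ) (z : groupCohomology C n) :
    (tt_trSub e φ H' n).inv.hom ((tt_resMap H' C' n).hom ((tt_trIso e φ n).hom.hom z)) =
      (tt_resMap (H'.map (e : Γ' →* Γ)) C n).hom z := by
  have h := tt_trSub_naturality e φ H' n
  have h2 : (tt_resMap H' C' n).hom ((tt_trIso e φ n).hom.hom z) =
      (tt_trSub e φ H' n).hom.hom ((tt_resMap (H'.map (e : Γ' →* Γ)) C n).hom z) := by
    have h3 := congrArg (fun f => f.hom z) h
    exact h3.symm
  rw [h2]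
  exact congrArg (fun f => f.hom ((tt_resMap (H'.map (e : Γ' →* Γ)) C n).hom z))
    (tt_trSub e φ H' n).hom_inv_id

lemma tt_isPPrimary_hom {A B : ModuleCat ℤ} (f : A ⟶ B) {a : A} (ha : tt_IsPPrimary p a) :
    tt_IsPPrimary p (f.hom a) :=
  tt_isPPrimary_map f.hom.toAddMonoidHom ha

/-- **Transport of a `p`-class module** along a group isomorphism `e : Γ' ≃* Γ` and an isomorphism
of `Γ'`-modules `res e C ≅ C'`. -/
def PClassModule.transport : PClassModule p C' where
  inv H' := (P.inv (H'.map (e : Γ' →* Γ))).comp (tt_trSub e φ H' 2).inv.hom.toAddMonoidHom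
  h1 H' x hx := by
    have h0 : (tt_trSub e φ H' 1).inv.hom x = 0 := by
      refine P.h1 _ _ ?_
      rw [← map_nsmul, hx, map_zero]
    have h2 : (tt_trSub e φ H' 1).hom.hom ((tt_trSub e φ H' 1).inv.hom x) = x :=
      congrArg (fun f => f.hom x) (tt_trSub e φ H' 1).inv_hom_id
    rw [← h2, h0, map_zero]
  inv_inj H' z hz h0 := by
    have h1 : (tt_trSub e φ H' 2).inv.hom z = 0 :=
      P.inv_inj _ _ (tt_isPPrimary_hom _ hz) h0
    have h2 : (tt_trSub e φ H' 2).hom.hom ((tt_trSub e φ H' 2).inv.hom z) = z :=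
      congrArg (fun f => f.hom z) (tt_trSub e φ H' 2).inv_hom_id
    rw [← h2, h1, map_zero]
  inv_gen := by
    obtain ⟨u, hu, hord⟩ := P.inv_gen
    refine ⟨(tt_trIso e φ 2).hom.hom u, tt_isPPrimary_hom _ hu, ?_⟩
    have h1 : (P.inv ((⊤ : Subgroup Γ').map (e : Γ' →* Γ))).comp
        (tt_trSub e φ ⊤ 2).inv.hom.toAddMonoidHom
          ((tt_resMap ⊤ C' 2).hom ((tt_trIso e φ 2).hom.hom u)) =
        P.inv ⊤ ((tt_resMap ⊤ C 2).hom u) := by
      show P.inv _ ((tt_trSub e φ ⊤ 2).inv.hom ((tt_resMap ⊤ C' 2).hom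
        ((tt_trIso e φ 2).hom.hom u))) = _
      rw [tt_trSub_inv_res]
      exact P.inv_congr (Subgroup.map_top_of_surjective _ e.surjective) u
    rw [h1, hord, Nat.card_congr e.toEquiv]
  inv_res H' z hz := by
    obtain ⟨z₀, rfl⟩ : ∃ z₀, (tt_trIso e φ 2).hom.hom z₀ = z :=
      ⟨(tt_trIso e φ 2).inv.hom z, congrArg (fun f => f.hom z) (tt_trIso e φ 2).inv_hom_id⟩
    have hz₀ : tt_IsPPrimary p z₀ := by
      have h2 : (tt_trIso e φ 2).inv.hom ((tt_trIso e φ 2).hom.hom z₀) = z₀ :=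
        congrArg (fun f => f.hom z₀) (tt_trIso e φ 2).hom_inv_id
      rw [← h2]
      exact tt_isPPrimary_hom _ hz
    show P.inv _ ((tt_trSub e φ H' 2).inv.hom ((tt_resMap H' C' 2).hom
        ((tt_trIso e φ 2).hom.hom z₀))) =
      H'.index • P.inv _ ((tt_trSub e φ ⊤ 2).inv.hom ((tt_resMap ⊤ C' 2).hom
        ((tt_trIso e φ 2).hom.hom z₀)))
    rw [tt_trSub_inv_res, tt_trSub_inv_res, P.inv_res _ z₀ hz₀, Subgroup.index_map_equiv,
      P.inv_congr (Subgroup.map_top_of_surjective _ e.surjective) z₀]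


theorem PClassModule.transport_inv_apply (H' : Subgroup Γ')
    (z' : groupCohomology (tt_res H' C') 2) :
    (P.transport e φ).inv H' z' =
      P.inv (H'.map (e : Γ' →* Γ)) ((tt_trSub e φ H' 2).inv.hom z') := rfl

/-- The transported invariant of a transported class is the original invariant. -/
theorem PClassModule.transport_inv (H' : Subgroup Γ')
    (z : groupCohomology (tt_res (H'.map (e : Γ' →* Γ)) C) 2) :
    (P.transport e φ).inv H' ((tt_trSub e φ H' 2).hom.hom z) =
      P.inv (H'.map (e : Γ' →* Γ)) z := by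
  rw [PClassModule.transport_inv_apply]
  exact congrArg (P.inv (H'.map (e : Γ' →* Γ)))
    (congrArg (fun f => f.hom z) (tt_trSub e φ H' 2).hom_inv_id)

/-- Transported invariants of restrictions of transported classes. -/
theorem PClassModule.transport_inv_res (H' : Subgroup Γ') (z : groupCohomology C 2) :
    (P.transport e φ).inv H' ((tt_resMap H' C' 2).hom ((map (e : Γ' →* Γ) φ.hom 2).hom z)) =
      P.inv (H'.map (e : Γ' →* Γ)) ((tt_resMap (H'.map (e : Γ' →* Γ)) C 2).hom z) := by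
  rw [PClassModule.transport_inv_apply]
  exact congrArg (P.inv (H'.map (e : Γ' →* Γ))) (tt_trSub_inv_res e φ H' 2 z)

/-- The transported invariant on the top layer, for **all** classes. -/
theorem PClassModule.transport_invTop (z : groupCohomology C 2) :
    (P.transport e φ).invTop ((map (e : Γ' →* Γ) φ.hom 2).hom z) = P.invTop z := by
  rw [PClassModule.invTop_apply, PClassModule.invTop_apply, PClassModule.transport_inv_res]
  exact P.inv_congr (Subgroup.map_top_of_surjective _ e.surjective) z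

theorem PClassModule.transport_invTop' (z' : groupCohomology C' 2) :
    (P.transport e φ).invTop z' = P.invTop ((tt_trIso e φ 2).inv.hom z') := by
  have h : (tt_trIso e φ 2).hom.hom ((tt_trIso e φ 2).inv.hom z') = z' :=
    congrArg (fun f => f.hom z') (tt_trIso e φ 2).inv_hom_id
  rw [← PClassModule.transport_invTop P e φ]
  exact congrArg _ h.symm

/-- The Tate–Nakayama pairings correspond under transport. -/
theorem PClassModule.transport_pairing {Y : Rep.{0} ℤ Γ} {Y' : Rep.{0} ℤ Γ'}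
    (φY : Rep.res (e : Γ' →* Γ) Y ≅ Y') (ψ : Y ⟶ C) (ψ' : Y' ⟶ C')
    (hψ : φY.hom ≫ ψ' = (Rep.resFunctor (e : Γ' →* Γ)).map ψ ≫ φ.hom)
    (y : groupCohomology Y 2) :
    (P.transport e φ).pairing ψ' ((map (e : Γ' →* Γ) φY.hom 2).hom y) = P.pairing ψ y := by
  rw [PClassModule.pairing_apply, PClassModule.pairing_apply,
    ← PClassModule.transport_invTop P e φ]
  have h1 : map (e : Γ' →* Γ) φY.hom 2 ≫ tt_coeffMap ψ' 2 =
      tt_coeffMap ψ 2 ≫ map (e : Γ' →* Γ) φ.hom 2 := by
    show map _ _ 2 ≫ map _ _ 2 = map _ _ 2 ≫ map _ _ 2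
    rw [← map_comp, ← map_comp]
    refine map_congr ?_ ?_ 2
    · ext x
      rfl
    · rw [← hψ]
      rfl
  exact congrArg (P.transport e φ).invTop (congrArg (fun f => f.hom y) h1)

/-- Transport along a group isomorphism only. -/
abbrev PClassModule.transportGroup : PClassModule p (Rep.res (e : Γ' →* Γ) C) :=
  P.transport e (Iso.refl _)

/-- Transport along an isomorphism of modules only. -/
abbrev PClassModule.transportModule {C₁ : Rep.{0} ℤ Γ} (φ₁ : C ≅ C₁) : PClassModule p C₁ :=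
  P.transport (MulEquiv.refl Γ) φ₁

end transport

end

end Fermat.Agent.S55
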