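import Mathlib

/-!
# Herbrand bridge

For a finite cyclic group `G = ⟨g⟩` and `A : Rep k G`, the orders of the cohomology groups
`Hⁱ(G, A)` (`i ≥ 1`) are the explicit subgroup indices
`h₀ = [ker (ρ g - 1) : range N]` (even `i`) and `h₁ = [ker N : range (ρ g - 1)]` (odd `i`)
used by the index calculus of `S14/FirstIneq/Herbrand.lean`.
Both `Nat.card` and `relIndex` use the convention `infinite = 0`, so no finiteness hypotheses
are needed.
-/

set_option autoImplicit false

namespace Fermat.Agent.S55

universe u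

open CategoryTheory Rep Rep.FiniteCyclicGroup

section Defs

variable {k G : Type u} [CommRing k] [Group G] [Fintype G] (A : Rep k G)

/-- `ρ g - 1` as an additive endomorphism. -/
def hb_D (g : G) : A.V →+ A.V where
  toFun a := A.ρ g a - a
  map_zero' := by simp
  map_add' a b := by simp only [map_add]; abel

/-- The norm `∑ h, ρ h` as an additive endomorphism. -/
def hb_N : A.V →+ A.V where
  toFun a := ∑ h : G, A.ρ h a
  map_zero' := by simp
  map_add' a b := by simp only [map_add, Finset.sum_add_distrib]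

omit [Fintype G] in
@[simp] lemma hb_D_apply (g : G) (a : A.V) : hb_D A g a = A.ρ g a - a := rfl

@[simp] lemma hb_N_apply (a : A.V) : hb_N A a = ∑ h : G, A.ρ h a := rfl

lemma hb_N_eq_norm (a : A.V) : hb_N A a = A.norm.hom a := by
  simp [Representation.norm]

lemma hb_N_D (g : G) (a : A.V) : hb_N A (hb_D A g a) = 0 := by
  rw [hb_N_apply]
  simp only [hb_D_apply, map_sub, Finset.sum_sub_distrib, sub_eq_zero]
  exact Fintype.sum_bijective (· * g) (Group.mulRight_bijective g) _ _ (by simp)

lemma hb_D_N (g : G) (a : A.V) : hb_D A g (hb_N A a) = 0 := by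
  rw [hb_D_apply, hb_N_apply, map_sum, sub_eq_zero]
  refine Fintype.sum_bijective (g * ·) (Group.mulLeft_bijective g)
    (fun h => A.ρ g (A.ρ h a)) (fun h => A.ρ h a) (fun h => ?_)
  simp

end Defs

section Cyclic

variable {k G : Type u} [CommRing k] [CommGroup G] [Fintype G] (A : Rep k G) (g : G)
  (hg : ∀ x, x ∈ Subgroup.zpowers g)

omit [Fintype G] in
lemma hb_mem_ker_D_iff (a : A.V) :
    a ∈ (hb_D A g).ker ↔ a ∈ LinearMap.ker (applyAsHom A g - 𝟙 A).hom.toLinearMap := by
  simp [AddMonoidHom.mem_ker, sub_hom, applyAsHom_apply]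

omit [Fintype G] in
lemma hb_mem_range_D_iff (a : A.V) :
    a ∈ (hb_D A g).range ↔ a ∈ LinearMap.range (applyAsHom A g - 𝟙 A).hom.toLinearMap := by
  simp [AddMonoidHom.mem_range, sub_hom, applyAsHom_apply]

lemma hb_mem_ker_N_iff (a : A.V) :
    a ∈ (hb_N A).ker ↔ a ∈ LinearMap.ker A.norm.hom.toLinearMap := by
  simp [AddMonoidHom.mem_ker, Representation.norm]

lemma hb_mem_range_N_iff (a : A.V) :
    a ∈ (hb_N A).range ↔ a ∈ LinearMap.range A.norm.hom.toLinearMap := by
  simp [AddMonoidHom.mem_range, Representation.norm]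

/-- The class map `ker (ρ g - 1) → Hⁱ(G, A)` for even `i > 0`, as an additive map. -/
noncomputable def hb_classEven (i : ℕ) [NeZero i] (hi : Even i) :
    (hb_D A g).ker →+ groupCohomology A i where
  toFun a := groupCohomologyπEven A g hg i hi ⟨a.1, (hb_mem_ker_D_iff A g a.1).1 a.2⟩
  map_zero' := by
    have : (⟨0, (hb_mem_ker_D_iff A g 0).1 (zero_mem _)⟩ :
      LinearMap.ker (applyAsHom A g - 𝟙 A).hom.toLinearMap) = 0 := rfl
    simp only [ZeroMemClass.coe_zero]
    rw [this, map_zero]
  map_add' a b := by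
    rw [← map_add]
    rfl

/-- The class map `ker N → Hⁱ(G, A)` for odd `i`, as an additive map. -/
noncomputable def hb_classOdd (i : ℕ) (hi : Odd i) :
    (hb_N A).ker →+ groupCohomology A i where
  toFun a := groupCohomologyπOdd A g hg i hi ⟨a.1, (hb_mem_ker_N_iff A a.1).1 a.2⟩
  map_zero' := by
    have : (⟨0, (hb_mem_ker_N_iff A 0).1 (zero_mem _)⟩ :
      LinearMap.ker A.norm.hom.toLinearMap) = 0 := rfl
    simp only [ZeroMemClass.coe_zero]
    rw [this, map_zero]
  map_add' a b := by
    rw [← map_add]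
    rfl

set_option backward.isDefEq.respectTransparency false in
lemma hb_classEven_surjective (i : ℕ) [NeZero i] (hi : Even i) :
    Function.Surjective (hb_classEven A g hg i hi) := by
  have hepi : Epi (groupCohomologyπEven A g hg i hi) := by
    unfold groupCohomologyπEven
    infer_instance
  have hs := (ModuleCat.epi_iff_surjective _).1 hepi
  intro y
  obtain ⟨x, hx⟩ := hs y
  exact ⟨⟨x.1, (hb_mem_ker_D_iff A g x.1).2 x.2⟩, hx⟩

set_option backward.isDefEq.respectTransparency false in
lemma hb_classOdd_surjective (i : ℕ) (hi : Odd i) :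
    Function.Surjective (hb_classOdd A g hg i hi) := by
  have hepi : Epi (groupCohomologyπOdd A g hg i hi) := by
    unfold groupCohomologyπOdd
    infer_instance
  have hs := (ModuleCat.epi_iff_surjective _).1 hepi
  intro y
  obtain ⟨x, hx⟩ := hs y
  exact ⟨⟨x.1, (hb_mem_ker_N_iff A x.1).2 x.2⟩, hx⟩

lemma hb_ker_classEven (i : ℕ) [NeZero i] (hi : Even i) :
    (hb_classEven A g hg i hi).ker = (hb_N A).range.addSubgroupOf (hb_D A g).ker := by
  ext a
  rw [AddMonoidHom.mem_ker, AddSubgroup.mem_addSubgroupOf, hb_mem_range_N_iff]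
  exact groupCohomologyπEven_eq_zero_iff A g hg i hi _

lemma hb_ker_classOdd (i : ℕ) (hi : Odd i) :
    (hb_classOdd A g hg i hi).ker = (hb_D A g).range.addSubgroupOf (hb_N A).ker := by
  ext a
  rw [AddMonoidHom.mem_ker, AddSubgroup.mem_addSubgroupOf, hb_mem_range_D_iff]
  exact groupCohomologyπOdd_eq_zero_iff A g hg i hi _

/-- `Hⁱ(G, A) ≃ ker (ρ g - 1) ⧸ range N` for even `i > 0`. -/
noncomputable def hb_equivEven (i : ℕ) [NeZero i] (hi : Even i) :
    ((hb_D A g).ker ⧸ (hb_N A).range.addSubgroupOf (hb_D A g).ker) ≃+ groupCohomology A i :=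
  (QuotientAddGroup.quotientAddEquivOfEq (hb_ker_classEven A g hg i hi).symm).trans
    (QuotientAddGroup.quotientKerEquivOfSurjective _ (hb_classEven_surjective A g hg i hi))

/-- `Hⁱ(G, A) ≃ ker N ⧸ range (ρ g - 1)` for odd `i`. -/
noncomputable def hb_equivOdd (i : ℕ) (hi : Odd i) :
    ((hb_N A).ker ⧸ (hb_D A g).range.addSubgroupOf (hb_N A).ker) ≃+ groupCohomology A i :=
  (QuotientAddGroup.quotientAddEquivOfEq (hb_ker_classOdd A g hg i hi).symm).trans
    (QuotientAddGroup.quotientKerEquivOfSurjective _ (hb_classOdd_surjective A g hg i hi))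

include hg in
/-- **Herbrand bridge, even degrees**: `|Hⁱ(G, A)| = [ker (ρ g - 1) : range N]`. -/
theorem hb_card_even (i : ℕ) [NeZero i] (hi : Even i) :
    Nat.card (groupCohomology A i) = (hb_N A).range.relIndex (hb_D A g).ker := by
  rw [AddSubgroup.relIndex, AddSubgroup.index_eq_card]
  exact (Nat.card_congr (hb_equivEven A g hg i hi).toEquiv).symm

include hg in
/-- **Herbrand bridge, odd degrees**: `|Hⁱ(G, A)| = [ker N : range (ρ g - 1)]`. -/
theorem hb_card_odd (i : ℕ) (hi : Odd i) :
    Nat.card (groupCohomology A i) = (hb_D A g).range.relIndex (hb_N A).ker := by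
  rw [AddSubgroup.relIndex, AddSubgroup.index_eq_card]
  exact (Nat.card_congr (hb_equivOdd A g hg i hi).toEquiv).symm

end Cyclic

section Corollaries

variable {k G : Type u} [CommRing k] [CommGroup G] [Fintype G] (A : Rep k G) (g : G)
  (hg : ∀ x, x ∈ Subgroup.zpowers g)

include hg in
/-- `Hⁱ(G, A) = 0` for odd `i` iff `ker N ≤ range (ρ g - 1)`. -/
theorem hb_subsingleton_odd_iff (i : ℕ) (hi : Odd i) :
    Subsingleton (groupCohomology A i) ↔ (hb_N A).ker ≤ (hb_D A g).range := by
  rw [← AddSubgroup.relIndex_eq_one, ← hb_card_odd A g hg i hi]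
  constructor
  · intro h
    exact Nat.card_unique
  · intro h
    exact (Nat.card_eq_one_iff_unique.1 h).1

include hg in
/-- `Hⁱ(G, A) = 0` for even `i > 0` iff `ker (ρ g - 1) ≤ range N`. -/
theorem hb_subsingleton_even_iff (i : ℕ) [NeZero i] (hi : Even i) :
    Subsingleton (groupCohomology A i) ↔ (hb_D A g).ker ≤ (hb_N A).range := by
  rw [← AddSubgroup.relIndex_eq_one, ← hb_card_even A g hg i hi]
  constructor
  · intro h
    exact Nat.card_unique
  · intro h
    exact (Nat.card_eq_one_iff_unique.1 h).1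

include hg in
/-- Periodicity of the orders: all even positive degrees have the same order. -/
theorem hb_card_even_eq (i j : ℕ) [NeZero i] [NeZero j] (hi : Even i) (hj : Even j) :
    Nat.card (groupCohomology A i) = Nat.card (groupCohomology A j) := by
  rw [hb_card_even A g hg i hi, hb_card_even A g hg j hj]

include hg in
/-- Periodicity of the orders: all odd degrees have the same order. -/
theorem hb_card_odd_eq (i j : ℕ) (hi : Odd i) (hj : Odd j) :
    Nat.card (groupCohomology A i) = Nat.card (groupCohomology A j) := by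
  rw [hb_card_odd A g hg i hi, hb_card_odd A g hg j hj]

end Corollaries

section NonCommTyped

/-- A group all of whose elements are powers of one element is commutative. -/
@[reducible] def hb_commGroup {G : Type*} [Group G] (g : G) (hg : ∀ x, x ∈ Subgroup.zpowers g) :
    CommGroup G :=
  { (inferInstance : Group G) with
    mul_comm := fun a b => by
      obtain ⟨m, rfl⟩ := Subgroup.mem_zpowers_iff.1 (hg a)
      obtain ⟨n, rfl⟩ := Subgroup.mem_zpowers_iff.1 (hg b)
      rw [← zpow_add, ← zpow_add, add_comm] }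

variable {k G : Type u} [CommRing k] [Group G] [Fintype G] (A : Rep k G) (g : G)
  (hg : ∀ x, x ∈ Subgroup.zpowers g)

include hg in
/-- `hb_card_even` for a group which is not syntactically commutative. -/
theorem hb_card_even' (i : ℕ) [NeZero i] (hi : Even i) :
    Nat.card (groupCohomology A i) = (hb_N A).range.relIndex (hb_D A g).ker := by
  let _ := hb_commGroup g hg
  exact hb_card_even A g hg i hi

include hg in
/-- `hb_card_odd` for a group which is not syntactically commutative. -/
theorem hb_card_odd' (i : ℕ) (hi : Odd i) :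
    Nat.card (groupCohomology A i) = (hb_D A g).range.relIndex (hb_N A).ker := by
  let _ := hb_commGroup g hg
  exact hb_card_odd A g hg i hi

include hg in
theorem hb_subsingleton_odd_iff' (i : ℕ) (hi : Odd i) :
    Subsingleton (groupCohomology A i) ↔ (hb_N A).ker ≤ (hb_D A g).range := by
  let _ := hb_commGroup g hg
  exact hb_subsingleton_odd_iff A g hg i hi

include hg in
theorem hb_subsingleton_even_iff' (i : ℕ) [NeZero i] (hi : Even i) :
    Subsingleton (groupCohomology A i) ↔ (hb_D A g).ker ≤ (hb_N A).range := by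
  let _ := hb_commGroup g hg
  exact hb_subsingleton_even_iff A g hg i hi

end NonCommTyped

section Multiplicative

variable {Γ U : Type} [Group Γ] [Fintype Γ] [CommGroup U] [MulDistribMulAction Γ U]

/-- `x ↦ σ • x / x` as a monoid endomorphism of a multiplicative `Γ`-module. -/
def hb_mulD (σ : Γ) : U →* U where
  toFun x := σ • x / x
  map_one' := by simp
  map_mul' x y := by rw [smul_mul', mul_div_mul_comm]

/-- The norm `x ↦ ∏ τ, τ • x` as a monoid endomorphism. -/
def hb_mulN (Γ : Type) {U : Type} [Group Γ] [Fintype Γ] [CommGroup U]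
    [MulDistribMulAction Γ U] : U →* U where
  toFun x := ∏ τ : Γ, τ • x
  map_one' := by simp
  map_mul' x y := by simp only [smul_mul', Finset.prod_mul_distrib]

omit [Fintype Γ] in
@[simp] lemma hb_mulD_apply (σ : Γ) (x : U) : hb_mulD σ x = σ • x / x := rfl

@[simp] lemma hb_mulN_apply (x : U) : hb_mulN Γ x = ∏ τ : Γ, τ • x := rfl

lemma hb_mulN_mulD (σ : Γ) (x : U) : hb_mulN Γ (hb_mulD σ x) = 1 := by
  simp only [hb_mulN_apply, hb_mulD_apply, smul_div', Finset.prod_div_distrib, div_eq_one]
  refine Fintype.prod_bijective (· * σ) (Group.mulRight_bijective σ) _ _ (fun τ => ?_)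
  rw [mul_smul]

lemma hb_mulD_mulN (σ : Γ) (x : U) : hb_mulD σ (hb_mulN Γ x) = 1 := by
  simp only [hb_mulN_apply, hb_mulD_apply, Finset.smul_prod', div_eq_one]
  refine Fintype.prod_bijective (σ * ·) (Group.mulLeft_bijective σ) _ _ (fun τ => ?_)
  rw [mul_smul]

lemma hb_N_mul_apply (y : Additive U) :
    hb_N (Rep.ofMulDistribMulAction Γ U) y = Additive.ofMul (hb_mulN Γ (Additive.toMul y)) := rfl

omit [Fintype Γ] in
lemma hb_D_mul_apply (σ : Γ) (y : Additive U) :
    hb_D (Rep.ofMulDistribMulAction Γ U) σ y = Additive.ofMul (hb_mulD σ (Additive.toMul y)) := rfl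

lemma hb_range_N_mul :
    (hb_N (Rep.ofMulDistribMulAction Γ U)).range =
      Subgroup.toAddSubgroup (hb_mulN Γ (U := U)).range := by
  apply le_antisymm
  · rintro _ ⟨y, rfl⟩
    exact ⟨Additive.toMul (show Additive U from y), rfl⟩
  · rintro _ ⟨y, rfl⟩
    exact ⟨Additive.ofMul y, rfl⟩

omit [Fintype Γ] in
lemma hb_range_D_mul (σ : Γ) :
    (hb_D (Rep.ofMulDistribMulAction Γ U) σ).range =
      Subgroup.toAddSubgroup (hb_mulD σ (U := U)).range := by
  apply le_antisymm
  · rintro _ ⟨y, rfl⟩
    exact ⟨Additive.toMul (show Additive U from y), rfl⟩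
  · rintro _ ⟨y, rfl⟩
    exact ⟨Additive.ofMul y, rfl⟩

omit [Fintype Γ] in
lemma hb_ker_D_mul (σ : Γ) :
    (hb_D (Rep.ofMulDistribMulAction Γ U) σ).ker =
      Subgroup.toAddSubgroup (hb_mulD σ (U := U)).ker := by
  ext x
  rfl

lemma hb_ker_N_mul :
    (hb_N (Rep.ofMulDistribMulAction Γ U)).ker =
      Subgroup.toAddSubgroup (hb_mulN Γ (U := U)).ker := by
  ext x
  rfl

variable (σ : Γ) (hσ : ∀ x, x ∈ Subgroup.zpowers σ)

include hσ in
/-- Multiplicative form, even degrees: `|Hⁱ(Γ, U)| = [ker (σ - 1) : N U]`. -/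
theorem hb_mul_card_even (i : ℕ) [NeZero i] (hi : Even i) :
    Nat.card (groupCohomology (Rep.ofMulDistribMulAction Γ U) i) =
      (hb_mulN Γ (U := U)).range.relIndex (hb_mulD σ).ker := by
  rw [hb_card_even' _ σ hσ i hi, hb_range_N_mul, hb_ker_D_mul]
  rfl

include hσ in
/-- Multiplicative form, odd degrees: `|Hⁱ(Γ, U)| = [ker N : (σ - 1) U]`. -/
theorem hb_mul_card_odd (i : ℕ) (hi : Odd i) :
    Nat.card (groupCohomology (Rep.ofMulDistribMulAction Γ U) i) =
      (hb_mulD σ (U := U)).range.relIndex (hb_mulN Γ).ker := by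
  rw [hb_card_odd' _ σ hσ i hi, hb_range_D_mul, hb_ker_N_mul]
  rfl

end Multiplicative

end Fermat.Agent.S55
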