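import Fermat.Agent.S55.Tate.ClassModule

/-!
# The internal Hom of representations and lattices (shared definitions of block A)

* `tt_hom Y A`: the representation on `Y →ₗ[k] A` by conjugation, `(g • f) y = g • f (g⁻¹ • y)`;
* `tt_IsLattice Y`: `Y` is free of finite rank as an abelian group (instance-free form);
* `tt_ev y hy`: evaluation at an invariant element, a morphism `tt_hom Y A ⟶ A`;
* `tt_homPost φ`, `tt_homPre ψ`: functoriality in both variables.
-/

set_option autoImplicit false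

namespace Fermat.Agent.S55

open CategoryTheory

section general

variable {k G : Type} [CommRing k] [Group G]

/-- internal Hom `Hom_k(Y, A)` with `(g • f) y = g • f (g⁻¹ • y)`.  State lemmas for a general
commutative ring `k` and specialise to `k := ℤ` afterwards. -/
noncomputable abbrev tt_hom (Y A : Rep.{0} k G) : Rep.{0} k G :=
  Rep.of (Representation.linHom Y.ρ A.ρ)

theorem tt_hom_ρ_apply (Y A : Rep.{0} k G) (g : G) (f : Y.V →ₗ[k] A.V) (y : Y.V) :
    (tt_hom Y A).ρ g f y = A.ρ g (f (Y.ρ g⁻¹ y)) := rfl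

/-- evaluation at an invariant element -/
noncomputable def tt_ev {Y : Rep.{0} k G} (A : Rep.{0} k G) (y : Y.V) (hy : ∀ g, Y.ρ g y = y) :
    tt_hom Y A ⟶ A :=
  Rep.ofHom
    { toLinearMap := LinearMap.applyₗ y
      isIntertwining' := fun g => by
        ext f
        change A.ρ g (f (Y.ρ g⁻¹ y)) = A.ρ g (f y)
        rw [hy] }

theorem tt_ev_apply {Y : Rep.{0} k G} (A : Rep.{0} k G) (y : Y.V) (hy : ∀ g, Y.ρ g y = y)
    (f : Y.V →ₗ[k] A.V) : (tt_ev A y hy).hom f = f y := rfl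

/-- post-composition `Hom(Y, A) ⟶ Hom(Y, B)` -/
noncomputable def tt_homPost (Y : Rep.{0} k G) {A B : Rep.{0} k G} (φ : A ⟶ B) :
    tt_hom Y A ⟶ tt_hom Y B :=
  Rep.ofHom
    { toLinearMap := LinearMap.llcomp k Y.V A.V B.V φ.hom.toLinearMap
      isIntertwining' := fun g => by
        ext f y
        change φ.hom (A.ρ g (f (Y.ρ g⁻¹ y))) = B.ρ g (φ.hom (f (Y.ρ g⁻¹ y)))
        exact Rep.hom_comm_apply φ g _ }

theorem tt_homPost_apply (Y : Rep.{0} k G) {A B : Rep.{0} k G} (φ : A ⟶ B)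
    (f : Y.V →ₗ[k] A.V) (y : Y.V) : (tt_homPost Y φ).hom f y = φ.hom (f y) := rfl

/-- pre-composition `Hom(Y, A) ⟶ Hom(Z, A)` for `ψ : Z ⟶ Y` -/
noncomputable def tt_homPre {Z Y : Rep.{0} k G} (ψ : Z ⟶ Y) (A : Rep.{0} k G) :
    tt_hom Y A ⟶ tt_hom Z A :=
  Rep.ofHom
    { toLinearMap := LinearMap.lcomp k A.V ψ.hom.toLinearMap
      isIntertwining' := fun g => by
        ext f z
        change A.ρ g (f (Y.ρ g⁻¹ (ψ.hom z))) = A.ρ g (f (ψ.hom (Z.ρ g⁻¹ z)))
        rw [Rep.hom_comm_apply ψ g⁻¹ z] }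

theorem tt_homPre_apply {Z Y : Rep.{0} k G} (ψ : Z ⟶ Y) (A : Rep.{0} k G)
    (f : Y.V →ₗ[k] A.V) (z : Z.V) : (tt_homPre ψ A).hom f z = f (ψ.hom z) := rfl

end general

/-- `Y` is free of finite rank as an abelian group (instance-free formulation). -/
def tt_IsLattice {G : Type} [Group G] (Y : Rep.{0} ℤ G) : Prop :=
  ∃ n : ℕ, Nonempty (Y.V ≃+ (Fin n → ℤ))

end Fermat.Agent.S55
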