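import Mathlib

/-!
# S55 / Tate cohomology in degrees `0` and `-1`

Explicit descriptions of Mathlib's `tateCohomology M 0` and `tateCohomology M (-1)`:
`Ĥ⁰ = M^G / N M` and `Ĥ⁻¹ = ker N / I_G M`.
-/

set_option autoImplicit false

namespace Fermat.Agent.S55

open CategoryTheory groupCohomology groupHomology ShortComplex

universe u
variable {R G : Type u} [CommRing R] [Group G] [Fintype G]

/-- The explicit short complex `M --N--> M --d₀₁--> (G → M)`. -/
noncomputable abbrev tt_sc0 (M : Rep R G) : ShortComplex (ModuleCat R) :=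
  ShortComplex.mk M.norm.toModuleCatHom (d₀₁ M) (Rep.norm_comp_d_eq_zero M)

/-- Auxiliary isomorphisms (with the expected types spelled out). -/
noncomputable def tt_e1 (M : Rep R G) :
    (HomologicalComplex.sc' (tateComplex M) (-1) 0 1).X₁ ≅ (tt_sc0 M).X₁ := chainsIso₀ M

noncomputable def tt_e2 (M : Rep R G) :
    (HomologicalComplex.sc' (tateComplex M) (-1) 0 1).X₂ ≅ (tt_sc0 M).X₂ := cochainsIso₀ M

noncomputable def tt_e3 (M : Rep R G) :
    (HomologicalComplex.sc' (tateComplex M) (-1) 0 1).X₃ ≅ (tt_sc0 M).X₃ := cochainsIso₁ M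

/-- The degree `0` short complex of the Tate complex is the explicit one. -/
noncomputable def tt_isoSc0 (M : Rep R G) : (tateComplex M).sc 0 ≅ tt_sc0 M :=
  (tateComplex M).isoSc' (-1) 0 1 (by simp) (by simp) ≪≫
    ShortComplex.isoMk (tt_e1 M) (tt_e2 M) (tt_e3 M)
      (by
        change (chainsIso₀ M).hom ≫ M.norm.toModuleCatHom = M.tateNorm ≫ (cochainsIso₀ M).hom
        simp [Rep.tateNorm])
      (by
        change (cochainsIso₀ M).hom ≫ d₀₁ M = (inhomogeneousCochains M).d 0 1 ≫ (cochainsIso₁ M).hom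
        exact comp_d₀₁_eq M)

/-- The `0`-cocycles of the Tate complex are `ker d₀₁ = M^G`. -/
noncomputable def tt_isoCocycles0 (M : Rep R G) :
    (tateComplex M).cycles 0 ≅ ModuleCat.of R (LinearMap.ker (d₀₁ M).hom) :=
  cyclesMapIso' (tt_isoSc0 M) _ (tt_sc0 M).moduleCatLeftHomologyData

/-- The class map `ker d₀₁ → Ĥ⁰(G, M)`. -/
noncomputable def tt_H0π (M : Rep R G) :
    ModuleCat.of R (LinearMap.ker (d₀₁ M).hom) ⟶ (tateComplex M).homology 0 :=
  (tt_isoCocycles0 M).inv ≫ (tateComplex M).homologyπ 0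

/-- `Ĥ⁰(G, M) ≅ ker d₀₁ / range N`. -/
noncomputable def tt_H0Iso (M : Rep R G) :
    (tateComplex M).homology 0 ≅ (tt_sc0 M).moduleCatLeftHomologyData.H :=
  (leftHomologyIso _).symm ≪≫ leftHomologyMapIso' (tt_isoSc0 M) _ _

set_option backward.isDefEq.respectTransparency false in
lemma tt_π_comp_H0Iso_hom (M : Rep R G) :
    (tateComplex M).homologyπ 0 ≫ (tt_H0Iso M).hom =
      (tt_isoCocycles0 M).hom ≫ (tt_sc0 M).moduleCatLeftHomologyData.π := by
  simp [tt_H0Iso, tt_isoCocycles0, HomologicalComplex.homologyπ, leftHomologyπ]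

set_option backward.isDefEq.respectTransparency false in
lemma tt_H0π_comp_H0Iso_hom (M : Rep R G) :
    tt_H0π M ≫ (tt_H0Iso M).hom = (tt_sc0 M).moduleCatLeftHomologyData.π := by
  rw [tt_H0π, Category.assoc, tt_π_comp_H0Iso_hom, Iso.inv_hom_id_assoc]

set_option backward.isDefEq.respectTransparency false in
instance tt_epi_H0π (M : Rep R G) : Epi (tt_H0π M) := inferInstanceAs <| Epi (_ ≫ _)

lemma tt_H0π_surjective (M : Rep R G) : Function.Surjective (tt_H0π M) :=
  (ModuleCat.epi_iff_surjective _).mp inferInstance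

set_option backward.isDefEq.respectTransparency false in
/-- A class in `Ĥ⁰` vanishes iff the invariant is a norm. -/
lemma tt_H0π_eq_zero_iff (M : Rep R G) (x : LinearMap.ker (d₀₁ M).hom) :
    tt_H0π M x = 0 ↔ (x : M) ∈ LinearMap.range M.ρ.norm := by
  have h1 : tt_H0π M x = 0 ↔ (tt_H0Iso M).hom (tt_H0π M x) = 0 :=
    (map_eq_zero_iff _ ((ModuleCat.mono_iff_injective _).1 inferInstance)).symm
  rw [h1, ← ModuleCat.comp_apply, tt_H0π_comp_H0Iso_hom]
  change Submodule.Quotient.mk x = 0 ↔ _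
  rw [Submodule.Quotient.mk_eq_zero, LinearMap.mem_range]
  constructor
  · rintro ⟨m, hm⟩
    exact ⟨m, congrArg Subtype.val hm⟩
  · rintro ⟨m, hm⟩
    exact ⟨m, Subtype.ext hm⟩

/-! ### Degree `-1` -/

/-- The explicit short complex `(G →₀ M) --d₁₀--> M --N--> M`. -/
noncomputable abbrev tt_scm1 (M : Rep R G) : ShortComplex (ModuleCat R) :=
  ShortComplex.mk (d₁₀ M) M.norm.toModuleCatHom (Rep.comp_eq_zero M)

noncomputable def tt_f1 (M : Rep R G) :
    (HomologicalComplex.sc' (tateComplex M) (-2) (-1) 0).X₁ ≅ (tt_scm1 M).X₁ := chainsIso₁ M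

noncomputable def tt_f2 (M : Rep R G) :
    (HomologicalComplex.sc' (tateComplex M) (-2) (-1) 0).X₂ ≅ (tt_scm1 M).X₂ := chainsIso₀ M

noncomputable def tt_f3 (M : Rep R G) :
    (HomologicalComplex.sc' (tateComplex M) (-2) (-1) 0).X₃ ≅ (tt_scm1 M).X₃ := cochainsIso₀ M

/-- The degree `-1` short complex of the Tate complex is the explicit one. -/
noncomputable def tt_isoScm1 (M : Rep R G) : (tateComplex M).sc (-1) ≅ tt_scm1 M :=
  (tateComplex M).isoSc' (-2) (-1) 0 (by simp) (by simp) ≪≫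
    ShortComplex.isoMk (tt_f1 M) (tt_f2 M) (tt_f3 M)
      (by
        change (chainsIso₁ M).hom ≫ d₁₀ M = (inhomogeneousChains M).d 1 0 ≫ (chainsIso₀ M).hom
        exact comp_d₁₀_eq M)
      (by
        change (chainsIso₀ M).hom ≫ M.norm.toModuleCatHom = M.tateNorm ≫ (cochainsIso₀ M).hom
        simp [Rep.tateNorm])

/-- The `(-1)`-cocycles of the Tate complex are `ker N`. -/
noncomputable def tt_isoCocyclesm1 (M : Rep R G) :
    (tateComplex M).cycles (-1) ≅ ModuleCat.of R (LinearMap.ker M.norm.toModuleCatHom.hom) :=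
  cyclesMapIso' (tt_isoScm1 M) _ (tt_scm1 M).moduleCatLeftHomologyData

/-- The class map `ker N → Ĥ⁻¹(G, M)`. -/
noncomputable def tt_Hm1π (M : Rep R G) :
    ModuleCat.of R (LinearMap.ker M.norm.toModuleCatHom.hom) ⟶ (tateComplex M).homology (-1) :=
  (tt_isoCocyclesm1 M).inv ≫ (tateComplex M).homologyπ (-1)

/-- `Ĥ⁻¹(G, M) ≅ ker N / range d₁₀`. -/
noncomputable def tt_Hm1Iso (M : Rep R G) :
    (tateComplex M).homology (-1) ≅ (tt_scm1 M).moduleCatLeftHomologyData.H :=
  (leftHomologyIso _).symm ≪≫ leftHomologyMapIso' (tt_isoScm1 M) _ _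

set_option backward.isDefEq.respectTransparency false in
lemma tt_π_comp_Hm1Iso_hom (M : Rep R G) :
    (tateComplex M).homologyπ (-1) ≫ (tt_Hm1Iso M).hom =
      (tt_isoCocyclesm1 M).hom ≫ (tt_scm1 M).moduleCatLeftHomologyData.π := by
  simp [tt_Hm1Iso, tt_isoCocyclesm1, HomologicalComplex.homologyπ, leftHomologyπ]

set_option backward.isDefEq.respectTransparency false in
lemma tt_Hm1π_comp_Hm1Iso_hom (M : Rep R G) :
    tt_Hm1π M ≫ (tt_Hm1Iso M).hom = (tt_scm1 M).moduleCatLeftHomologyData.π := by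
  rw [tt_Hm1π, Category.assoc, tt_π_comp_Hm1Iso_hom, Iso.inv_hom_id_assoc]

set_option backward.isDefEq.respectTransparency false in
instance tt_epi_Hm1π (M : Rep R G) : Epi (tt_Hm1π M) := inferInstanceAs <| Epi (_ ≫ _)

lemma tt_Hm1π_surjective (M : Rep R G) : Function.Surjective (tt_Hm1π M) :=
  (ModuleCat.epi_iff_surjective _).mp inferInstance

set_option backward.isDefEq.respectTransparency false in
/-- A class in `Ĥ⁻¹` vanishes iff the element lies in `I_G M`. -/
lemma tt_Hm1π_eq_zero_iff (M : Rep R G) (x : LinearMap.ker M.norm.toModuleCatHom.hom) :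
    tt_Hm1π M x = 0 ↔ (x : M) ∈ Representation.Coinvariants.ker M.ρ := by
  have h1 : tt_Hm1π M x = 0 ↔ (tt_Hm1Iso M).hom (tt_Hm1π M x) = 0 :=
    (map_eq_zero_iff _ ((ModuleCat.mono_iff_injective _).1 inferInstance)).symm
  rw [h1, ← ModuleCat.comp_apply, tt_Hm1π_comp_Hm1Iso_hom, ← range_d₁₀_eq_coinvariantsKer]
  change Submodule.Quotient.mk x = 0 ↔ _
  rw [Submodule.Quotient.mk_eq_zero, LinearMap.mem_range]
  constructor
  · rintro ⟨m, hm⟩
    exact ⟨m, congrArg Subtype.val hm⟩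
  · rintro ⟨m, hm⟩
    exact ⟨m, Subtype.ext hm⟩

/-! ### Compatibility with `iCycles` -/

set_option backward.defeqAttrib.useBackward true in
set_option backward.isDefEq.respectTransparency false in
lemma tt_isoCocycles0_hom_comp_i (M : Rep R G) :
    (tt_isoCocycles0 M).hom ≫ (tt_sc0 M).moduleCatLeftHomologyData.i =
      (tateComplex M).iCycles 0 ≫ (cochainsIso₀ M).hom := by
  simp [tt_isoCocycles0, tt_isoSc0, tt_e2, HomologicalComplex.iCycles, ShortComplex.iCycles]

lemma tt_isoCocycles0_inv_comp_iCycles (M : Rep R G) :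
    (tt_isoCocycles0 M).inv ≫ (tateComplex M).iCycles 0 =
      (tt_sc0 M).moduleCatLeftHomologyData.i ≫ (cochainsIso₀ M).inv :=
  (CommSq.horiz_inv ⟨tt_isoCocycles0_hom_comp_i M⟩).w

set_option backward.defeqAttrib.useBackward true in
set_option backward.isDefEq.respectTransparency false in
lemma tt_isoCocyclesm1_hom_comp_i (M : Rep R G) :
    (tt_isoCocyclesm1 M).hom ≫ (tt_scm1 M).moduleCatLeftHomologyData.i =
      (tateComplex M).iCycles (-1) ≫ (chainsIso₀ M).hom := by
  simp [tt_isoCocyclesm1, tt_isoScm1, tt_f2, HomologicalComplex.iCycles, ShortComplex.iCycles]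

lemma tt_isoCocyclesm1_inv_comp_iCycles (M : Rep R G) :
    (tt_isoCocyclesm1 M).inv ≫ (tateComplex M).iCycles (-1) =
      (tt_scm1 M).moduleCatLeftHomologyData.i ≫ (chainsIso₀ M).inv :=
  (CommSq.horiz_inv ⟨tt_isoCocyclesm1_hom_comp_i M⟩).w

/-! ### Elementwise forms -/

set_option backward.isDefEq.respectTransparency false in
lemma tt_iCycles_isoCocycles0_inv (M : Rep R G) (x : LinearMap.ker (d₀₁ M).hom) :
    (tateComplex M).iCycles 0 ((tt_isoCocycles0 M).inv x) = (cochainsIso₀ M).inv x.1 := by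
  have := tt_isoCocycles0_inv_comp_iCycles M
  exact congr($this x)

set_option backward.isDefEq.respectTransparency false in
lemma tt_iCycles_isoCocyclesm1_inv (M : Rep R G) (x : LinearMap.ker M.norm.toModuleCatHom.hom) :
    (tateComplex M).iCycles (-1) ((tt_isoCocyclesm1 M).inv x) = (chainsIso₀ M).inv x.1 := by
  have := tt_isoCocyclesm1_inv_comp_iCycles M
  exact congr($this x)

omit [Fintype G] in
set_option backward.isDefEq.respectTransparency false in
lemma tt_chainsMap_f0_inv {M M' : Rep R G} (φ : M ⟶ M') (m : M) :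
    (chainsMap (MonoidHom.id G) φ).f 0 ((chainsIso₀ M).inv m) = (chainsIso₀ M').inv (φ.hom m) := by
  apply (ModuleCat.mono_iff_injective (chainsIso₀ M').hom).1 inferInstance
  have h2 := chainsMap_f_0_comp_chainsIso₀ (MonoidHom.id G) φ
  have h3 := congr($h2 ((chainsIso₀ M).inv m))
  rw [ConcreteCategory.comp_apply, ConcreteCategory.comp_apply] at h3
  rw [h3]
  simp

omit [Fintype G] in
set_option backward.isDefEq.respectTransparency false in
lemma tt_cochainsMap_f0_inv {M M' : Rep R G} (φ : M ⟶ M') (m : M) :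
    (cochainsMap (MonoidHom.id G) φ).f 0 ((cochainsIso₀ M).inv m) =
      (cochainsIso₀ M').inv (φ.hom m) := by
  apply (ModuleCat.mono_iff_injective (cochainsIso₀ M').hom).1 inferInstance
  have h2 := cochainsMap_f_0_comp_cochainsIso₀ (MonoidHom.id G) φ
  have h3 := congr($h2 ((cochainsIso₀ M).inv m))
  rw [ConcreteCategory.comp_apply, ConcreteCategory.comp_apply] at h3
  rw [h3]
  simp

/-! ### Naturality -/

set_option backward.isDefEq.respectTransparency false in
/-- Naturality of the class map in degree `0`. -/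
lemma tt_H0π_map {M M' : Rep R G} (φ : M ⟶ M') (x : LinearMap.ker (d₀₁ M).hom)
    (x' : LinearMap.ker (d₀₁ M').hom) (h : φ.hom x.1 = x'.1) :
    HomologicalComplex.homologyMap (tateComplex.map φ) 0 (tt_H0π M x) = tt_H0π M' x' := by
  have h1 := HomologicalComplex.homologyπ_naturality (tateComplex.map φ) 0
  change (HomologicalComplex.homologyMap (tateComplex.map φ) 0).hom
    (((tateComplex M).homologyπ 0).hom ((tt_isoCocycles0 M).inv.hom x)) =
      ((tateComplex M').homologyπ 0).hom ((tt_isoCocycles0 M').inv.hom x')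
  rw [← ModuleCat.comp_apply, h1, ModuleCat.comp_apply]
  congr 1
  apply (ModuleCat.mono_iff_injective ((tateComplex M').iCycles 0)).1 inferInstance
  rw [← ModuleCat.comp_apply, HomologicalComplex.cyclesMap_i, ModuleCat.comp_apply,
    tt_iCycles_isoCocycles0_inv, tt_iCycles_isoCocycles0_inv]
  change (cochainsMap (.id G) φ).f 0 ((cochainsIso₀ M).inv x.1) = _
  rw [tt_cochainsMap_f0_inv, h]

set_option backward.isDefEq.respectTransparency false in
/-- Naturality of the class map in degree `-1`. -/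
lemma tt_Hm1π_map {M M' : Rep R G} (φ : M ⟶ M') (x : LinearMap.ker M.norm.toModuleCatHom.hom)
    (x' : LinearMap.ker M'.norm.toModuleCatHom.hom) (h : φ.hom x.1 = x'.1) :
    HomologicalComplex.homologyMap (tateComplex.map φ) (-1) (tt_Hm1π M x) = tt_Hm1π M' x' := by
  have h1 := HomologicalComplex.homologyπ_naturality (tateComplex.map φ) (-1)
  change (HomologicalComplex.homologyMap (tateComplex.map φ) (-1)).hom
    (((tateComplex M).homologyπ (-1)).hom ((tt_isoCocyclesm1 M).inv.hom x)) =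
      ((tateComplex M').homologyπ (-1)).hom ((tt_isoCocyclesm1 M').inv.hom x')
  rw [← ModuleCat.comp_apply, h1, ModuleCat.comp_apply]
  congr 1
  apply (ModuleCat.mono_iff_injective ((tateComplex M').iCycles (-1))).1 inferInstance
  rw [← ModuleCat.comp_apply, HomologicalComplex.cyclesMap_i, ModuleCat.comp_apply,
    tt_iCycles_isoCocyclesm1_inv, tt_iCycles_isoCocyclesm1_inv]
  change (chainsMap (.id G) φ).f 0 ((chainsIso₀ M).inv x.1) = _
  rw [tt_chainsMap_f0_inv, h]

/-! ### Classes as `cyclesMk` and the connecting map `Ĥ⁻¹ → Ĥ⁰` -/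

set_option backward.isDefEq.respectTransparency false in
lemma tt_d01_cochainsIso₀_inv (M : Rep R G) (x : LinearMap.ker (d₀₁ M).hom) :
    (tateComplex M).d 0 1 ((cochainsIso₀ M).inv x.1) = 0 := by
  change (inhomogeneousCochains M).d 0 1 ((cochainsIso₀ M).inv x.1) = 0
  have h := eq_d₀₁_comp_inv M
  have h2 := congr($h x.1)
  rw [ConcreteCategory.comp_apply, ConcreteCategory.comp_apply] at h2
  rw [h2]
  have : (d₀₁ M) x.1 = 0 := x.2
  rw [this, map_zero]

set_option backward.isDefEq.respectTransparency false in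
lemma tt_cyclesMk0_eq (M : Rep R G) (x : LinearMap.ker (d₀₁ M).hom) :
    (tateComplex M).cyclesMk ((cochainsIso₀ M).inv x.1) 1 (by simp)
      (tt_d01_cochainsIso₀_inv M x) = (tt_isoCocycles0 M).inv x := by
  apply_fun (forget₂ _ Ab).map ((tateComplex M).iCycles 0) using
    (AddCommGrpCat.mono_iff_injective _).1 <| (forget₂ _ _).map_mono _
  rw [HomologicalComplex.i_cyclesMk]
  exact (tt_iCycles_isoCocycles0_inv M x).symm

set_option backward.isDefEq.respectTransparency false in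
lemma tt_dm10_chainsIso₀_inv (M : Rep R G) (x : LinearMap.ker M.norm.toModuleCatHom.hom) :
    (tateComplex M).d (-1) 0 ((chainsIso₀ M).inv x.1) = 0 := by
  change M.tateNorm ((chainsIso₀ M).inv x.1) = 0
  simp [Rep.tateNorm]

set_option backward.isDefEq.respectTransparency false in
lemma tt_cyclesMkm1_eq (M : Rep R G) (x : LinearMap.ker M.norm.toModuleCatHom.hom) :
    (tateComplex M).cyclesMk ((chainsIso₀ M).inv x.1) 0 (by simp)
      (tt_dm10_chainsIso₀_inv M x) = (tt_isoCocyclesm1 M).inv x := by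
  apply_fun (forget₂ _ Ab).map ((tateComplex M).iCycles (-1)) using
    (AddCommGrpCat.mono_iff_injective _).1 <| (forget₂ _ _).map_mono _
  rw [HomologicalComplex.i_cyclesMk]
  exact (tt_iCycles_isoCocyclesm1_inv M x).symm

set_option backward.isDefEq.respectTransparency false in
/-- **The connecting map `Ĥ⁻¹(C) → Ĥ⁰(A)`** of a short exact sequence `0 → A → B → C → 0`:
the class of `c ∈ ker N_C` goes to the class of `a ∈ A^G` with `f a = N_B b`, `g b = c`. -/
theorem tt_δ_Hm1π {S : ShortComplex (Rep R G)} (hS : S.ShortExact)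
    (c : LinearMap.ker S.X₃.norm.toModuleCatHom.hom) (b : S.X₂) (hb : S.g.hom b = c.1)
    (a : LinearMap.ker (d₀₁ S.X₁).hom) (ha : S.f.hom a.1 = S.X₂.ρ.norm b) :
    TateCohomology.δ hS (-1) (tt_Hm1π S.X₃ c) = tt_H0π S.X₁ a := by
  have key := (TateCohomology.map_tateComplexFunctor_shortExact hS).δ_apply (-1) (-1 + 1) rfl
    ((chainsIso₀ S.X₃).inv c.1) (tt_dm10_chainsIso₀_inv S.X₃ c)
    ((chainsIso₀ S.X₂).inv b) ?_
    ((cochainsIso₀ S.X₁).inv a.1) ?_ 1 (by simp)
  · change ((tt_Hm1π S.X₃ ≫ TateCohomology.δ hS (-1)) c) = _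
    rw [tt_Hm1π, tt_H0π, Category.assoc, ConcreteCategory.comp_apply, ConcreteCategory.comp_apply,
      ConcreteCategory.comp_apply, ← tt_cyclesMkm1_eq, ← tt_cyclesMk0_eq]
    exact key
  · change (chainsMap (MonoidHom.id G) S.g).f 0 ((chainsIso₀ S.X₂).inv b) = _
    rw [tt_chainsMap_f0_inv, hb]
  · change (cochainsMap (MonoidHom.id G) S.f).f 0 ((cochainsIso₀ S.X₁).inv a.1) =
      S.X₂.tateNorm ((chainsIso₀ S.X₂).inv b)
    rw [tt_cochainsMap_f0_inv, ha]
    simp [Rep.tateNorm]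

/-! ### User-facing linear maps -/

/-- The class map `M^G → Ĥ⁰(G, M)`. -/
noncomputable def tt_cl0 (M : Rep R G) : M.ρ.invariants →ₗ[R] (tateComplex M).homology 0 :=
  (tt_H0π M).hom ∘ₗ (LinearEquiv.ofEq _ _ (d₀₁_ker_eq_invariants M).symm).toLinearMap

lemma tt_cl0_apply (M : Rep R G) (x : M.ρ.invariants) :
    tt_cl0 M x = tt_H0π M ⟨x.1, by rw [d₀₁_ker_eq_invariants]; exact x.2⟩ := rfl

theorem tt_cl0_surjective (M : Rep R G) : Function.Surjective (tt_cl0 M) := by
  intro y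
  obtain ⟨x, rfl⟩ := tt_H0π_surjective M y
  exact ⟨⟨x.1, (d₀₁_ker_eq_invariants M) ▸ x.2⟩, rfl⟩

/-- A class in `Ĥ⁰` vanishes iff the invariant is a norm. -/
theorem tt_cl0_eq_zero_iff (M : Rep R G) (x : M.ρ.invariants) :
    tt_cl0 M x = 0 ↔ ∃ m : M, M.ρ.norm m = x := by
  rw [tt_cl0_apply, tt_H0π_eq_zero_iff]
  rfl

theorem tt_cl0_map {M M' : Rep R G} (φ : M ⟶ M') (x : M.ρ.invariants) (x' : M'.ρ.invariants)
    (h : φ.hom x.1 = x'.1) :
    HomologicalComplex.homologyMap (tateComplex.map φ) 0 (tt_cl0 M x) = tt_cl0 M' x' := by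
  rw [tt_cl0_apply, tt_cl0_apply]
  exact tt_H0π_map φ _ _ h

/-- `Ĥ⁰(G, M) = M^G / N M`. -/
noncomputable def tt_H0Equiv (M : Rep R G) :
    (M.ρ.invariants ⧸ LinearMap.ker (tt_cl0 M)) ≃ₗ[R] (tateComplex M).homology 0 :=
  (tt_cl0 M).quotKerEquivOfSurjective (tt_cl0_surjective M)

theorem tt_mem_ker_cl0 (M : Rep R G) (x : M.ρ.invariants) :
    x ∈ LinearMap.ker (tt_cl0 M) ↔ (x : M) ∈ LinearMap.range M.ρ.norm := by
  rw [LinearMap.mem_ker, tt_cl0_eq_zero_iff]
  rfl

/-- The class map `ker N → Ĥ⁻¹(G, M)`. -/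
noncomputable def tt_clm1 (M : Rep R G) :
    LinearMap.ker M.ρ.norm →ₗ[R] (tateComplex M).homology (-1) :=
  (tt_Hm1π M).hom

theorem tt_clm1_surjective (M : Rep R G) : Function.Surjective (tt_clm1 M) :=
  tt_Hm1π_surjective M

/-- A class in `Ĥ⁻¹` vanishes iff the element lies in `I_G M`. -/
theorem tt_clm1_eq_zero_iff (M : Rep R G) (x : LinearMap.ker M.ρ.norm) :
    tt_clm1 M x = 0 ↔ (x : M) ∈ Representation.Coinvariants.ker M.ρ :=
  tt_Hm1π_eq_zero_iff M x

theorem tt_clm1_map {M M' : Rep R G} (φ : M ⟶ M') (x : LinearMap.ker M.ρ.norm)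
    (x' : LinearMap.ker M'.ρ.norm) (h : φ.hom x.1 = x'.1) :
    HomologicalComplex.homologyMap (tateComplex.map φ) (-1) (tt_clm1 M x) = tt_clm1 M' x' :=
  tt_Hm1π_map φ x x' h

/-- `Ĥ⁻¹(G, M) = ker N / I_G M`. -/
noncomputable def tt_Hm1Equiv (M : Rep R G) :
    (LinearMap.ker M.ρ.norm ⧸ LinearMap.ker (tt_clm1 M)) ≃ₗ[R] (tateComplex M).homology (-1) :=
  (tt_clm1 M).quotKerEquivOfSurjective (tt_clm1_surjective M)

theorem tt_mem_ker_clm1 (M : Rep R G) (x : LinearMap.ker M.ρ.norm) :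
    x ∈ LinearMap.ker (tt_clm1 M) ↔ (x : M) ∈ Representation.Coinvariants.ker M.ρ := by
  rw [LinearMap.mem_ker, tt_clm1_eq_zero_iff]

/-- **The connecting map `Ĥ⁻¹(C) → Ĥ⁰(A)`**, user-facing form. -/
theorem tt_δ_clm1 {S : ShortComplex (Rep R G)} (hS : S.ShortExact)
    (c : LinearMap.ker S.X₃.ρ.norm) (b : S.X₂) (hb : S.g.hom b = c.1)
    (a : S.X₁.ρ.invariants) (ha : S.f.hom a.1 = S.X₂.ρ.norm b) :
    TateCohomology.δ hS (-1) (tt_clm1 S.X₃ c) = tt_cl0 S.X₁ a := by
  rw [tt_cl0_apply]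
  exact tt_δ_Hm1π hS c b hb _ ha

end Fermat.Agent.S55
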