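import Fermat.Agent.S55.Tate.ClassModule
import Fermat.Agent.S55.FinGrp.H2Torsion
import Fermat.Agent.S55.FinGrp.Sylow
import Fermat.Agent.S55.Devissage.Transport

/-!
# `PClassModule` from data on `p`-subgroups

Generic Sylow algebra (no corestriction): invariant maps given on the `p`-subgroups of a finite
group `Γ`, compatible with restriction and conjugation on restrictions of global classes, extend
to a `PClassModule p C`.
-/

set_option autoImplicit false
set_option linter.unusedSectionVars false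

namespace Fermat.Agent.S55

open CategoryTheory groupCohomology

noncomputable section

section arith

/-- An inverse of `m` modulo `N` (when they are coprime). -/
def tt_psInvMod (m N : ℕ) : ℕ := m ^ (N.totient - 1)

lemma tt_psInvMod_spec {m N : ℕ} (hN : 0 < N) (h : Nat.Coprime m N) :
    m * tt_psInvMod m N ≡ 1 [MOD N] := by
  unfold tt_psInvMod
  rw [← pow_succ']
  have h1 : N.totient - 1 + 1 = N.totient := Nat.sub_add_cancel (Nat.totient_pos.2 hN)
  rw [h1]
  exact Nat.ModEq.pow_totient h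

lemma tt_psInvMod_coprime {m N : ℕ} (h : Nat.Coprime m N) : Nat.Coprime (tt_psInvMod m N) N :=
  Nat.Coprime.pow_left _ h

lemma tt_ps_nsmul_congr {A : Type*} [AddCommGroup A] {N a b : ℕ} (t : A) (ht : N • t = 0)
    (h : a ≡ b [MOD N]) : a • t = b • t := by
  obtain ⟨c, hc⟩ := (Nat.modEq_iff_dvd.1 h)
  have h1 : ((b : ℤ) - a) • t = 0 := by
    rw [hc, mul_smul, smul_comm, natCast_zsmul, ht, smul_zero]
  rw [sub_smul, natCast_zsmul, natCast_zsmul, sub_eq_zero] at h1
  exact h1.symm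

lemma tt_ps_nsmul_cancel {A : Type*} [AddCommGroup A] {N m : ℕ} (hN : 0 < N)
    (hm : Nat.Coprime m N) (t : A) (ht : N • t = 0) (h : m • t = 0) : t = 0 := by
  have h1 := tt_ps_nsmul_congr t ht (tt_psInvMod_spec hN hm)
  rw [one_smul, mul_comm, mul_smul, h, smul_zero] at h1
  exact h1.symm

end arith

section nested

variable {k Γ : Type} [CommRing k] [Group Γ] (C : Rep.{0} k Γ)

/-- The identity of `C` as a morphism `res (inclusion h) (res K C) ⟶ res P C`. -/
def tt_psCoeff {P K : Subgroup Γ} (h : P ≤ K) :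
    Rep.res (Subgroup.inclusion h) (tt_res K C) ⟶ tt_res P C :=
  Rep.ofHom ⟨LinearMap.id, fun _ => rfl⟩

lemma tt_psCoeff_apply {P K : Subgroup Γ} (h : P ≤ K) (x : C.V) : (tt_psCoeff C h).hom x = x := rfl

/-- Restriction between nested subgroups of `Γ`. -/
def tt_resSub {P K : Subgroup Γ} (h : P ≤ K) (n : ℕ) :
    groupCohomology (tt_res K C) n ⟶ groupCohomology (tt_res P C) n :=
  groupCohomology.map (Subgroup.inclusion h) (tt_psCoeff C h) n

lemma tt_resMap_resSub {P K : Subgroup Γ} (h : P ≤ K) (n : ℕ) :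
    tt_resMap K C n ≫ tt_resSub C h n = tt_resMap P C n := by
  unfold tt_resSub
  rw [← map_comp]
  exact map_congr rfl rfl n

lemma tt_resSub_resMap_apply {P K : Subgroup Γ} (h : P ≤ K) (n : ℕ) (z : groupCohomology C n) :
    (tt_resSub C h n).hom ((tt_resMap K C n).hom z) = (tt_resMap P C n).hom z :=
  congrArg (fun f => f.hom z) (tt_resMap_resSub C h n)

lemma tt_resSub_self (K : Subgroup Γ) (n : ℕ) : tt_resSub C (le_refl K) n = 𝟙 _ := by
  unfold tt_resSub
  exact (map_congr (f := Subgroup.inclusion (le_refl K)) (g := MonoidHom.id K)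
    (φ := tt_psCoeff C (le_refl K)) (ψ := 𝟙 (tt_res K C)) (MonoidHom.ext fun _ => rfl) rfl n).trans
    (map_id n)

/-- The image in `Γ` of a subgroup of a subgroup. -/
abbrev tt_psImage (K : Subgroup Γ) (S : Subgroup K) : Subgroup Γ := S.map K.subtype

lemma tt_psImage_le (K : Subgroup Γ) (S : Subgroup K) : tt_psImage K S ≤ K := by
  rintro _ ⟨x, _, rfl⟩
  exact x.2

/-- The identity of `C` as a morphism over `S ≃ image of S`. -/
def tt_psCoeffImage (K : Subgroup Γ) (S : Subgroup K) :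
    Rep.res (K.subtype.subgroupMap S) (tt_res (tt_psImage K S) C) ⟶
      Rep.res S.subtype (tt_res K C) :=
  Rep.ofHom ⟨LinearMap.id, fun _ => rfl⟩

/-- restriction to `S ≤ K` (as a subgroup of the group `K`) factors through the restriction to
the image of `S` in `Γ`. -/
lemma tt_resSub_image (K : Subgroup Γ) (S : Subgroup K) (n : ℕ) :
    groupCohomology.map S.subtype (𝟙 (Rep.res S.subtype (tt_res K C))) n =
      tt_resSub C (tt_psImage_le K S) n ≫
        groupCohomology.map (K.subtype.subgroupMap S) (tt_psCoeffImage C K S) n := by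
  unfold tt_resSub
  rw [← map_comp]
  exact map_congr rfl rfl n

/-- Vanishing of `H¹` of the image subgroup gives vanishing of `H¹` of `S` (as a subgroup of the
group `K`). -/
lemma tt_ps_H1_image (K : Subgroup Γ) (S : Subgroup K)
    (h : ∀ x : groupCohomology (tt_res (tt_psImage K S) C) 1, x = 0)
    (x : groupCohomology (Rep.res S.subtype (tt_res K C)) 1) : x = 0 := by
  let ι : groupCohomology (Rep.res S.subtype (tt_res K C)) 1 ≅
      groupCohomology (tt_res (tt_psImage K S) C) 1 :=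
    groupCohomology.mapIso (Subgroup.equivMapOfInjective S K.subtype Subtype.val_injective)
      (LinearEquiv.refl k C.V) (fun g => rfl) 1
  have h1 : ι.inv.hom (ι.hom.hom x) = x := congrArg (fun f => f.hom x) ι.hom_inv_id
  rw [← h1, h (ι.hom.hom x), map_zero]

end nested

section sylow

variable {Γ : Type} [Group Γ] [Finite Γ] (p : ℕ) [Fact p.Prime]

/-- A chosen Sylow `p`-subgroup of `K`, as a subgroup of `Γ`. -/
def tt_psP (K : Subgroup Γ) : Subgroup Γ :=
  tt_psImage K ((default : Sylow p K) : Subgroup K)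

lemma tt_psP_le (K : Subgroup Γ) : tt_psP p K ≤ K := tt_psImage_le K _

lemma tt_psP_isPGroup (K : Subgroup Γ) : IsPGroup p (tt_psP p K) :=
  (default : Sylow p K).isPGroup'.map K.subtype

/-- The index of the chosen Sylow subgroup in `K`. -/
def tt_psM (K : Subgroup Γ) : ℕ := (tt_psP p K).relIndex K

lemma tt_psM_eq (K : Subgroup Γ) :
    tt_psM p K = ((default : Sylow p K) : Subgroup K).index := by
  unfold tt_psM tt_psP tt_psImage Subgroup.relIndex Subgroup.subgroupOf
  rw [Subgroup.comap_map_eq_self_of_injective Subtype.val_injective]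

lemma tt_psM_not_dvd (K : Subgroup Γ) : ¬ p ∣ tt_psM p K := by
  rw [tt_psM_eq]
  exact (default : Sylow p K).not_dvd_index

variable (Γ) in
/-- The `p`-part of `|Γ|`. -/
def tt_psN : ℕ := ordProj[p] (Nat.card Γ)

lemma tt_psN_pos : 0 < tt_psN Γ p := Nat.ordProj_pos _ _

lemma tt_ps_coprime_N {m : ℕ} (hm : ¬ p ∣ m) : Nat.Coprime m (tt_psN Γ p) := by
  unfold tt_psN
  exact Nat.Coprime.pow_right _ ((Nat.Prime.coprime_iff_not_dvd Fact.out).2 hm).symm

lemma tt_ps_card_dvd_N (H : Subgroup Γ) (hH : IsPGroup p H) : Nat.card H ∣ tt_psN Γ p := by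
  obtain ⟨n, hn⟩ := IsPGroup.iff_card.mp hH
  unfold tt_psN
  rw [hn, ← (Fact.out : p.Prime).pow_dvd_iff_dvd_ordProj (Nat.card_pos (α := Γ)).ne', ← hn]
  exact H.card_subgroup_dvd_card

lemma tt_ps_N_smul_H2 {C : Rep.{0} ℤ Γ} (H : Subgroup Γ) (hH : IsPGroup p H)
    (y : groupCohomology (tt_res H C) 2) : tt_psN Γ p • y = 0 := by
  obtain ⟨c, hc⟩ := tt_ps_card_dvd_N p H hH
  rw [hc, mul_smul, h2_card_smul_eq_zero]

end sylow

section data

variable {Γ : Type} [Group Γ]

/-- **`p`-subgroup data** for a class module: invariant maps on the `p`-subgroups of `Γ`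
(the values of `inv` at other subgroups are irrelevant), `H¹ = 0`, injectivity, compatibility
with restriction and conjugation on restrictions of global classes, and a global class whose
restriction to a Sylow `p`-subgroup has an invariant of maximal order. -/
structure tt_PSubData (p : ℕ) (C : Rep.{0} ℤ Γ) where
  inv : ∀ H : Subgroup Γ, groupCohomology (tt_res H C) 2 →+ tt_QZ
  h1 : ∀ H : Subgroup Γ, IsPGroup p H → ∀ x : groupCohomology (tt_res H C) 1, x = 0
  inj : ∀ H : Subgroup Γ, IsPGroup p H → ∀ z : groupCohomology (tt_res H C) 2,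
    inv H z = 0 → z = 0
  res : ∀ H' H : Subgroup Γ, H' ≤ H → IsPGroup p H → ∀ z : groupCohomology C 2,
    inv H' ((tt_resMap H' C 2).hom z) = H'.relIndex H • inv H ((tt_resMap H C 2).hom z)
  conj : ∀ (H : Subgroup Γ) (g : Γ), IsPGroup p H → ∀ z : groupCohomology C 2,
    inv (H.map (MulAut.conj g).toMonoidHom)
      ((tt_resMap (H.map (MulAut.conj g).toMonoidHom) C 2).hom z) =
        inv H ((tt_resMap H C 2).hom z)
  gen : ∃ (u : groupCohomology C 2) (P : Sylow p Γ),
    addOrderOf (inv P ((tt_resMap (P : Subgroup Γ) C 2).hom u)) = Nat.card P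

variable [Finite Γ] {p : ℕ} [Fact p.Prime] {C : Rep.{0} ℤ Γ} (D : tt_PSubData p C)

/-- The invariant of a global class on the chosen Sylow subgroup of `Γ`. -/
def tt_PSubData.t₀ (z : groupCohomology C 2) : tt_QZ :=
  D.inv (tt_psP p ⊤) ((tt_resMap (tt_psP p ⊤) C 2).hom z)

lemma tt_PSubData.N_smul_inv (H : Subgroup Γ) (hH : IsPGroup p H)
    (y : groupCohomology (tt_res H C) 2) : tt_psN Γ p • D.inv H y = 0 := by
  rw [← map_nsmul, tt_ps_N_smul_H2 p H hH, map_zero]

lemma tt_psP_top_index : (tt_psP p (⊤ : Subgroup Γ)).index = tt_psM p (⊤ : Subgroup Γ) := by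
  unfold tt_psM
  rw [Subgroup.relIndex_top_right]

/-- Comparison of the invariant on any `p`-subgroup with the one on the chosen Sylow subgroup. -/
lemma tt_PSubData.inv_eq_smul_t₀ (H : Subgroup Γ) (hH : IsPGroup p H) (z : groupCohomology C 2) :
    ∃ r : ℕ, D.inv H ((tt_resMap H C 2).hom z) = r • D.t₀ z ∧
      r * (tt_psP p (⊤ : Subgroup Γ)).index = H.index := by
  have hP₀ : IsPGroup p (tt_psP p (⊤ : Subgroup Γ)) := tt_psP_isPGroup p ⊤
  have hidx : ¬ p ∣ (tt_psP p (⊤ : Subgroup Γ)).index := by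
    rw [tt_psP_top_index]; exact tt_psM_not_dvd p ⊤
  let S₀ : Sylow p Γ := hP₀.toSylow hidx
  obtain ⟨Q, hQ⟩ := hH.exists_le_sylow
  obtain ⟨g, hg⟩ := MulAction.exists_smul_eq Γ S₀ Q
  have hQ' : (Q : Subgroup Γ) = (tt_psP p (⊤ : Subgroup Γ)).map (MulAut.conj g).toMonoidHom := by
    rw [← hg]
    rfl
  refine ⟨H.relIndex Q, ?_, ?_⟩
  · rw [D.res H Q hQ Q.isPGroup' z]
    congr 1
    have h2 := D.conj (tt_psP p (⊤ : Subgroup Γ)) g hP₀ z
    rw [← hQ'] at h2
    exact h2
  · rw [← Subgroup.relIndex_mul_index hQ, hQ']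
    congr 1
    exact (Subgroup.index_map_equiv (tt_psP p (⊤ : Subgroup Γ)) (MulAut.conj g)).symm

/-- The extended invariant on an arbitrary subgroup `K`: restrict to the chosen Sylow subgroup
of `K` and divide by its index (prime to `p`). -/
def tt_PSubData.invK (K : Subgroup Γ) : groupCohomology (tt_res K C) 2 →+ tt_QZ :=
  tt_psInvMod (tt_psM p K) (tt_psN Γ p) •
    (D.inv (tt_psP p K)).comp (tt_resSub C (tt_psP_le p K) 2).hom.toAddMonoidHom

lemma tt_PSubData.invK_apply (K : Subgroup Γ) (y : groupCohomology (tt_res K C) 2) :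
    D.invK K y = tt_psInvMod (tt_psM p K) (tt_psN Γ p) •
      D.inv (tt_psP p K) ((tt_resSub C (tt_psP_le p K) 2).hom y) := rfl

lemma tt_PSubData.invK_res (K : Subgroup Γ) (z : groupCohomology C 2) :
    D.invK K ((tt_resMap K C 2).hom z) = tt_psInvMod (tt_psM p K) (tt_psN Γ p) •
      D.inv (tt_psP p K) ((tt_resMap (tt_psP p K) C 2).hom z) := by
  rw [D.invK_apply, tt_resSub_resMap_apply]

lemma tt_PSubData.N_smul_t₀ (z : groupCohomology C 2) : tt_psN Γ p • D.t₀ z = 0 :=
  D.N_smul_inv _ (tt_psP_isPGroup p ⊤) _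

/-- the invariant of a restricted global class, in terms of `t₀` -/
lemma tt_PSubData.invK_res_eq (K : Subgroup Γ) (z : groupCohomology C 2) :
    ∃ r : ℕ, D.invK K ((tt_resMap K C 2).hom z) =
        (tt_psInvMod (tt_psM p K) (tt_psN Γ p) * r) • D.t₀ z ∧
      r * tt_psM p (⊤ : Subgroup Γ) = tt_psM p K * K.index := by
  obtain ⟨r, hr, hr2⟩ := D.inv_eq_smul_t₀ (tt_psP p K) (tt_psP_isPGroup p K) z
  refine ⟨r, ?_, ?_⟩
  · rw [D.invK_res, hr, mul_smul]
  · rw [← tt_psP_top_index, hr2]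
    unfold tt_psM
    rw [Subgroup.relIndex_mul_index (tt_psP_le p K)]

lemma tt_PSubData.inv_res_field (K : Subgroup Γ) (z : groupCohomology C 2) :
    D.invK K ((tt_resMap K C 2).hom z) = K.index • D.invK ⊤ ((tt_resMap ⊤ C 2).hom z) := by
  obtain ⟨r, hr, hr2⟩ := D.invK_res_eq K z
  obtain ⟨r', hr', hr2'⟩ := D.invK_res_eq ⊤ z
  rw [hr, hr', ← mul_smul]
  refine tt_ps_nsmul_congr _ (D.N_smul_t₀ z) ?_
  have hcK := tt_ps_coprime_N (Γ := Γ) p (tt_psM_not_dvd p K)
  have hcT := tt_ps_coprime_N (Γ := Γ) p (tt_psM_not_dvd p (⊤ : Subgroup Γ))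
  have hK := tt_psInvMod_spec (tt_psN_pos (Γ := Γ) p) hcK
  have hT := tt_psInvMod_spec (tt_psN_pos (Γ := Γ) p) hcT
  set mK := tt_psM p K
  set mT := tt_psM p (⊤ : Subgroup Γ)
  set iK := tt_psInvMod mK (tt_psN Γ p)
  set iT := tt_psInvMod mT (tt_psN Γ p)
  have hr2'' : r' = 1 := by
    have h1 : (⊤ : Subgroup Γ).index = 1 := Subgroup.index_top
    rw [h1, mul_one] at hr2'
    have hpos : 0 < mT := Nat.pos_of_ne_zero (fun h0 => tt_psM_not_dvd p (⊤ : Subgroup Γ)
      (by show p ∣ mT; rw [h0]; exact dvd_zero p))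
    exact Nat.eq_of_mul_eq_mul_right hpos (by rw [hr2', one_mul])
  subst hr2''
  -- cancel `mK * mT`
  have hc : Nat.Coprime (mK * mT) (tt_psN Γ p) := Nat.Coprime.mul_left hcK hcT
  refine Nat.ModEq.cancel_left_of_coprime (c := mK * mT) ?_ ?_
  · rw [Nat.gcd_comm]; exact hc
  · -- LHS: mK * mT * (iK * r) ≡ mT * r = mK * K.index; RHS: mK*mT*(K.index*(iT*1)) ≡ mK * K.index
    have e1 : mK * mT * (iK * r) = (mK * iK) * (r * mT) := by ring
    have e2 : mK * mT * (K.index * (iT * 1)) = (mT * iT) * (mK * K.index) := by ring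
    rw [e1, e2, hr2]
    calc mK * iK * (mK * K.index) ≡ 1 * (mK * K.index) [MOD tt_psN Γ p] :=
          Nat.ModEq.mul_right _ hK
      _ ≡ mT * iT * (mK * K.index) [MOD tt_psN Γ p] := (Nat.ModEq.mul_right _ hT).symm

lemma tt_ps_eq_zero_of_coprime {A : Type*} [AddCommGroup A] {a b : ℕ} (hab : Nat.Coprime a b)
    (z : A) (ha : a • z = 0) (hb : b • z = 0) : z = 0 := by
  have h2 : addOrderOf z ∣ Nat.gcd a b :=
    Nat.dvd_gcd (addOrderOf_dvd_of_nsmul_eq_zero ha) (addOrderOf_dvd_of_nsmul_eq_zero hb)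
  rw [hab.gcd_eq_one, Nat.dvd_one] at h2
  exact AddMonoid.addOrderOf_eq_one_iff.1 h2

lemma tt_PSubData.inv_inj_field (K : Subgroup Γ) (z : groupCohomology (tt_res K C) 2)
    (hz : tt_IsPPrimary p z) (h0 : D.invK K z = 0) : z = 0 := by
  rw [D.invK_apply] at h0
  have hcK := tt_ps_coprime_N (Γ := Γ) p (tt_psM_not_dvd p K)
  have ht : D.inv (tt_psP p K) ((tt_resSub C (tt_psP_le p K) 2).hom z) = 0 :=
    tt_ps_nsmul_cancel (tt_psN_pos p) (tt_psInvMod_coprime hcK) _
      (D.N_smul_inv _ (tt_psP_isPGroup p K) _) h0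
  have hr := D.inj _ (tt_psP_isPGroup p K) _ ht
  have e := tt_resSub_image C K ((default : Sylow p K) : Subgroup K) 2
  have hS : (groupCohomology.map ((default : Sylow p K) : Subgroup K).subtype
      (𝟙 (Rep.res ((default : Sylow p K) : Subgroup K).subtype (tt_res K C))) 2).hom z = 0 := by
    rw [e]
    have h3 : ∀ {X Y Z : ModuleCat ℤ} (f : X ⟶ Y) (g : Y ⟶ Z) (x : X),
        (f ≫ g).hom x = g.hom (f.hom x) := fun _ _ _ => rfl
    rw [h3]
    have hr' : (tt_resSub C (tt_psImage_le K ((default : Sylow p K) : Subgroup K)) 2).hom z = 0 :=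
      hr
    rw [hr', map_zero]
  have h1 := h2_index_smul_eq_zero_of_res_eq_zero (tt_res K C)
    ((default : Sylow p K) : Subgroup K) z hS
  obtain ⟨k, hk⟩ := hz
  refine tt_ps_eq_zero_of_coprime ?_ z hk h1
  exact Nat.Coprime.pow_left k ((Nat.Prime.coprime_iff_not_dvd Fact.out).2
    (default : Sylow p K).not_dvd_index)

include D in
lemma tt_PSubData.h1_field (K : Subgroup Γ) (x : groupCohomology (tt_res K C) 1)
    (hx : p • x = 0) : x = 0 := by
  classical
  have : Fintype K := Fintype.ofFinite _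
  have : Fintype ((default : Sylow p K) : Subgroup K) := Fintype.ofFinite _
  have hz1 : Limits.IsZero (groupCohomology
      (Rep.res ((default : Sylow p K) : Subgroup K).subtype (tt_res K C)) 1) := by
    rw [ModuleCat.isZero_iff_subsingleton]
    refine ⟨fun a b => ?_⟩
    rw [tt_ps_H1_image C K _ (D.h1 _ (tt_psP_isPGroup p K)) a,
      tt_ps_H1_image C K _ (D.h1 _ (tt_psP_isPGroup p K)) b]
  have hz : Limits.IsZero (tateCohomology
      (Rep.res ((default : Sylow p K) : Subgroup K).subtype (tt_res K C)) ((1 : ℕ) : ℤ)) :=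
    hz1.of_iso ((TateCohomology.isoGroupCohomology 1).app _)
  have ι : tateCohomology (tt_res K C) ((1 : ℕ) : ℤ) ≅ groupCohomology (tt_res K C) 1 :=
    (TateCohomology.isoGroupCohomology 1).app (tt_res K C)
  have h1 : ι.hom.hom (ι.inv.hom x) = x := congrArg (fun f => f.hom x) ι.inv_hom_id
  have h2 : ι.inv.hom x = 0 := by
    refine fg_eq_zero_of_sylow (default : Sylow p K) ((1 : ℕ) : ℤ) (tt_res K C) hz _ 1 ?_
    rw [pow_one, ← map_nsmul, hx, map_zero]
  rw [← h1, h2, map_zero]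

lemma tt_PSubData.invK_top_res (z : groupCohomology C 2) :
    D.invK ⊤ ((tt_resMap ⊤ C 2).hom z) =
      tt_psInvMod (tt_psM p (⊤ : Subgroup Γ)) (tt_psN Γ p) • D.t₀ z :=
  D.invK_res ⊤ z

lemma tt_PSubData.exists_addOrderOf_t₀ :
    ∃ u : groupCohomology C 2, addOrderOf (D.t₀ u) = tt_psN Γ p := by
  obtain ⟨u, P, hord⟩ := D.gen
  refine ⟨u, ?_⟩
  obtain ⟨r, hr, hr2⟩ := D.inv_eq_smul_t₀ (P : Subgroup Γ) P.isPGroup' u
  have hpr : ¬ p ∣ r := fun h => P.not_dvd_index (hr2 ▸ Dvd.dvd.mul_right h _)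
  have hdvd : addOrderOf (D.t₀ u) ∣ tt_psN Γ p :=
    addOrderOf_dvd_of_nsmul_eq_zero (D.N_smul_t₀ u)
  have hcop : (addOrderOf (D.t₀ u)).Coprime r :=
    Nat.Coprime.coprime_dvd_left hdvd (tt_ps_coprime_N (Γ := Γ) p hpr).symm
  rw [← hcop.addOrderOf_nsmul, ← hr, hord, P.card_eq_multiplicity]
  rfl

lemma tt_PSubData.inv_gen_field :
    ∃ u : groupCohomology C 2, tt_IsPPrimary p u ∧
      addOrderOf (D.invK ⊤ ((tt_resMap ⊤ C 2).hom u)) = ordProj[p] (Nat.card Γ) := by
  obtain ⟨u, hu⟩ := D.exists_addOrderOf_t₀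
  have hΓ : Nat.card Γ ≠ 0 := (Nat.card_pos (α := Γ)).ne'
  set c := ordCompl[p] (Nat.card Γ) with hc
  have hNc : tt_psN Γ p * c = Nat.card Γ := Nat.ordProj_mul_ordCompl_eq_self _ _
  have hpc : ¬ p ∣ c := Nat.not_dvd_ordCompl Fact.out hΓ
  refine ⟨c • u, ⟨(Nat.card Γ).factorization p, ?_⟩, ?_⟩
  · have h1 : p ^ (Nat.card Γ).factorization p = tt_psN Γ p := rfl
    rw [h1, ← mul_smul, hNc]
    exact h2_card_smul_eq_zero C u
  · rw [map_nsmul, map_nsmul, D.invK_top_res, ← mul_smul]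
    have hcop : (addOrderOf (D.t₀ u)).Coprime
        (c * tt_psInvMod (tt_psM p (⊤ : Subgroup Γ)) (tt_psN Γ p)) := by
      rw [hu]
      refine (Nat.Coprime.mul_left (tt_ps_coprime_N (Γ := Γ) p hpc) ?_).symm
      exact tt_psInvMod_coprime (tt_ps_coprime_N (Γ := Γ) p (tt_psM_not_dvd p _))
    rw [hcop.addOrderOf_nsmul, hu]
    rfl

/-- **`PClassModule` from `p`-subgroup data.** -/
def tt_PSubData.toPClassModule : PClassModule p C where
  inv := D.invK
  h1 := D.h1_field
  inv_inj := D.inv_inj_field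
  inv_gen := D.inv_gen_field
  inv_res K z _ := D.inv_res_field K z

@[simp] lemma tt_PSubData.toPClassModule_inv (K : Subgroup Γ) :
    D.toPClassModule.inv K = D.invK K := rfl

lemma tt_PSubData.inv_congr_sub {H' H : Subgroup Γ} (h : H' = H) (hle : H' ≤ H)
    (y : groupCohomology (tt_res H C) 2) :
    D.inv H' ((tt_resSub C hle 2).hom y) = D.inv H y := by
  subst h
  rw [tt_resSub_self]
  rfl

/-- On a `p`-subgroup the extended invariant is the given one (all classes). -/
theorem tt_PSubData.invK_eq_inv (H : Subgroup Γ) (hH : IsPGroup p H)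
    (y : groupCohomology (tt_res H C) 2) : D.invK H y = D.inv H y := by
  have hm : tt_psM p H = 1 := by
    obtain ⟨n, hn⟩ := IsPGroup.iff_card.mp hH
    have h1 : tt_psM p H ∣ p ^ n := by
      rw [tt_psM_eq, ← hn]
      exact Subgroup.index_dvd_card _
    obtain ⟨j, _, hj⟩ := (Nat.dvd_prime_pow Fact.out).1 h1
    rcases Nat.eq_zero_or_pos j with h0 | hpos
    · rw [hj, h0, pow_zero]
    · exact absurd (hj ▸ dvd_pow_self p hpos.ne') (tt_psM_not_dvd p H)
  have hP : tt_psP p H = H :=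
    le_antisymm (tt_psP_le p H) (Subgroup.relIndex_eq_one.1 hm)
  rw [D.invK_apply, hm, D.inv_congr_sub hP]
  unfold tt_psInvMod
  rw [one_pow, one_smul]

/-- The given invariants of restrictions of a global class, in terms of the top invariant. -/
theorem tt_PSubData.inv_eq_index_smul_invTop (H : Subgroup Γ) (hH : IsPGroup p H)
    (z : groupCohomology C 2) :
    D.inv H ((tt_resMap H C 2).hom z) = H.index • D.toPClassModule.invTop z := by
  rw [← D.invK_eq_inv H hH, D.inv_res_field H z]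
  rfl

end data

end

end Fermat.Agent.S55
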