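import Fermat.Agent.S55.Tate.ClassModuleTransport
import Fermat.Agent.S55.Tate.ClassModuleSylow
import Fermat.Agent.S55.Recip.ConjRes

/-!
# Restriction of a `p`-class module to a layer

For `P : PClassModule p C` over a finite group `Γ` and a subgroup `H ≤ Γ`, the layers of `H`
(subgroups of the group `↥H`) are layers of `Γ`, and `P` induces `P.restrict H : PClassModule p
(tt_res H C)`.  Hence every theorem about the top layer applies to every layer.
-/

set_option autoImplicit false
set_option linter.unusedSectionVars false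

namespace Fermat.Agent.S55

open CategoryTheory groupCohomology

noncomputable section

section layer

variable {k Γ : Type} [CommRing k] [Group Γ] (C : Rep.{0} k Γ) (H : Subgroup Γ) (K' : Subgroup H)

/-- the group isomorphism between a subgroup of `↥H` and its image in `Γ` -/
abbrev rcp_layerEquiv : K' ≃* tt_psImage H K' :=
  Subgroup.equivMapOfInjective K' H.subtype Subtype.val_injective

/-- the identity of `C`, as an isomorphism of `K'`-modules -/
def rcp_layerCoeff :
    Rep.res (rcp_layerEquiv H K' : K' →* tt_psImage H K') (tt_res (tt_psImage H K') C) ≅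
      tt_res K' (tt_res H C) where
  hom := Rep.ofHom ⟨LinearMap.id, fun _ => rfl⟩
  inv := Rep.ofHom ⟨LinearMap.id, fun _ => rfl⟩
  hom_inv_id := rfl
  inv_hom_id := rfl

/-- `Hⁿ` of a layer of `H` is `Hⁿ` of the corresponding layer of `Γ`. -/
def rcp_layerIso (n : ℕ) :
    groupCohomology (tt_res (tt_psImage H K') C) n ≅ groupCohomology (tt_res K' (tt_res H C)) n :=
  tt_trIso (rcp_layerEquiv H K') (rcp_layerCoeff C H K') n

/-- restriction `Γ → H → K'` is restriction `Γ →` image of `K'`, up to the layer isomorphism -/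
theorem rcp_layerIso_res (n : ℕ) :
    tt_resMap (tt_psImage H K') C n ≫ (rcp_layerIso C H K' n).hom =
      tt_resMap H C n ≫ tt_resMap K' (tt_res H C) n := by
  show map _ _ n ≫ map _ _ n = map _ _ n ≫ map _ _ n
  rw [← map_comp, ← map_comp]
  exact map_congr rfl rfl n

theorem rcp_layerIso_inv_res (n : ℕ) (z : groupCohomology C n) :
    (rcp_layerIso C H K' n).inv.hom
        ((tt_resMap K' (tt_res H C) n).hom ((tt_resMap H C n).hom z)) =
      (tt_resMap (tt_psImage H K') C n).hom z := by
  have h := congrArg (fun f => f.hom z) (rcp_layerIso_res C H K' n)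
  have h2 : (tt_resMap K' (tt_res H C) n).hom ((tt_resMap H C n).hom z) =
      (rcp_layerIso C H K' n).hom.hom ((tt_resMap (tt_psImage H K') C n).hom z) := h.symm
  rw [h2]
  exact congrArg (fun f => f.hom ((tt_resMap (tt_psImage H K') C n).hom z))
    (rcp_layerIso C H K' n).hom_inv_id

end layer

section arith

/-- order of an index multiple: if `addOrderOf w` is the `p`-part of `m * I` then
`addOrderOf (I • w)` is the `p`-part of `m`. -/
theorem rcp_addOrderOf_index_smul {A : Type*} [AddCommGroup A] {p : ℕ} (hp : p.Prime) (m I : ℕ)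
    (hm : m ≠ 0) (hI : I ≠ 0) (w : A) (hw : addOrderOf w = ordProj[p] (m * I)) :
    addOrderOf (I • w) = ordProj[p] m := by
  have hfac : (m * I).factorization p = m.factorization p + I.factorization p := by
    rw [Nat.factorization_mul hm hI]; rfl
  rw [hfac] at hw
  have hI' : ordProj[p] I * ordCompl[p] I = I := Nat.ordProj_mul_ordCompl_eq_self I p
  have h1 : addOrderOf (ordProj[p] I • w) = ordProj[p] m := by
    rw [addOrderOf_nsmul_of_dvd (pow_ne_zero _ hp.ne_zero), hw, pow_add,
      Nat.mul_div_cancel _ (pow_pos hp.pos _)]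
    rw [hw, pow_add]
    exact Dvd.intro_left _ rfl
  have h2 : I • w = ordCompl[p] I • (ordProj[p] I • w) := by
    rw [← mul_smul, mul_comm, hI']
  rw [h2, Nat.Coprime.addOrderOf_nsmul, h1]
  rw [h1]
  exact Nat.Coprime.pow_left _ ((Nat.Prime.coprime_iff_not_dvd hp).2 (Nat.not_dvd_ordCompl hp hI))

end arith

section restrict

variable {Γ : Type} [Group Γ] [Finite Γ] {p : ℕ} [Fact p.Prime] {C : Rep.{0} ℤ Γ}
  (P : PClassModule p C) (H : Subgroup Γ)

lemma rcp_image_top : tt_psImage H (⊤ : Subgroup H) = H := by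
  unfold tt_psImage
  rw [← MonoidHom.range_eq_map, Subgroup.range_subtype]

/-- **Restriction of a `p`-class module to a layer.** -/
def PClassModule.restrict : PClassModule p (tt_res H C) where
  inv K' := (P.inv (tt_psImage H K')).comp (rcp_layerIso C H K' 2).inv.hom.toAddMonoidHom
  h1 K' x hx := by
    have h0 : (rcp_layerIso C H K' 1).inv.hom x = 0 := by
      refine P.h1 _ _ ?_
      rw [← map_nsmul, hx, map_zero]
    have h2 : (rcp_layerIso C H K' 1).hom.hom ((rcp_layerIso C H K' 1).inv.hom x) = x :=
      congrArg (fun f => f.hom x) (rcp_layerIso C H K' 1).inv_hom_id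
    rw [← h2, h0, map_zero]
  inv_inj K' z hz h0 := by
    have h1 : (rcp_layerIso C H K' 2).inv.hom z = 0 :=
      P.inv_inj _ _ (tt_isPPrimary_hom _ hz) h0
    have h2 : (rcp_layerIso C H K' 2).hom.hom ((rcp_layerIso C H K' 2).inv.hom z) = z :=
      congrArg (fun f => f.hom z) (rcp_layerIso C H K' 2).inv_hom_id
    rw [← h2, h1, map_zero]
  inv_gen := by
    obtain ⟨u, hu, hord⟩ := P.inv_gen
    refine ⟨(tt_resMap H C 2).hom u, tt_isPPrimary_hom _ hu, ?_⟩
    show addOrderOf (P.inv _ ((rcp_layerIso C H ⊤ 2).inv.hom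
      ((tt_resMap ⊤ (tt_res H C) 2).hom ((tt_resMap H C 2).hom u)))) = _
    rw [rcp_layerIso_inv_res, P.inv_congr (rcp_image_top H) u, P.inv_res H u hu]
    refine rcp_addOrderOf_index_smul Fact.out (Nat.card H) H.index Nat.card_pos.ne'
      Subgroup.index_ne_zero_of_finite _ ?_
    rw [hord, H.card_mul_index]
  inv_res K' z hz := by
    obtain ⟨z₀, hz₀, rfl⟩ := rc_pcm_exists_res P H z hz
    show P.inv _ ((rcp_layerIso C H K' 2).inv.hom
        ((tt_resMap K' (tt_res H C) 2).hom ((tt_resMap H C 2).hom z₀))) =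
      K'.index • P.inv _ ((rcp_layerIso C H ⊤ 2).inv.hom
        ((tt_resMap ⊤ (tt_res H C) 2).hom ((tt_resMap H C 2).hom z₀)))
    rw [rcp_layerIso_inv_res, rcp_layerIso_inv_res, P.inv_congr (rcp_image_top H) z₀,
      P.inv_res _ z₀ hz₀, P.inv_res H z₀ hz₀, ← mul_smul]
    congr 1
    exact Subgroup.index_map_subtype K'

theorem PClassModule.restrict_inv_apply (K' : Subgroup H)
    (y : groupCohomology (tt_res K' (tt_res H C)) 2) :
    (P.restrict H).inv K' y = P.inv (tt_psImage H K') ((rcp_layerIso C H K' 2).inv.hom y) := rfl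

/-- the top invariant of the restricted class module is the invariant of the layer -/
theorem PClassModule.restrict_invTop_res (z : groupCohomology C 2) :
    (P.restrict H).invTop ((tt_resMap H C 2).hom z) = P.inv H ((tt_resMap H C 2).hom z) := by
  rw [PClassModule.invTop_apply, PClassModule.restrict_inv_apply, rcp_layerIso_inv_res,
    P.inv_congr (rcp_image_top H) z]

theorem PClassModule.inv_congr_sub {K H : Subgroup Γ} (h : K = H) (hle : K ≤ H)
    (y : groupCohomology (tt_res H C) 2) :
    P.inv K ((tt_resSub C hle 2).hom y) = P.inv H y := by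
  subst h
  rw [tt_resSub_self]
  rfl

theorem rcp_resSub_layerIso_top :
    tt_resSub C (rcp_image_top H).le 2 ≫ (rcp_layerIso C H ⊤ 2).hom =
      tt_resMap ⊤ (tt_res H C) 2 := by
  unfold tt_resSub
  show map _ _ 2 ≫ map _ _ 2 = map _ _ 2
  rw [← map_comp]
  exact map_congr rfl rfl 2

/-- The top invariant of the restricted class module is the invariant of the layer (all
classes). -/
theorem PClassModule.restrict_invTop (y : groupCohomology (tt_res H C) 2) :
    (P.restrict H).invTop y = P.inv H y := by
  rw [PClassModule.invTop_apply, PClassModule.restrict_inv_apply]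
  have h1 : (tt_resMap ⊤ (tt_res H C) 2).hom y =
      (rcp_layerIso C H ⊤ 2).hom.hom ((tt_resSub C (rcp_image_top H).le 2).hom y) :=
    (congrArg (fun f => f.hom y) (rcp_resSub_layerIso_top H)).symm
  rw [h1]
  have h2 : (rcp_layerIso C H ⊤ 2).inv.hom ((rcp_layerIso C H ⊤ 2).hom.hom
      ((tt_resSub C (rcp_image_top H).le 2).hom y)) = (tt_resSub C (rcp_image_top H).le 2).hom y :=
    congrArg (fun f => f.hom ((tt_resSub C (rcp_image_top H).le 2).hom y))
      (rcp_layerIso C H ⊤ 2).hom_inv_id
  rw [h2]
  exact P.inv_congr_sub (rcp_image_top H) _ y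

end restrict

end

end Fermat.Agent.S55
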