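import Fermat.Agent.S55.Tate.PGroup

/-!
# `𝔽_p`-representations of a `p`-group with vanishing `H¹` are coinduced

Let `G` be a finite `p`-group and `ρ` a representation of `G` on an `𝔽_p`-vector space `A` such
that every `1`-cocycle is a coboundary.  Then `A ≅ Fun(G, A^G)` equivariantly; in particular there
is a "trace-one" endomorphism `π` of `A`: `∑ g, ρ g ∘ π ∘ ρ g⁻¹ = id` (Serre, Local Fields IX §5,
Théorème 5 in the dual form).
-/

set_option autoImplicit false

namespace Fermat.Agent.S55

open Finset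

variable {p : ℕ} [Fact p.Prime] {G : Type*} [Group G] [Fintype G]
variable {A : Type*} [AddCommGroup A] [Module (ZMod p) A]

/-- The map `b ↦ (g ↦ r (ρ g b))` towards functions on `G`. -/
noncomputable def pf_phi (ρ : Representation (ZMod p) G A) {I : Type*} [AddCommGroup I]
    [Module (ZMod p) I] (r : A →ₗ[ZMod p] I) : A →ₗ[ZMod p] (G → I) :=
  LinearMap.pi fun g => r ∘ₗ ρ g

omit [Fintype G] in
theorem pf_phi_apply (ρ : Representation (ZMod p) G A) {I : Type*} [AddCommGroup I]
    [Module (ZMod p) I] (r : A →ₗ[ZMod p] I) (b : A) (g : G) : pf_phi ρ r b g = r (ρ g b) := rfl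

omit [Fintype G] in
theorem pf_phi_equivariant (ρ : Representation (ZMod p) G A) {I : Type*} [AddCommGroup I]
    [Module (ZMod p) I] (r : A →ₗ[ZMod p] I) (h : G) (b : A) (g : G) :
    pf_phi ρ r (ρ h b) g = pf_phi ρ r b (g * h) := by
  rw [pf_phi_apply, pf_phi_apply, map_mul, Module.End.mul_apply]

/-- `pf_phi` is injective when `r` restricts to the identity on invariants. -/
theorem pf_phi_injective (hG : IsPGroup p G) (ρ : Representation (ZMod p) G A)
    (r : A →ₗ[ZMod p] ρ.invariants) (hr : ∀ x : ρ.invariants, r x = x) :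
    Function.Injective (pf_phi ρ r) := by
  rw [← LinearMap.ker_eq_bot]
  by_contra hK
  set K := LinearMap.ker (pf_phi ρ r) with hKdef
  have hstab : ∀ g, K ≤ K.comap (ρ g) := by
    intro h b hb
    rw [Submodule.mem_comap, hKdef, LinearMap.mem_ker]
    ext g
    rw [pf_phi_equivariant]
    have : pf_phi ρ r b = 0 := hb
    rw [this]; rfl
  have hnt : Nontrivial K := by
    rw [Submodule.nontrivial_iff_ne_bot]; exact hK
  obtain ⟨k, hk0, hk⟩ := pg_exists_invariant_zmod hG (ρ.subrepresentation K hstab) hnt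
  apply hk0
  have hinv : (k : A) ∈ ρ.invariants := by
    intro g
    have := congrArg Subtype.val (hk g)
    simpa using this
  have h1 : pf_phi ρ r (k : A) 1 = 0 := by
    have : pf_phi ρ r (k : A) = 0 := k.2
    rw [this]; rfl
  rw [pf_phi_apply, map_one, Module.End.one_apply] at h1
  have h2 := hr ⟨(k : A), hinv⟩
  rw [h1] at h2
  apply Subtype.ext
  have := congrArg Subtype.val h2
  simpa using this.symm

/-- `pf_phi` is surjective when `H¹ = 0`. -/
theorem pf_phi_surjective (hG : IsPGroup p G) (ρ : Representation (ZMod p) G A)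
    (h1 : ∀ c : G → A, (∀ g h, c (g * h) = c g + ρ g (c h)) → ∃ b, ∀ g, c g = ρ g b - b)
    (r : A →ₗ[ZMod p] ρ.invariants) (hr : ∀ x : ρ.invariants, r x = x) :
    Function.Surjective (pf_phi ρ r) := by
  classical
  have hinj := pf_phi_injective hG ρ r hr
  -- the right translation representation on functions
  let σ : Representation (ZMod p) G (G → ρ.invariants) :=
    { toFun := fun g =>
        { toFun := fun f x => f (x * g)
          map_add' := fun _ _ => rfl
          map_smul' := fun _ _ => rfl }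
      map_one' := by ext f x; simp
      map_mul' := fun g h => by ext f x; simp [mul_assoc] }
  have hσ : ∀ (g : G) (f : G → ρ.invariants) (x : G), σ g f x = f (x * g) := fun _ _ _ => rfl
  have hequiv : ∀ (h : G) (b : A), pf_phi ρ r (ρ h b) = σ h (pf_phi ρ r b) := by
    intro h b; ext g; rw [pf_phi_equivariant, hσ]
  set W := LinearMap.range (pf_phi ρ r) with hW
  have hstab : ∀ g, W ≤ W.comap (σ g) := by
    rintro g _ ⟨b, rfl⟩
    rw [Submodule.mem_comap, ← hequiv]
    exact ⟨_, rfl⟩
  rw [← LinearMap.range_eq_top]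
  by_contra hne
  have hnt : Nontrivial ((G → ρ.invariants) ⧸ W) := by
    rw [Submodule.Quotient.nontrivial_iff]; exact hne
  obtain ⟨q, hq0, hq⟩ := pg_exists_invariant_zmod hG (σ.quotient W hstab) hnt
  apply hq0
  obtain ⟨f, rfl⟩ := Submodule.Quotient.mk_surjective W q
  -- `σ g f - f ∈ W` for all `g`
  have hmem : ∀ g, σ g f - f ∈ W := by
    intro g
    have := hq g
    rw [Representation.quotient_apply, Submodule.mapQ_apply, ← sub_eq_zero,
      ← Submodule.Quotient.mk_sub, Submodule.Quotient.mk_eq_zero] at this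
    exact this
  choose c hc using hmem
  -- `c` is a cocycle
  have hcoc : ∀ g h, c (g * h) = c g + ρ g (c h) := by
    intro g h
    apply hinj
    rw [map_add, hequiv, hc, hc, hc, map_mul, Module.End.mul_apply, map_sub]
    abel
  obtain ⟨b, hb⟩ := h1 c hcoc
  -- `f - φ b` is invariant, hence constant
  have hinv : ∀ g, σ g (f - pf_phi ρ r b) = f - pf_phi ρ r b := by
    intro g
    have h2 : σ g f - f = pf_phi ρ r (ρ g b) - pf_phi ρ r b := by
      rw [← hc, hb, map_sub]
    rw [map_sub, ← hequiv]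
    have : σ g f = f + (pf_phi ρ r (ρ g b) - pf_phi ρ r b) := by rw [← h2]; abel
    rw [this]; abel
  set f' := f - pf_phi ρ r b with hf'
  have hconst : ∀ x, f' x = f' 1 := by
    intro x
    have := congrFun (hinv x) 1
    rw [hσ, one_mul] at this
    exact this
  have hfv : f' = pf_phi ρ r ((f' 1 : ρ.invariants) : A) := by
    ext x
    rw [hconst x, pf_phi_apply]
    have hx : ρ x ((f' 1 : ρ.invariants) : A) = (f' 1 : ρ.invariants) := (f' 1).2 x
    rw [hx, hr]
  rw [Submodule.Quotient.mk_eq_zero]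
  have : f = pf_phi ρ r (b + ((f' 1 : ρ.invariants) : A)) := by
    rw [map_add, ← hfv, hf']; abel
  rw [this]
  exact ⟨_, rfl⟩

/-- **Serre IX Thm 5 (dual form).** A representation of a finite `p`-group on an `𝔽_p`-vector space
with vanishing `H¹` has a trace-one endomorphism. -/
theorem pf_exists_traceOne (hG : IsPGroup p G) (ρ : Representation (ZMod p) G A)
    (h1 : ∀ c : G → A, (∀ g h, c (g * h) = c g + ρ g (c h)) → ∃ b, ∀ g, c g = ρ g b - b) :
    ∃ π : A →ₗ[ZMod p] A, ∑ g : G, ρ g ∘ₗ π ∘ₗ ρ g⁻¹ = LinearMap.id := by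
  classical
  obtain ⟨r, hr'⟩ := ρ.invariants.subtype.exists_leftInverse_of_injective
    (Submodule.ker_subtype _)
  have hr : ∀ x : ρ.invariants, r x = x := fun x => by
    have := LinearMap.congr_fun hr' x
    simpa using this
  have hbij : Function.Bijective (pf_phi ρ r) :=
    ⟨pf_phi_injective hG ρ r hr, pf_phi_surjective hG ρ h1 r hr⟩
  let e : A ≃ₗ[ZMod p] (G → ρ.invariants) := LinearEquiv.ofBijective (pf_phi ρ r) hbij
  have he : ∀ a, e a = pf_phi ρ r a := fun _ => rfl
  -- projection on functions supported at `1`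
  let π₀ : (G → ρ.invariants) →ₗ[ZMod p] (G → ρ.invariants) :=
    (LinearMap.single (ZMod p) (fun _ : G => ρ.invariants) 1) ∘ₗ (LinearMap.proj 1)
  have hπ₀ : ∀ f x, π₀ f x = if x = 1 then f 1 else 0 := by
    intro f x
    show (Pi.single (1 : G) (f 1) : G → ρ.invariants) x = _
    rw [Pi.single_apply]
  refine ⟨e.symm.toLinearMap ∘ₗ π₀ ∘ₗ e.toLinearMap, ?_⟩
  apply LinearMap.ext
  intro a
  apply hbij.1
  rw [LinearMap.id_apply, LinearMap.sum_apply, map_sum]
  ext x
  rw [Finset.sum_apply]
  have hterm : ∀ g : G, pf_phi ρ r ((ρ g ∘ₗ (e.symm.toLinearMap ∘ₗ π₀ ∘ₗ e.toLinearMap) ∘ₗ ρ g⁻¹) a) x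
      = if x * g = 1 then pf_phi ρ r a x else 0 := by
    intro g
    rw [LinearMap.comp_apply, LinearMap.comp_apply, pf_phi_equivariant, LinearMap.comp_apply,
      LinearMap.comp_apply, LinearEquiv.coe_coe, LinearEquiv.coe_coe, ← he, LinearEquiv.apply_symm_apply,
      hπ₀, he, pf_phi_equivariant, one_mul]
    split_ifs with hx
    · have : g⁻¹ = x := (eq_inv_of_mul_eq_one_left hx).symm
      rw [this]
    · rfl
  rw [Finset.sum_congr rfl fun g _ => hterm g]
  congr 1
  rw [Finset.sum_eq_single x⁻¹]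
  · rw [if_pos (mul_inv_cancel x)]
  · intro g _ hg
    rw [if_neg]
    intro hx
    exact hg (eq_inv_of_mul_eq_one_right hx)
  · intro h; exact absurd (Finset.mem_univ _) h

end Fermat.Agent.S55
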