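import Fermat.Agent.S55.Tate.YonedaCup

/-!
# S55 / block A5-Y, part 2: connecting homomorphisms are adjoint for the evaluation cup product

For a `k`-split short exact sequence `0 → X₁ → X₂ → X₃ → 0` in `Rep k G` and `C : Rep k G`,
with the (short exact) Hom sequence `0 → Hom(X₃,C) → Hom(X₂,C) → Hom(X₁,C) → 0`:

* `yo_Y1` : `φ_*(δ a) = - (δ φ) ∪ a` for `φ : X₁ ⟶ C`, `a ∈ H¹(G, X₃)`;
* `yo_Y2` : `(ev_y)_*(δ α) = α ∪ δ y` for `α ∈ H¹(G, Hom(X₁, C))`, `y ∈ X₃^G`.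
-/

set_option autoImplicit false

open CategoryTheory groupCohomology Rep

namespace Fermat.Agent.S55

universe u

noncomputable section

variable {k G : Type u} [CommRing k] [Group G]

/-- A morphism `φ : B ⟶ C` as an invariant of `Hom(B, C)`. -/
def yo_homInv {B C : Rep.{u} k G} (φ : B ⟶ C) : (yo_hom B C).ρ.invariants :=
  ⟨φ.hom.toLinearMap, fun g =>
    (Representation.linHom.mem_invariants_iff_comm (X := B) (Y := C) φ.hom.toLinearMap g).2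
      (φ.hom.2 g)⟩

@[simp]
lemma yo_homInv_val {B C : Rep.{u} k G} (φ : B ⟶ C) :
    (yo_homInv φ : B.V →ₗ[k] C.V) = φ.hom.toLinearMap := rfl

/-- The class of a morphism `φ : B ⟶ C` in `H⁰(G, Hom(B, C))`. -/
def yo_homClass {B C : Rep.{u} k G} (φ : B ⟶ C) : H0 (yo_hom B C) :=
  (H0Iso (yo_hom B C)).inv (yo_homInv φ)

/-- Evaluation at an invariant element `y ∈ B^G`, as a morphism `Hom(B, C) ⟶ C`. -/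
def yo_ev {B : Rep.{u} k G} (C : Rep.{u} k G) (y : B.ρ.invariants) : yo_hom B C ⟶ C :=
  Rep.ofHom ⟨LinearMap.applyₗ (y : B.V), fun g => by
    refine LinearMap.ext fun (l : B.V →ₗ[k] C.V) => ?_
    show ((yo_hom B C).ρ g l) (y : B.V) = C.ρ g (l (y : B.V))
    rw [yo_hom_ρ_apply, y.2 g⁻¹]⟩

@[simp]
lemma yo_ev_apply {B : Rep.{u} k G} (C : Rep.{u} k G) (y : B.ρ.invariants)
    (l : B.V →ₗ[k] C.V) : (yo_ev C y).hom l = l (y : B.V) := rfl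

section Y1

variable {X : ShortComplex (Rep.{u} k G)} (hX : X.ShortExact) (σ : yo_Splitting X)
  (C : Rep.{u} k G)

/-- The lift `φ ∘ r ∈ Hom(X₂, C)` of `φ : X₁ ⟶ C`. -/
def yo_liftHom (φ : X.X₁ ⟶ C) : X.X₂.V →ₗ[k] C.V := φ.hom.toLinearMap ∘ₗ σ.r

lemma yo_liftHom_f (φ : X.X₁ ⟶ C) (x : X.X₁.V) : yo_liftHom σ C φ (X.f.hom x) = φ.hom x := by
  show φ.hom (σ.r (X.f.hom x)) = φ.hom x
  rw [σ.r_f]

lemma yo_liftHom_s (φ : X.X₁ ⟶ C) (z : X.X₃.V) : yo_liftHom σ C φ (σ.s z) = 0 := by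
  show φ.hom (σ.r (σ.s z)) = 0
  rw [σ.r_s, map_zero]

/-- `d⁰(φ ∘ r)(g)` kills the image of `X.f`. -/
lemma yo_d₀₁_liftHom_f (φ : X.X₁ ⟶ C) (g : G) (x : X.X₁.V) :
    ((d₀₁.{u, u} (yo_hom X.X₂ C)).hom (yo_liftHom σ C φ) g : X.X₂.V →ₗ[k] C.V) (X.f.hom x) = 0 := by
  rw [d₀₁_hom_apply]
  show C.ρ g (yo_liftHom σ C φ (X.X₂.ρ g⁻¹ (X.f.hom x))) - yo_liftHom σ C φ (X.f.hom x) = 0
  rw [← hom_comm_apply, yo_liftHom_f, yo_liftHom_f, hom_comm_apply, ← Module.End.mul_apply,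
    ← map_mul, mul_inv_cancel, map_one, Module.End.one_apply, sub_self]

/-- The 1-cochain `β(g) = d⁰(φ ∘ r)(g) ∘ s` of `Hom(X₃, C)` representing `δ φ`. -/
def yo_δHom (φ : X.X₁ ⟶ C) : G → (X.X₃.V →ₗ[k] C.V) := fun g =>
  ((d₀₁.{u, u} (yo_hom X.X₂ C)).hom (yo_liftHom σ C φ) g : X.X₂.V →ₗ[k] C.V) ∘ₗ σ.s

lemma yo_δHom_g (φ : X.X₁ ⟶ C) (g : G) (y : X.X₂.V) :
    yo_δHom σ C φ g (X.g.hom y) =
      ((d₀₁.{u, u} (yo_hom X.X₂ C)).hom (yo_liftHom σ C φ) g : X.X₂.V →ₗ[k] C.V) y := by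
  show ((d₀₁.{u, u} (yo_hom X.X₂ C)).hom (yo_liftHom σ C φ) g : X.X₂.V →ₗ[k] C.V)
    (σ.s (X.g.hom y)) = _
  have h := σ.f_r_add_s_g y
  have h2 : σ.s (X.g.hom y) = y - X.f.hom (σ.r y) := eq_sub_of_add_eq' h
  rw [h2, map_sub, yo_d₀₁_liftHom_f, sub_zero]

lemma yo_δHom_comp (φ : X.X₁ ⟶ C) :
    (yo_homSC X C).f.hom ∘ (yo_δHom σ C φ : G → (yo_homSC X C).X₁.V) =
      (d₀₁.{u, u} (yo_homSC X C).X₂).hom (yo_liftHom σ C φ : (yo_homSC X C).X₂.V) := by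
  funext g
  refine LinearMap.ext fun y => ?_
  exact yo_δHom_g σ C φ g y

lemma yo_δHom_mem (φ : X.X₁ ⟶ C) : yo_δHom σ C φ ∈ cocycles₁ (yo_hom X.X₃ C) :=
  mem_cocycles₁_of_comp_eq_d₀₁ (yo_homSC_shortExact σ C) (yo_δHom_comp σ C φ)

/-- `δ[φ]` is represented by the cocycle `yo_δHom`. -/
lemma yo_δ_homClass (φ : X.X₁ ⟶ C) :
    δ (yo_homSC_shortExact σ C) 0 1 rfl (yo_homClass φ) =
      H1π (yo_hom X.X₃ C) ⟨yo_δHom σ C φ, yo_δHom_mem σ C φ⟩ := by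
  refine δ₀_apply (yo_homSC_shortExact σ C) (yo_homInv φ) (yo_liftHom σ C φ) ?_
    (yo_δHom σ C φ) (yo_δHom_comp σ C φ)
  refine LinearMap.ext fun x => ?_
  exact yo_liftHom_f σ C φ x

/-- The lift `s ∘ z` of a 1-cochain of `X₃`. -/
def yo_lift₁ (z : G → X.X₃.V) : G → X.X₂.V := fun g => σ.s (z g)

/-- The 2-cochain `r ∘ d¹(s ∘ z)` of `X₁` representing `δ[z]`. -/
def yo_δ₁ (z : G → X.X₃.V) : G × G → X.X₁.V := fun p =>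
  σ.r ((d₁₂ X.X₂).hom (yo_lift₁ σ z) p)

lemma yo_δ₁_comp {z : G → X.X₃.V} (hz : z ∈ cocycles₁ X.X₃) :
    X.f.hom ∘ yo_δ₁ σ z = (d₁₂ X.X₂).hom (yo_lift₁ σ z) := by
  funext ⟨g, h⟩
  show X.f.hom (σ.r ((d₁₂ X.X₂).hom (yo_lift₁ σ z) (g, h))) = _
  apply σ.f_r_of_g_eq_zero
  rw [d₁₂_hom_apply]
  show X.g.hom (X.X₂.ρ g (σ.s (z h)) - σ.s (z (g * h)) + σ.s (z g)) = 0
  rw [map_add, map_sub, hom_comm_apply, σ.g_s, σ.g_s, σ.g_s, (mem_cocycles₁_iff z).1 hz g h]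
  abel

include hX in
lemma yo_δ₁_mem {z : G → X.X₃.V} (hz : z ∈ cocycles₁ X.X₃) : yo_δ₁ σ z ∈ cocycles₂ X.X₁ :=
  mem_cocycles₂_of_comp_eq_d₁₂ hX (yo_δ₁_comp σ hz)

/-- `δ[z]` is represented by the cocycle `yo_δ₁`. -/
lemma yo_δ_H1π (z : cocycles₁ X.X₃) :
    δ hX 1 2 rfl (H1π X.X₃ z) = H2π X.X₁ ⟨yo_δ₁ σ z, yo_δ₁_mem hX σ z.2⟩ := by
  refine δ₁_apply hX z (yo_lift₁ σ z) ?_ (yo_δ₁ σ z) (yo_δ₁_comp σ z.2)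
  funext g
  exact σ.g_s (z g)

/-- **(Y1)** For `φ : X₁ ⟶ C` and `a ∈ H¹(G, X₃)`: `φ_*(δ a) = - (δ φ) ∪ a`. -/
theorem yo_Y1 (φ : X.X₁ ⟶ C) (a : H1 X.X₃) :
    (map (MonoidHom.id G) φ 2).hom (δ hX 1 2 rfl a) =
      - yo_cup X.X₃ C (δ (yo_homSC_shortExact σ C) 0 1 rfl (yo_homClass φ)) a := by
  induction a using H1_induction_on with
  | h z =>
  rw [yo_δ_homClass σ C φ, yo_cup_π, yo_δ_H1π hX σ z]
  have h1 := H2π_comp_map_apply (MonoidHom.id G) φ ⟨yo_δ₁ σ z, yo_δ₁_mem hX σ z.2⟩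
  refine h1.trans ?_
  rw [← map_neg]
  congr 1
  apply Subtype.ext
  funext ⟨g, h⟩
  show yo_liftHom σ C φ ((d₁₂ X.X₂).hom (yo_lift₁ σ z) (g, h)) =
    - (yo_δHom σ C φ g (X.X₃.ρ g (z h)))
  have e1 : X.X₃.ρ g (z h) = X.g.hom (X.X₂.ρ g (σ.s (z h))) := by
    rw [hom_comm_apply, σ.g_s]
  rw [e1, yo_δHom_g, d₀₁_hom_apply, d₁₂_hom_apply]
  show yo_liftHom σ C φ (X.X₂.ρ g (σ.s (z h)) - σ.s (z (g * h)) + σ.s (z g)) =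
    - (C.ρ g (yo_liftHom σ C φ (X.X₂.ρ g⁻¹ (X.X₂.ρ g (σ.s (z h))))) -
      yo_liftHom σ C φ (X.X₂.ρ g (σ.s (z h))))
  have e2 : X.X₂.ρ g⁻¹ (X.X₂.ρ g (σ.s (z h))) = σ.s (z h) := by
    rw [← Module.End.mul_apply, ← map_mul, inv_mul_cancel, map_one, Module.End.one_apply]
  rw [e2, map_add, map_sub, yo_liftHom_s, yo_liftHom_s, yo_liftHom_s, map_zero]
  abel

end Y1

section flip

variable {B C : Rep.{u} k G}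

/-- The cup product and the flipped cup product `(g, h) ↦ (g • α(h))(b(g)) = -ρ(g)(α(h)(b(g⁻¹)))`
differ by a coboundary. -/
lemma yo_cupFun_flip {α : G → (B.V →ₗ[k] C.V)} (hα : α ∈ cocycles₁ (yo_hom B C))
    {b : G → B.V} (hb : b ∈ cocycles₁ B) :
    (fun p : G × G => C.ρ p.1 (α p.2 (b p.1⁻¹))) - yo_cupFun α b =
      (d₁₂ C).hom (fun g => α g (b g) : G → C.V) := by
  funext ⟨g, h⟩
  have hα' := (mem_cocycles₁_iff (A := yo_hom B C) α).1 hα g h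
  have hb' := (mem_cocycles₁_iff b).1 hb g h
  have hinv : b g⁻¹ = - B.ρ g⁻¹ (b g) := by
    have := cocycles₁_map_inv (A := B) ⟨b, hb⟩ g⁻¹
    rw [inv_inv] at this
    have h2 : B.ρ g⁻¹ (b g) = - b g⁻¹ := this
    rw [h2, neg_neg]
  rw [d₁₂_hom_apply]
  show C.ρ g (α h (b g⁻¹)) - α g (B.ρ g (b h)) =
    C.ρ g (α h (b h)) - α (g * h) (b (g * h)) + α g (b g)
  rw [hα', hb', hinv]
  have e : ((yo_hom B C).ρ g (α h) + α g) (B.ρ g (b h) + b g) =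
      C.ρ g (α h (B.ρ g⁻¹ (B.ρ g (b h) + b g))) + α g (B.ρ g (b h) + b g) := rfl
  rw [e]
  have e2 : B.ρ g⁻¹ (B.ρ g (b h)) = b h := by
    rw [← Module.End.mul_apply, ← map_mul, inv_mul_cancel, map_one, Module.End.one_apply]
  simp only [map_add, map_neg, e2]
  abel

end flip

section Y2

variable {X : ShortComplex (Rep.{u} k G)} (hX : X.ShortExact) (σ : yo_Splitting X)
  (C : Rep.{u} k G)

/-- The lift `g ↦ α(g) ∘ r` of a 1-cochain of `Hom(X₁, C)`. -/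
def yo_lift₁Hom (α : G → (X.X₁.V →ₗ[k] C.V)) : G → (X.X₂.V →ₗ[k] C.V) := fun g => α g ∘ₗ σ.r

lemma yo_lift₁Hom_f (α : G → (X.X₁.V →ₗ[k] C.V)) (g : G) (x : X.X₁.V) :
    yo_lift₁Hom σ C α g (X.f.hom x) = α g x := by
  show α g (σ.r (X.f.hom x)) = α g x
  rw [σ.r_f]

lemma yo_lift₁Hom_s (α : G → (X.X₁.V →ₗ[k] C.V)) (g : G) (z : X.X₃.V) :
    yo_lift₁Hom σ C α g (σ.s z) = 0 := by
  show α g (σ.r (σ.s z)) = 0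
  rw [σ.r_s, map_zero]

/-- `d¹(α ∘ r)(g, h)` kills the image of `X.f` when `α` is a cocycle. -/
lemma yo_d₁₂_lift₁Hom_f {α : G → (X.X₁.V →ₗ[k] C.V)} (hα : α ∈ cocycles₁ (yo_hom X.X₁ C))
    (p : G × G) (x : X.X₁.V) :
    ((d₁₂.{u, u} (yo_hom X.X₂ C)).hom (yo_lift₁Hom σ C α) p : X.X₂.V →ₗ[k] C.V) (X.f.hom x) = 0 := by
  obtain ⟨g, h⟩ := p
  have hα' := (mem_cocycles₁_iff (A := yo_hom X.X₁ C) α).1 hα g h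
  rw [d₁₂_hom_apply]
  show C.ρ g (yo_lift₁Hom σ C α h (X.X₂.ρ g⁻¹ (X.f.hom x))) - yo_lift₁Hom σ C α (g * h) (X.f.hom x)
    + yo_lift₁Hom σ C α g (X.f.hom x) = 0
  rw [← hom_comm_apply, yo_lift₁Hom_f, yo_lift₁Hom_f, yo_lift₁Hom_f, hα']
  show C.ρ g (α h (X.X₁.ρ g⁻¹ x)) - (C.ρ g (α h (X.X₁.ρ g⁻¹ x)) + α g x) + α g x = 0
  abel

/-- The 2-cochain `γ(g, h) = d¹(α ∘ r)(g, h) ∘ s` of `Hom(X₃, C)` representing `δ[α]`. -/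
def yo_δ₁Hom (α : G → (X.X₁.V →ₗ[k] C.V)) : G × G → (X.X₃.V →ₗ[k] C.V) := fun p =>
  ((d₁₂.{u, u} (yo_hom X.X₂ C)).hom (yo_lift₁Hom σ C α) p : X.X₂.V →ₗ[k] C.V) ∘ₗ σ.s

lemma yo_δ₁Hom_g {α : G → (X.X₁.V →ₗ[k] C.V)} (hα : α ∈ cocycles₁ (yo_hom X.X₁ C))
    (p : G × G) (y : X.X₂.V) :
    yo_δ₁Hom σ C α p (X.g.hom y) =
      ((d₁₂.{u, u} (yo_hom X.X₂ C)).hom (yo_lift₁Hom σ C α) p : X.X₂.V →ₗ[k] C.V) y := by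
  show ((d₁₂.{u, u} (yo_hom X.X₂ C)).hom (yo_lift₁Hom σ C α) p : X.X₂.V →ₗ[k] C.V)
    (σ.s (X.g.hom y)) = _
  have h := σ.f_r_add_s_g y
  have h2 : σ.s (X.g.hom y) = y - X.f.hom (σ.r y) := eq_sub_of_add_eq' h
  rw [h2, map_sub, yo_d₁₂_lift₁Hom_f σ C hα, sub_zero]

lemma yo_δ₁Hom_comp {α : G → (X.X₁.V →ₗ[k] C.V)} (hα : α ∈ cocycles₁ (yo_hom X.X₁ C)) :
    (yo_homSC X C).f.hom ∘ (yo_δ₁Hom σ C α : G × G → (yo_homSC X C).X₁.V) =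
      (d₁₂.{u, u} (yo_homSC X C).X₂).hom (yo_lift₁Hom σ C α : G → (yo_homSC X C).X₂.V) := by
  funext p
  refine LinearMap.ext fun y => ?_
  exact yo_δ₁Hom_g σ C hα p y

lemma yo_δ₁Hom_mem {α : G → (X.X₁.V →ₗ[k] C.V)} (hα : α ∈ cocycles₁ (yo_hom X.X₁ C)) :
    yo_δ₁Hom σ C α ∈ cocycles₂ (yo_hom X.X₃ C) :=
  mem_cocycles₂_of_comp_eq_d₁₂ (yo_homSC_shortExact σ C) (yo_δ₁Hom_comp σ C hα)

/-- `δ[α]` is represented by the cocycle `yo_δ₁Hom`. -/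
lemma yo_δ_H1π_hom (α : cocycles₁ (yo_hom X.X₁ C)) :
    δ (yo_homSC_shortExact σ C) 1 2 rfl (H1π (yo_hom X.X₁ C) α) =
      H2π (yo_hom X.X₃ C) ⟨yo_δ₁Hom σ C α, yo_δ₁Hom_mem σ C α.2⟩ := by
  refine δ₁_apply (yo_homSC_shortExact σ C) α (yo_lift₁Hom σ C α) ?_ (yo_δ₁Hom σ C α)
    (yo_δ₁Hom_comp σ C α.2)
  funext g
  refine LinearMap.ext fun x => ?_
  exact yo_lift₁Hom_f σ C α g x

/-- The 1-cochain `g ↦ r(g • s(y) - s(y))` of `X₁` representing `δ[y]`. -/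
def yo_δ₀ (y : X.X₃.V) : G → X.X₁.V := fun g => σ.r ((d₀₁ X.X₂).hom (σ.s y) g)

lemma yo_δ₀_comp (y : X.X₃.ρ.invariants) :
    X.f.hom ∘ yo_δ₀ σ (y : X.X₃.V) = (d₀₁ X.X₂).hom (σ.s (y : X.X₃.V)) := by
  funext g
  show X.f.hom (σ.r ((d₀₁ X.X₂).hom (σ.s (y : X.X₃.V)) g)) = _
  apply σ.f_r_of_g_eq_zero
  rw [d₀₁_hom_apply, map_sub, hom_comm_apply, σ.g_s, y.2 g, sub_self]

include hX in
lemma yo_δ₀_mem (y : X.X₃.ρ.invariants) : yo_δ₀ σ (y : X.X₃.V) ∈ cocycles₁ X.X₁ :=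
  mem_cocycles₁_of_comp_eq_d₀₁ hX (yo_δ₀_comp σ y)

/-- `δ[y]` is represented by the cocycle `yo_δ₀`. -/
lemma yo_δ_H0 (y : X.X₃.ρ.invariants) :
    δ hX 0 1 rfl ((H0Iso X.X₃).inv y) = H1π X.X₁ ⟨yo_δ₀ σ (y : X.X₃.V), yo_δ₀_mem hX σ y⟩ :=
  δ₀_apply hX y (σ.s (y : X.X₃.V)) (σ.g_s _) (yo_δ₀ σ (y : X.X₃.V)) (yo_δ₀_comp σ y)

/-- **(Y2)** For `α ∈ H¹(G, Hom(X₁, C))` and `y ∈ X₃^G`: `(ev_y)_*(δ α) = α ∪ δ y`. -/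
theorem yo_Y2 (α : H1 (yo_hom X.X₁ C)) (y : X.X₃.ρ.invariants) :
    (map (MonoidHom.id G) (yo_ev C y) 2).hom (δ (yo_homSC_shortExact σ C) 1 2 rfl α) =
      yo_cup X.X₁ C α (δ hX 0 1 rfl ((H0Iso X.X₃).inv y)) := by
  induction α using H1_induction_on with
  | h α =>
  rw [yo_δ_H1π_hom σ C α, yo_δ_H0 hX σ y, yo_cup_π]
  have h1 := H2π_comp_map_apply (A := yo_hom X.X₃ C) (B := C) (MonoidHom.id G) (yo_ev C y)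
    (⟨yo_δ₁Hom σ C α, yo_δ₁Hom_mem σ C α.2⟩ : cocycles₂ (yo_hom X.X₃ C))
  refine h1.trans ?_
  rw [H2π_eq_iff]
  refine ⟨fun g => (α : G → (X.X₁.V →ₗ[k] C.V)) g (yo_δ₀ σ (y : X.X₃.V) g), ?_⟩
  refine (yo_cupFun_flip α.2 (yo_δ₀_mem hX σ y)).symm.trans ?_
  funext ⟨g, h⟩
  show C.ρ g ((α : G → (X.X₁.V →ₗ[k] C.V)) h (yo_δ₀ σ (y : X.X₃.V) g⁻¹)) -
      (α : G → (X.X₁.V →ₗ[k] C.V)) g (X.X₁.ρ g (yo_δ₀ σ (y : X.X₃.V) h)) =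
    yo_δ₁Hom σ C α (g, h) (y : X.X₃.V) -
      (α : G → (X.X₁.V →ₗ[k] C.V)) g (X.X₁.ρ g (yo_δ₀ σ (y : X.X₃.V) h))
  congr 1
  show _ = ((d₁₂.{u, u} (yo_hom X.X₂ C)).hom (yo_lift₁Hom σ C α) (g, h) : X.X₂.V →ₗ[k] C.V)
    (σ.s (y : X.X₃.V))
  rw [d₁₂_hom_apply]
  show _ = C.ρ g (yo_lift₁Hom σ C α h (X.X₂.ρ g⁻¹ (σ.s (y : X.X₃.V)))) -
    yo_lift₁Hom σ C α (g * h) (σ.s (y : X.X₃.V)) + yo_lift₁Hom σ C α g (σ.s (y : X.X₃.V))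
  rw [yo_lift₁Hom_s, yo_lift₁Hom_s, sub_zero, add_zero]
  show C.ρ g ((α : G → (X.X₁.V →ₗ[k] C.V)) h
      (σ.r ((d₀₁ X.X₂).hom (σ.s (y : X.X₃.V)) g⁻¹))) =
    C.ρ g ((α : G → (X.X₁.V →ₗ[k] C.V)) h (σ.r (X.X₂.ρ g⁻¹ (σ.s (y : X.X₃.V)))))
  rw [d₀₁_hom_apply, map_sub, σ.r_s, sub_zero]

end Y2

end

end Fermat.Agent.S55
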