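import Fermat.Agent.S55.Tate.DoubleShift
import Fermat.Agent.S55.Tate.Yoneda

/-!
# The explicit double dimension shift of a lattice: adjointness and the packaged statement
(S55, block A, leaf A5-Y, assembly half, part 2)

* `dsh_adjoint` : `φ_*(D y) = - (ev_y)_*(D' φ)` in `H²(G, C)`, from the generic Yoneda identities
  `yo_Y1`, `yo_Y2`;
* instance-free forms `dsh_inv`, `dsh_Dadd`, `dsh_D'add` (safe at `k := ℤ`);
* `dsh_main` : the packaged existential statement for lattices.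
-/
set_option autoImplicit false

namespace Fermat.Agent.S55

open CategoryTheory groupCohomology

noncomputable section

section general

variable {k G : Type} [CommRing k] [Group G]

theorem dsh_homSC_eq_yo (S : ShortComplex (Rep.{0} k G)) (C : Rep.{0} k G) :
    dsh_homSC S C = yo_homSC S C := rfl

/-- the splitting of `fg_upSC A` given by evaluation at `1` -/
def dsh_splitting (A : Rep.{0} k G) : yo_Splitting (fg_upSC A) :=
  yo_Splitting.ofRetraction (fg_upSC_shortExact A) (dsh_ev1 A) (dsh_ev1_ι A)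

/-- **adjointness** of `D` and `D'` for the evaluation pairing -/
theorem dsh_adjoint (Z C : Rep.{0} k G) (φ : Z ⟶ C) (y : (dsh_Y Z).ρ.invariants) :
    (tt_coeffMap φ 2).hom (dsh_D Z y) =
      - (tt_coeffMap (tt_ev C y.1 y.2) 2).hom (dsh_D' Z C φ) := by
  have h1 := yo_Y1 (fg_upSC_shortExact Z) (dsh_splitting Z) C φ
    ((δ (fg_upSC_shortExact (fg_up Z)) 0 1 rfl).hom ((H0Iso (dsh_Y Z)).inv.hom y))
  have h2 := yo_Y2 (fg_upSC_shortExact (fg_up Z)) (dsh_splitting (fg_up Z)) C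
    ((δ (yo_homSC_shortExact (dsh_splitting Z) C) 0 1 rfl).hom (yo_homClass φ)) y
  refine h1.trans ?_
  refine congrArg Neg.neg ?_
  exact h2.symm

/-! ### instance-free forms (safe to use at `k := ℤ`) -/

/-- the invariants as an additive subgroup (use this at `k := ℤ`, where `Y.ρ.invariants` written
by hand elaborates with the wrong `Module ℤ` instance) -/
def dsh_inv (Y : Rep.{0} k G) : AddSubgroup Y.V := Y.ρ.invariants.toAddSubgroup

theorem dsh_mem_inv {Y : Rep.{0} k G} {y : Y.V} : y ∈ dsh_inv Y ↔ ∀ g, Y.ρ g y = y := Iff.rfl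

/-- `D` as an additive map on `dsh_inv` -/
def dsh_Dadd (Z : Rep.{0} k G) : dsh_inv (dsh_Y Z) →+ groupCohomology Z 2 :=
  (dsh_D Z).toAddMonoidHom

theorem dsh_Dadd_apply (Z : Rep.{0} k G) (y : dsh_inv (dsh_Y Z)) :
    dsh_Dadd Z y = dsh_D Z ⟨y.1, y.2⟩ := rfl

/-- `D'` as an additive map -/
def dsh_D'add (Z C : Rep.{0} k G) : (Z ⟶ C) →+ groupCohomology (tt_hom (dsh_Y Z) C) 2 :=
  (dsh_D' Z C).toAddMonoidHom

theorem dsh_D'add_apply (Z C : Rep.{0} k G) (φ : Z ⟶ C) : dsh_D'add Z C φ = dsh_D' Z C φ := rfl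

theorem dsh_Dadd_surjective (Z : Rep.{0} k G) : Function.Surjective (dsh_Dadd Z) :=
  dsh_D_surjective Z

theorem dsh_D'add_surjective [Fintype G] (Z C : Rep.{0} k G) :
    Function.Surjective (dsh_D'add Z C) :=
  dsh_D'_surjective Z C

theorem dsh_Dadd_norm [Fintype G] (Z : Rep.{0} k G) (y : (dsh_Y Z).V)
    (h : ∑ g : G, (dsh_Y Z).ρ g y ∈ dsh_inv (dsh_Y Z)) :
    dsh_Dadd Z ⟨∑ g : G, (dsh_Y Z).ρ g y, h⟩ = 0 := by
  have := dsh_D_norm Z y
  have e : (⟨∑ g : G, (dsh_Y Z).ρ g y, h⟩ : (dsh_Y Z).ρ.invariants) =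
      ⟨(dsh_Y Z).ρ.norm y, fun g => Representation.self_norm_apply _ g y⟩ := by
    apply Subtype.ext
    show _ = (dsh_Y Z).ρ.norm y
    rw [Representation.norm, LinearMap.sum_apply]
  rw [dsh_Dadd_apply]
  exact (congrArg (dsh_D Z) e).trans this

theorem dsh_D'add_eq_zero [Fintype G] (Z C : Rep.{0} k G) (φ : Z ⟶ C)
    (h : dsh_D'add Z C φ = 0) :
    ∃ ψ : Z.V →+ C.V, ∀ z, φ.hom z = ∑ g : G, C.ρ g (ψ (Z.ρ g⁻¹ z)) := by
  obtain ⟨ψ, hψ⟩ := dsh_D'_eq_zero Z C φ h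
  exact ⟨ψ.toAddMonoidHom, hψ⟩

theorem dsh_adjoint_add (Z C : Rep.{0} k G) (φ : Z ⟶ C) (y : dsh_inv (dsh_Y Z)) :
    (tt_coeffMap φ 2).hom (dsh_Dadd Z y) =
      - (tt_coeffMap (tt_ev C y.1 (dsh_mem_inv.1 y.2)) 2).hom (dsh_D'add Z C φ) :=
  dsh_adjoint Z C φ ⟨y.1, y.2⟩

end general

/-- **The explicit double dimension shift of a lattice** (goal of leaf A5-Y): for a finite group
`G`, a lattice `Z` and any `C`, there are a lattice `Y`, a surjection `D : Y^G → H²(G, Z)` killing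
norms and a surjection `D' : Hom_G(Z, C) → H²(G, Hom(Y, C))` with kernel in the norms which are
adjoint (up to the sign `-1`) for the evaluation pairing. -/
theorem dsh_main {G : Type} [Group G] [Fintype G] (Z : Rep.{0} ℤ G) (hZ : tt_IsLattice Z)
    (C : Rep.{0} ℤ G) :
    ∃ (Y : Rep.{0} ℤ G) (_ : tt_IsLattice Y) (D : dsh_inv Y →+ groupCohomology Z 2)
      (D' : (Z ⟶ C) →+ groupCohomology (tt_hom Y C) 2),
      Function.Surjective D ∧
      (∀ (y : Y.V) (h : ∑ g : G, Y.ρ g y ∈ dsh_inv Y), D ⟨∑ g : G, Y.ρ g y, h⟩ = 0) ∧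
      Function.Surjective D' ∧
      (∀ φ : Z ⟶ C, D' φ = 0 →
        ∃ ψ : Z.V →+ C.V, ∀ z, φ.hom z = ∑ g : G, C.ρ g (ψ (Z.ρ g⁻¹ z))) ∧
      ∀ (φ : Z ⟶ C) (y : dsh_inv Y),
        (tt_coeffMap φ 2).hom (D y) =
          - (tt_coeffMap (tt_ev C y.1 (dsh_mem_inv.1 y.2)) 2).hom (D' φ) :=
  ⟨dsh_Y Z, dsh_lattice_up _ (dsh_lattice_up Z hZ), dsh_Dadd Z, dsh_D'add Z C,
    dsh_Dadd_surjective Z, dsh_Dadd_norm Z, dsh_D'add_surjective Z C, dsh_D'add_eq_zero Z C,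
    dsh_adjoint_add Z C⟩

end

end Fermat.Agent.S55
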