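import Fermat.Agent.S55.Tate.TNLayer
import Fermat.Agent.S55.FinGrp.CohTriv
import Fermat.Agent.S55.FinGrp.FiniteH2
import Fermat.Agent.S55.Tate.DoubleShiftAdjoint

/-!
# The Tate–Nakayama theorems for a `p`-class module (S55, block A, final assembly)

For a finite group `Γ`, a prime `p`, `P : PClassModule p C` and a lattice `Y`:

* `tt_TN_right`: a `p`-primary class `y ∈ H²(Γ, Y)` with `inv (φ_* y) = 0` for all `φ : Y ⟶ C`
  vanishes;
* `tt_TN_left`: a morphism `φ : Y ⟶ C` with `inv (φ_* y) = 0` for all `p`-primary `y ∈ H²(Γ, Y)`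
  is a norm up to an integer prime to `p`.

Ingredients: Tate's theorem for the splitting module on the `p`-subgroups (`tn_split_isZero`),
cohomological triviality of `Hom(Y, C(σ))` up to prime-to-`p` torsion (`fg_hom_pPrimary_vanish`),
surjectivity of Tate's map `Θ` (`tm_surj`), the double dimension shift with its adjointness
(`dsh_main`), the elementary duality for lattices (`td_add_right_pPrimary`,
`td_add_left_pPrimary`) and the vanishing of norms on `H²` (`fh_coeffMap_eq_zero_of_norm`).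
-/

set_option autoImplicit false
namespace Fermat.Agent.S55
open CategoryTheory groupCohomology

noncomputable section

section general
variable {k G : Type} [CommRing k] [Group G]

/-- the `k`-dual of the underlying module (general `k`, so that the module instance carried by
`Y` is used) -/
abbrev tn_Dual (Y : Rep.{0} k G) : Type := Y.V →ₗ[k] k

/-- a functional from an additive map commuting with scalars -/
def tn_dualOfAdd (Y : Rep.{0} k G) (f : Y.V →+ k) (hf : ∀ (c : k) (y : Y.V), f (c • y) = c * f y) :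
    tn_Dual Y where
  toFun := f
  map_add' := f.map_add
  map_smul' c y := by rw [hf]; rfl

theorem tn_dualOfAdd_apply (Y : Rep.{0} k G) (f : Y.V →+ k)
    (hf : ∀ (c : k) (y : Y.V), f (c • y) = c * f y) (y : Y.V) : tn_dualOfAdd Y f hf y = f y := rfl

/-- the action as a monoid homomorphism into additive endomorphisms -/
def tn_addRho (Y : Rep.{0} k G) : G →* AddMonoid.End Y.V where
  toFun g := (Y.ρ g).toAddMonoidHom
  map_one' := by ext y; rw [map_one]; rfl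
  map_mul' g h := by ext y; rw [map_mul]; rfl

theorem tn_addRho_apply (Y : Rep.{0} k G) (g : G) (y : Y.V) : tn_addRho Y g y = Y.ρ g y := rfl

/-- `c ↦ (y ↦ f y • c)` for an invariant functional `f` -/
def tn_mu (Y C : Rep.{0} k G) (f : tn_Dual Y) (hf : ∀ g y, f (Y.ρ g y) = f y) :
    C ⟶ tt_hom Y C :=
  Rep.ofHom
    { toLinearMap := LinearMap.smulRightₗ f
      isIntertwining' := fun g => by
        ext c y
        change f y • C.ρ g c = C.ρ g (f (Y.ρ g⁻¹ y) • c)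
        rw [hf, map_smul] }

theorem tn_mu_apply (Y C : Rep.{0} k G) (f : tn_Dual Y) (hf : ∀ g y, f (Y.ρ g y) = f y)
    (c : C.V) (y : Y.V) : (tn_mu Y C f hf).hom c y = f y • c := rfl

/-- Tate's map: the class of `f · σ` -/
def tn_theta (Y C : Rep.{0} k G) (σ : cocycles₂ C) (f : tn_Dual Y)
    (hf : ∀ g y, f (Y.ρ g y) = f y) : groupCohomology (tt_hom Y C) 2 :=
  te_cl2 (tt_hom Y C) (tm_mulσ Y C σ f) (tm_mulσ_isZ2 Y C σ f hf)

theorem tn_theta_eq_mu (Y C : Rep.{0} k G) (σ : cocycles₂ C) (f : tn_Dual Y)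
    (hf : ∀ g y, f (Y.ρ g y) = f y) :
    tn_theta Y C σ f hf = (tt_coeffMap (tn_mu Y C f hf) 2).hom (H2π C σ) := by
  have h := te_map_cl2 (MonoidHom.id G) (A := C) (B := tt_hom Y C) (tn_mu Y C f hf)
    ((te_isZ2_iff C σ.1).mpr σ.2)
  exact h.symm

/-- evaluating Tate's map at an invariant element -/
theorem tn_ev_theta (Y C : Rep.{0} k G) (σ : cocycles₂ C) (f : tn_Dual Y)
    (hf : ∀ g y, f (Y.ρ g y) = f y) (y : Y.V) (hy : ∀ g, Y.ρ g y = y) :
    (tt_coeffMap (tt_ev C y hy) 2).hom (tn_theta Y C σ f hf) = f y • H2π C σ := by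
  have h := te_map_cl2 (MonoidHom.id G) (A := tt_hom Y C) (B := C) (tt_ev C y hy)
    (tm_mulσ_isZ2 Y C σ f hf)
  refine h.trans ?_
  rw [← map_smul]
  rfl

theorem tn_theta_nsmul (Y C : Rep.{0} k G) (σ : cocycles₂ C) (n : ℕ) (f : tn_Dual Y)
    (hf : ∀ g y, f (Y.ρ g y) = f y) (hnf : ∀ g y, (n • f) (Y.ρ g y) = (n • f) y) :
    tn_theta Y C σ (n • f) hnf = n • tn_theta Y C σ f hf := by
  rw [tn_theta, tn_theta, ← te_cl2_nsmul]
  congr 1
  funext q
  apply LinearMap.ext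
  intro y
  show (n • f y) • σ q = n • (f y • σ q)
  rw [smul_assoc]

/-- Tate's map kills norms -/
theorem tn_theta_norm [Fintype G] (Y C : Rep.{0} k G) (σ : cocycles₂ C) (f : tn_Dual Y)
    (hf : ∀ g y, f (Y.ρ g y) = f y) (f' : tn_Dual Y)
    (h : ∀ y, f y = ∑ g : G, f' (Y.ρ g y)) : tn_theta Y C σ f hf = 0 := by
  rw [tn_theta_eq_mu]
  have h0 := fh_coeffMap_eq_zero_of_norm C (tt_hom Y C) (tn_mu Y C f hf)
    (LinearMap.smulRightₗ f' : C.V →ₗ[k] (Y.V →ₗ[k] C.V)).toAddMonoidHom (fun c => by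
      apply LinearMap.ext
      intro y
      rw [tn_mu_apply]
      have h1 : (∑ g : G, (tt_hom Y C).ρ g
          ((LinearMap.smulRightₗ f' : C.V →ₗ[k] (Y.V →ₗ[k] C.V)).toAddMonoidHom (C.ρ g⁻¹ c))) y =
          ∑ g : G, f' (Y.ρ g⁻¹ y) • c := by
        rw [LinearMap.sum_apply]
        refine Finset.sum_congr rfl fun g _ => ?_
        show C.ρ g (f' (Y.ρ g⁻¹ y) • C.ρ g⁻¹ c) = f' (Y.ρ g⁻¹ y) • c
        rw [map_smul, ← Module.End.mul_apply, ← map_mul, mul_inv_cancel, map_one]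
        rfl
      rw [h1, ← Finset.sum_smul, h y]
      congr 1
      exact Fintype.sum_equiv (Equiv.inv G) _ _ (fun g => by simp))
  rw [h0]
  rfl

theorem tn_isZ2_sub (A : Rep.{0} k G) {z₁ z₂ : G × G → A.V} (h₁ : te_IsZ2 A z₁)
    (h₂ : te_IsZ2 A z₂) : te_IsZ2 A (z₁ - z₂) := by
  rw [te_isZ2_iff] at h₁ h₂ ⊢
  exact (cocycles₂ A).sub_mem h₁ h₂

theorem tn_cl2_sub (A : Rep.{0} k G) {z₁ z₂ : G × G → A.V} (h₁ : te_IsZ2 A z₁)
    (h₂ : te_IsZ2 A z₂) :
    te_cl2 A (z₁ - z₂) (tn_isZ2_sub A h₁ h₂) = te_cl2 A z₁ h₁ - te_cl2 A z₂ h₂ := by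
  rw [te_cl2, te_cl2, te_cl2, ← map_sub]
  rfl

theorem tn_cl2_eq_of_eq_add_d1 (A : Rep.{0} k G) {z₁ z₂ : G × G → A.V} (h₁ : te_IsZ2 A z₁)
    (h₂ : te_IsZ2 A z₂) (γ : G → A.V) (h : z₁ = z₂ + te_d1 A γ) :
    te_cl2 A z₁ h₁ = te_cl2 A z₂ h₂ := by
  rw [← sub_eq_zero, ← tn_cl2_sub, te_cl2_eq_zero_iff]
  exact ⟨γ, by rw [h, add_sub_cancel_left]⟩

theorem tn_smul_cl2_eq_theta (Y C : Rep.{0} k G) (σ : cocycles₂ C) (m : ℕ)
    (z : G × G → (Y.V →ₗ[k] C.V)) (hz : te_IsZ2 (tt_hom Y C) z) (f : tn_Dual Y)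
    (hf : ∀ g y, f (Y.ρ g y) = f y) (γ : G → (Y.V →ₗ[k] C.V))
    (hγ : ∀ g h y, m • z (g, h) y = f y • σ (g, h) + te_d1 (tt_hom Y C) γ (g, h) y) :
    m • te_cl2 (tt_hom Y C) z hz = tn_theta Y C σ f hf := by
  rw [← te_cl2_nsmul]
  refine tn_cl2_eq_of_eq_add_d1 _ _ _ γ ?_
  funext q
  apply LinearMap.ext
  intro y
  exact hγ q.1 q.2 y

/-- a multiple of Tate's map kills functionals a multiple of which is a norm -/
theorem tn_nsmul_theta_norm [Fintype G] (Y C : Rep.{0} k G) (σ : cocycles₂ C) (n : ℕ)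
    (f : tn_Dual Y) (hf : ∀ g y, f (Y.ρ g y) = f y) (f' : tn_Dual Y)
    (h : ∀ y, n • f y = ∑ g : G, f' (Y.ρ g y)) : n • tn_theta Y C σ f hf = 0 := by
  have hnf : ∀ g y, (n • f) (Y.ρ g y) = (n • f) y := fun g y => by
    rw [LinearMap.smul_apply, LinearMap.smul_apply, hf]
  rw [← tn_theta_nsmul Y C σ n f hf hnf]
  exact tn_theta_norm Y C σ _ hnf f' h

/-- `H^{n+1}(G, Hom(Y, k[G])) = 0` -/
theorem tn_isZero_hom_funRep [Fintype G] (Y : Rep.{0} k G) (n : ℕ) :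
    Limits.IsZero (groupCohomology (tt_hom Y (Rep.of (fg_funRep k G k))) (n + 1)) := by
  obtain ⟨π, hπ⟩ := fg_traceOne_hom Y _ (fg_traceOne_coind₁ (Rep.trivial k G k))
  exact (fg_isZero_tate_of_trace _ π hπ ((n + 1 : ℕ) : ℤ)).of_iso
    ((TateCohomology.isoGroupCohomology (n + 1)).app
      (tt_hom Y (Rep.of (fg_funRep k G k)))).symm

theorem tn_nsmul_hom {Y C : Rep.{0} k G} (n : ℕ) (φ : Y ⟶ C) (y : Y.V) :
    (n • φ).hom y = n • φ.hom y := by
  induction n with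
  | zero => rw [zero_smul, zero_smul]; rfl
  | succ n ih =>
    rw [succ_nsmul, succ_nsmul, ← ih]
    rfl

end general

theorem tn_eq_zero_of_pPrimary {A : Type*} [AddCommGroup A] {p : ℕ} (hp : p.Prime) {a : A}
    (ha : tt_IsPPrimary p a) (m : ℕ) (hm : ¬ p ∣ m) (h : m • a = 0) : a = 0 := by
  obtain ⟨k, hk⟩ := ha
  have h1 := addOrderOf_dvd_of_nsmul_eq_zero hk
  have h2 := addOrderOf_dvd_of_nsmul_eq_zero h
  have h3 : Nat.Coprime (p ^ k) m := Nat.Coprime.pow_left k ((Nat.Prime.coprime_iff_not_dvd hp).2 hm)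
  have h4 : addOrderOf a ∣ 1 := by
    rw [← h3.gcd_eq_one]
    exact Nat.dvd_gcd h1 h2
  exact AddMonoid.addOrderOf_eq_one_iff.1 (Nat.dvd_one.1 h4)

section main

variable {Γ : Type} [Group Γ] [Fintype Γ] {p : ℕ} [Fact p.Prime] {C : Rep.{0} ℤ Γ}
  (P : PClassModule p C)

omit [Fintype Γ] [Fact p.Prime] in
/-- a fundamental cocycle -/
theorem tn_exists_fund : ∃ σ : cocycles₂ C, tt_IsPPrimary p (H2π C σ) ∧
    addOrderOf (P.invTop (H2π C σ)) = ordProj[p] (Nat.card Γ) := by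
  obtain ⟨u, hu, hord⟩ := P.inv_gen
  obtain ⟨z, hz, rfl⟩ := te_cl2_surjective C u
  exact ⟨⟨z, (te_isZ2_iff C z).mp hz⟩, hu, hord⟩

omit [Fintype Γ] [Fact p.Prime] in
theorem tn_dvd_of_invTop_smul (σ : cocycles₂ C)
    (hord : addOrderOf (P.invTop (H2π C σ)) = ordProj[p] (Nat.card Γ)) (n : ℤ)
    (h : P.invTop (n • H2π C σ) = 0) : ((ordProj[p] (Nat.card Γ) : ℕ) : ℤ) ∣ n := by
  rw [map_zsmul] at h
  rw [← hord]
  exact addOrderOf_dvd_iff_zsmul_eq_zero.2 h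

omit [Fintype Γ] in
/-- evaluation of Tate's map, with the integer scalar written as a `zsmul` -/
theorem tn_ev_theta_int (Y : Rep.{0} ℤ Γ) (σ : cocycles₂ C) (f : tn_Dual Y)
    (hf : ∀ g y, f (Y.ρ g y) = f y) (y : Y.V) (hy : ∀ g, Y.ρ g y = y) :
    (tt_coeffMap (tt_ev C y hy) 2).hom (tn_theta Y C σ f hf) = (f y : ℤ) • H2π C σ :=
  (tn_ev_theta Y C σ f hf y hy).trans (int_smul_eq_zsmul _ _ _)

/-- a functional from an additive map, over `ℤ` -/
def tn_dualOfAddInt (Y : Rep.{0} ℤ Γ) (f : Y.V →+ ℤ) : tn_Dual Y :=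
  tn_dualOfAdd Y f (fun c y =>
    (congrArg f (int_smul_eq_zsmul Y.hV2 c y)).trans (by rw [map_zsmul, smul_eq_mul]))

omit [Fintype Γ] in
theorem tn_dualOfAddInt_apply (Y : Rep.{0} ℤ Γ) (f : Y.V →+ ℤ) (y : Y.V) :
    tn_dualOfAddInt Y f y = f y := rfl

/-- **Tate–Nakayama, right kernel.**  A `p`-primary class of `H²(Γ, Y)` (`Y` a lattice) which pairs
to zero with every `φ : Y ⟶ C` vanishes. -/
theorem tt_TN_right (Y : Rep.{0} ℤ Γ) (hY : tt_IsLattice Y) (y : groupCohomology Y 2)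
    (hy : tt_IsPPrimary p y) (h : ∀ φ : Y ⟶ C, P.pairing φ y = 0) : y = 0 := by
  have hp : p.Prime := Fact.out
  obtain ⟨σ, hu, hord⟩ := tn_exists_fund P
  obtain ⟨Y2, hY2, D, D', hD, hDN, hD', -, hadj⟩ := dsh_main Y hY C
  obtain ⟨η, rfl⟩ := hD y
  have hη : ∀ g, Y2.ρ g η.1 = η.1 := dsh_mem_inv.1 η.2
  have key : ∀ f : Y2.V →+ ℤ, (∀ g y', f (tn_addRho Y2 g y') = f y') →
      ((ordProj[p] (Fintype.card Γ) : ℕ) : ℤ) ∣ f η.1 := by
    intro f hf
    have hfl : ∀ g y, tn_dualOfAddInt Y2 f (Y2.ρ g y) = tn_dualOfAddInt Y2 f y := hf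
    obtain ⟨φ, hφ⟩ := hD' (tn_theta Y2 C σ (tn_dualOfAddInt Y2 f) hfl)
    have h1 := hadj φ η
    rw [hφ, tn_ev_theta_int Y2 σ _ hfl η.1 hη] at h1
    have h2 := h φ
    rw [P.pairing_apply, h1, map_neg, neg_eq_zero] at h2
    have h3 := tn_dvd_of_invTop_smul P σ hord _ h2
    rw [Nat.card_eq_fintype_card] at h3
    exact h3
  obtain ⟨y', hy'⟩ := td_add_right_pPrimary p (tn_addRho Y2) hY2 (y := η.1) hη key
  have h3 : ordCompl[p] (Fintype.card Γ) • D η = 0 := by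
    rw [← map_nsmul]
    have hmem : ∑ g : Γ, Y2.ρ g y' ∈ dsh_inv Y2 := by
      have : ∑ g : Γ, Y2.ρ g y' = ordCompl[p] (Fintype.card Γ) • η.1 := hy'.symm
      rw [this]
      exact (dsh_inv Y2).nsmul_mem η.2 _
    have h4 : ordCompl[p] (Fintype.card Γ) • η = ⟨∑ g : Γ, Y2.ρ g y', hmem⟩ := Subtype.ext hy'
    rw [h4]
    exact hDN y' hmem
  exact tn_eq_zero_of_pPrimary hp hy _ (Nat.not_dvd_ordCompl hp Fintype.card_ne_zero) h3

/-- **Tate–Nakayama, left kernel.**  A morphism `φ : Y ⟶ C` (`Y` a lattice) which pairs to zero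
with every `p`-primary class of `H²(Γ, Y)` is, up to an integer prime to `p`, a norm. -/
theorem tt_TN_left (Y : Rep.{0} ℤ Γ) (hY : tt_IsLattice Y) (φ : Y ⟶ C)
    (h : ∀ y : groupCohomology Y 2, tt_IsPPrimary p y → P.pairing φ y = 0) :
    ∃ n : ℕ, ¬ p ∣ n ∧ ∃ ψ : Y.V →+ C.V,
      ∀ y : Y.V, n • φ.hom y = ∑ g : Γ, C.ρ g (ψ (Y.ρ g⁻¹ y)) := by
  have hp : p.Prime := Fact.out
  obtain ⟨σ, hu, hord⟩ := tn_exists_fund P
  obtain ⟨Y2, hY2, D, D', -, -, -, hD'0, hadj⟩ := dsh_main Y hY C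
  obtain ⟨z, hz, hzc⟩ := te_cl2_surjective _ (D' φ)
  obtain ⟨m, hm, f, hf, γ, hγ⟩ := tm_surj Y2 C σ p
    (te_H2_explicit_prime (tt_hom Y2 (sp_split C σ)) p (fun x =>
      fg_hom_pPrimary_vanish (sp_split C σ) (tn_split_isZero P σ hu hord) Y2 hY2 2 (by norm_num) x))
    (te_H1_explicit _ (tn_isZero_hom_funRep Y2 0)) z hz
  set oc := ordCompl[p] (Fintype.card Γ) with hoc
  have hocp : ¬ p ∣ oc := Nat.not_dvd_ordCompl hp Fintype.card_ne_zero
  -- `m • D' φ = Θ(f)`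
  have h1 : m • D' φ = tn_theta Y2 C σ f hf := by
    rw [← hzc]
    exact tn_smul_cl2_eq_theta Y2 C σ m z hz f hf γ hγ
  -- divisibility on invariants
  have key : ∀ η : Y2.V, (∀ g, tn_addRho Y2 g η = η) →
      ((ordProj[p] (Fintype.card Γ) : ℕ) : ℤ) ∣ f.toAddMonoidHom η := by
    intro η hη
    have hη' : η ∈ dsh_inv Y2 := dsh_mem_inv.2 hη
    have hpp : tt_IsPPrimary p (oc • D ⟨η, hη'⟩) := by
      refine ⟨(Fintype.card Γ).factorization p, ?_⟩
      rw [smul_smul, Nat.ordProj_mul_ordCompl_eq_self, ← Nat.card_eq_fintype_card]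
      exact h2_card_smul_eq_zero Y _
    have h2 := h _ hpp
    rw [map_nsmul, P.pairing_apply, hadj φ ⟨η, hη'⟩, map_neg, smul_neg, neg_eq_zero] at h2
    have h3 : P.invTop ((f η : ℤ) • H2π C σ) =
        m • P.invTop ((tt_coeffMap (tt_ev C η hη) 2).hom (D' φ)) := by
      rw [← tn_ev_theta_int Y2 σ f hf η hη, ← h1, map_nsmul, map_nsmul]
    have h4 : P.invTop (((oc : ℤ) * f η) • H2π C σ) = 0 := by
      rw [mul_smul, map_zsmul, h3, natCast_zsmul, smul_comm, h2, smul_zero]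
    have h5 := tn_dvd_of_invTop_smul P σ hord _ h4
    rw [Nat.card_eq_fintype_card] at h5
    have hcop : IsCoprime ((ordProj[p] (Fintype.card Γ) : ℕ) : ℤ) (oc : ℤ) :=
      Nat.isCoprime_iff_coprime.2
        (Nat.Coprime.pow_left _ (Nat.coprime_ordCompl hp Fintype.card_ne_zero))
    exact hcop.dvd_of_dvd_mul_left h5
  obtain ⟨f'', hf''⟩ := td_add_left_pPrimary p (tn_addRho Y2) hY2 (f := f.toAddMonoidHom) hf key
  -- `oc • Θ(f) = 0`
  have h4 : oc • tn_theta Y2 C σ f hf = 0 :=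
    tn_nsmul_theta_norm Y2 C σ oc f hf (tn_dualOfAddInt Y2 f'') hf''
  have h5 : D' ((oc * m) • φ) = 0 := by
    rw [map_nsmul, mul_smul, h1, h4]
  obtain ⟨ψ, hψ⟩ := hD'0 _ h5
  refine ⟨oc * m, fun hdvd => ?_, ψ, fun y => ?_⟩
  · rcases (Nat.Prime.dvd_mul hp).1 hdvd with h6 | h6
    · exact hocp h6
    · exact hm h6
  · rw [← hψ y, tn_nsmul_hom]

end main

end

end Fermat.Agent.S55
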