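import Fermat.Agent.S55.Tate.ClassModuleRestrict
import Fermat.Agent.S55.Tate.TateNakayama
import Fermat.Agent.S55.Dual.FinDual

/-!
# The abstract reciprocity pairing of a `p`-class module

For a finite group `G`, characters `χ : Additive G →+ ℚ/ℤ` give classes `δχ ∈ H²(G, ℤ)` by an
explicit "carry" cocycle; `χ ↦ δχ` is an isomorphism `Hom(G, ℚ/ℤ) ≅ H²(G, ℤ)` (averaging
argument, no long exact sequence).  For a `p`-class module `P` on `C` and an invariant `c ∈ C^G`
this defines the pairing `⟨c, χ⟩ = inv (c ∪ δχ)`, which vanishes on norms and is non-degenerate on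
`p`-parts (Tate–Nakayama for `Y = ℤ`).
-/

set_option autoImplicit false
set_option linter.unusedSectionVars false

namespace Fermat.Agent.S55

open CategoryTheory groupCohomology

noncomputable section

section chars

variable {G : Type} [Group G]

/-- The trivial module `ℤ`. -/
abbrev rcp_Z (G : Type) [Group G] : Rep.{0} ℤ G := Rep.trivial ℤ G ℤ

/-- `L : G → ℚ` lifts the character `χ`. -/
def rcp_IsLift (χ : Additive G →+ tt_QZ) (L : G → ℚ) : Prop :=
  ∀ g : G, ((L g : ℚ) : tt_QZ) = χ (Additive.ofMul g)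

/-- a chosen lift of a character -/
def rcp_lift (χ : Additive G →+ tt_QZ) : G → ℚ := fun g =>
  Function.surjInv (QuotientAddGroup.mk_surjective (s := AddSubgroup.zmultiples (1 : ℚ)))
    (χ (Additive.ofMul g))

lemma rcp_isLift_lift (χ : Additive G →+ tt_QZ) : rcp_IsLift χ (rcp_lift χ) := fun _ =>
  Function.surjInv_eq (QuotientAddGroup.mk_surjective (s := AddSubgroup.zmultiples (1 : ℚ))) _

/-- The carry cochain of `L : G → ℚ`. -/
def rcp_carry (L : G → ℚ) (q : G × G) : ℤ := ⌊L q.1 + L q.2 - L (q.1 * q.2)⌋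

lemma rcp_carry_cast {χ : Additive G →+ tt_QZ} {L : G → ℚ} (hL : rcp_IsLift χ L) (g h : G) :
    ((rcp_carry L (g, h) : ℤ) : ℚ) = L g + L h - L (g * h) := by
  have h0 : ((L g + L h - L (g * h) : ℚ) : tt_QZ) = 0 := by
    rw [AddCircle.coe_sub, AddCircle.coe_add, hL g, hL h, hL (g * h)]
    have : Additive.ofMul (g * h) = Additive.ofMul g + Additive.ofMul h := rfl
    rw [this, map_add, sub_self]
  obtain ⟨n, hn⟩ := (AddCircle.coe_eq_zero_iff (1 : ℚ)).1 h0
  unfold rcp_carry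
  rw [← hn]
  simp

lemma rcp_carry_isZ2 {χ : Additive G →+ tt_QZ} {L : G → ℚ} (hL : rcp_IsLift χ L) :
    te_IsZ2 (rcp_Z G) (rcp_carry L) := by
  intro g h j
  show rcp_carry L (g * h, j) + rcp_carry L (g, h) = rcp_carry L (h, j) + rcp_carry L (g, h * j)
  have : ((rcp_carry L (g * h, j) + rcp_carry L (g, h) : ℤ) : ℚ) =
      ((rcp_carry L (h, j) + rcp_carry L (g, h * j) : ℤ) : ℚ) := by
    push_cast
    rw [rcp_carry_cast hL, rcp_carry_cast hL, rcp_carry_cast hL, rcp_carry_cast hL, mul_assoc]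
    ring
  exact_mod_cast this

/-- The class `δχ ∈ H²(G, ℤ)` of a character, computed with the lift `L`. -/
def rcp_deltaL (χ : Additive G →+ tt_QZ) (L : G → ℚ) (hL : rcp_IsLift χ L) :
    groupCohomology (rcp_Z G) 2 :=
  te_cl2 (rcp_Z G) (rcp_carry L) (rcp_carry_isZ2 hL)

/-- The class `δχ ∈ H²(G, ℤ)` of a character. -/
def rcp_delta (χ : Additive G →+ tt_QZ) : groupCohomology (rcp_Z G) 2 :=
  rcp_deltaL χ (rcp_lift χ) (rcp_isLift_lift χ)

/-- two lifts of the same character differ by an integral cochain -/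
lemma rcp_lift_sub {χ : Additive G →+ tt_QZ} {L L' : G → ℚ} (hL : rcp_IsLift χ L)
    (hL' : rcp_IsLift χ L') : ∃ b : G → ℤ, ∀ g, ((b g : ℤ) : ℚ) = L g - L' g := by
  have h0 : ∀ g, ((L g - L' g : ℚ) : tt_QZ) = 0 := fun g => by
    rw [AddCircle.coe_sub, hL g, hL' g, sub_self]
  choose b hb using fun g => (AddCircle.coe_eq_zero_iff (1 : ℚ)).1 (h0 g)
  exact ⟨b, fun g => by rw [← hb g]; simp⟩

/-- `δχ` does not depend on the lift. -/
theorem rcp_deltaL_eq (χ : Additive G →+ tt_QZ) (L L' : G → ℚ) (hL : rcp_IsLift χ L)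
    (hL' : rcp_IsLift χ L') : rcp_deltaL χ L hL = rcp_deltaL χ L' hL' := by
  obtain ⟨b, hb⟩ := rcp_lift_sub hL hL'
  refine tn_cl2_eq_of_eq_add_d1 _ _ _ b ?_
  funext ⟨g, h⟩
  show rcp_carry L (g, h) = rcp_carry L' (g, h) + (b h - b (g * h) + b g)
  have : ((rcp_carry L (g, h) : ℤ) : ℚ) =
      ((rcp_carry L' (g, h) + (b h - b (g * h) + b g) : ℤ) : ℚ) := by
    push_cast
    rw [rcp_carry_cast hL, rcp_carry_cast hL', hb, hb, hb]
    ring
  exact_mod_cast this

theorem rcp_delta_eq (χ : Additive G →+ tt_QZ) (L : G → ℚ) (hL : rcp_IsLift χ L) :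
    rcp_delta χ = rcp_deltaL χ L hL :=
  rcp_deltaL_eq χ _ _ _ _

lemma rcp_isLift_add {χ χ' : Additive G →+ tt_QZ} {L L' : G → ℚ} (hL : rcp_IsLift χ L)
    (hL' : rcp_IsLift χ' L') : rcp_IsLift (χ + χ') (L + L') := fun g => by
  show (((L g + L' g : ℚ)) : tt_QZ) = χ _ + χ' _
  rw [AddCircle.coe_add, hL g, hL' g]

theorem rcp_delta_add (χ χ' : Additive G →+ tt_QZ) :
    rcp_delta (χ + χ') = rcp_delta χ + rcp_delta χ' := by
  have hL := rcp_isLift_lift χ
  have hL' := rcp_isLift_lift χ'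
  rw [rcp_delta_eq (χ + χ') _ (rcp_isLift_add hL hL'), rcp_delta, rcp_delta]
  unfold rcp_deltaL te_cl2
  rw [← map_add]
  congr 1
  apply Subtype.ext
  funext ⟨g, h⟩
  show rcp_carry (rcp_lift χ + rcp_lift χ') (g, h) =
    rcp_carry (rcp_lift χ) (g, h) + rcp_carry (rcp_lift χ') (g, h)
  have : ((rcp_carry (rcp_lift χ + rcp_lift χ') (g, h) : ℤ) : ℚ) =
      ((rcp_carry (rcp_lift χ) (g, h) + rcp_carry (rcp_lift χ') (g, h) : ℤ) : ℚ) := by
    push_cast
    rw [rcp_carry_cast (rcp_isLift_add hL hL'), rcp_carry_cast hL, rcp_carry_cast hL']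
    simp only [Pi.add_apply]
    ring
  exact_mod_cast this

/-- `δ` as an additive map. -/
def rcp_deltaHom : (Additive G →+ tt_QZ) →+ groupCohomology (rcp_Z G) 2 where
  toFun := rcp_delta
  map_zero' := by
    have h := rcp_delta_add (0 : Additive G →+ tt_QZ) 0
    rw [add_zero] at h
    exact (add_eq_left.1 h.symm)
  map_add' := rcp_delta_add

@[simp] lemma rcp_deltaHom_apply (χ : Additive G →+ tt_QZ) : rcp_deltaHom χ = rcp_delta χ := rfl

section finite

variable [Fintype G]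

/-- a homomorphism from a finite group to `ℚ` is trivial -/
lemma rcp_hom_rat_eq_zero (f : G → ℚ) (hf : ∀ g h, f (g * h) = f g + f h) (g : G) : f g = 0 := by
  have h1 : f 1 = 0 := by
    have := hf 1 1
    rw [mul_one] at this
    linarith
  have hpow : ∀ n : ℕ, f (g ^ n) = n * f g := by
    intro n
    induction n with
    | zero => rw [pow_zero, h1]; simp
    | succ n ih => rw [pow_succ, hf, ih]; push_cast; ring
  have h2 := hpow (Fintype.card G)
  rw [pow_card_eq_one, h1] at h2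
  have h3 : (Fintype.card G : ℚ) ≠ 0 := by exact_mod_cast Fintype.card_ne_zero
  rcases mul_eq_zero.1 h2.symm with h | h
  · exact absurd h h3
  · exact h

/-- `δ` is injective. -/
theorem rcp_delta_eq_zero (χ : Additive G →+ tt_QZ) (h : rcp_delta χ = 0) : χ = 0 := by
  have hL := rcp_isLift_lift χ
  unfold rcp_delta rcp_deltaL at h
  rw [te_cl2_eq_zero_iff] at h
  obtain ⟨b, hb⟩ := h
  have hb' : ∀ g h : G, rcp_carry (rcp_lift χ) (g, h) = b h - b (g * h) + b g := fun g h =>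
    congrFun hb (g, h)
  have hhom : ∀ g h : G, (rcp_lift χ (g * h) - (b (g * h) : ℚ)) =
      (rcp_lift χ g - (b g : ℚ)) + (rcp_lift χ h - (b h : ℚ)) := by
    intro g h
    have h1 := rcp_carry_cast hL g h
    rw [hb' g h] at h1
    push_cast at h1
    linarith
  have hz := rcp_hom_rat_eq_zero (fun g => rcp_lift χ g - (b g : ℚ)) hhom
  refine AddMonoidHom.ext fun a => ?_
  have ha : a = Additive.ofMul (Additive.toMul a) := rfl
  rw [ha, ← hL (Additive.toMul a)]
  have h2 : rcp_lift χ (Additive.toMul a) = (b (Additive.toMul a) : ℚ) := by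
    have h3 : rcp_lift χ (Additive.toMul a) - (b (Additive.toMul a) : ℚ) = 0 :=
      hz (Additive.toMul a)
    linarith
  rw [h2]
  show ((b (Additive.toMul a) : ℚ) : tt_QZ) = 0
  rw [AddCircle.coe_eq_zero_iff]
  exact ⟨b (Additive.toMul a), by simp⟩

theorem rcp_delta_injective : Function.Injective (rcp_delta (G := G)) := by
  intro χ χ' h
  have h1 : rcp_deltaHom (χ - χ') = 0 := by
    rw [map_sub, rcp_deltaHom_apply, rcp_deltaHom_apply, h, sub_self]
  exact sub_eq_zero.1 (rcp_delta_eq_zero _ h1)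

/-- `δ` is surjective: `H²(G, ℤ) ≅ Hom(G, ℚ/ℤ)`. -/
theorem rcp_delta_surjective (y : groupCohomology (rcp_Z G) 2) : ∃ χ, rcp_delta χ = y := by
  obtain ⟨a, ha, rfl⟩ := te_cl2_surjective (rcp_Z G) y
  have ha' : ∀ g h j : G, a (g * h, j) + a (g, h) = a (h, j) + a (g, h * j) := ha
  let A : G → ℤ := fun g => ∑ k : G, a (g, k)
  have hA : ∀ g h : G, (Fintype.card G : ℤ) * a (g, h) = A g + A h - A (g * h) := by
    intro g h
    have h1 : ∑ k : G, (a (g * h, k) + a (g, h)) = ∑ k : G, (a (h, k) + a (g, h * k)) :=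
      Finset.sum_congr rfl fun k _ => ha' g h k
    rw [Finset.sum_add_distrib, Finset.sum_add_distrib, Finset.sum_const, Finset.card_univ,
      nsmul_eq_mul] at h1
    have h2 : ∑ k : G, a (g, h * k) = ∑ k : G, a (g, k) :=
      Fintype.sum_equiv (Equiv.mulLeft h) _ _ fun k => rfl
    rw [h2] at h1
    show _ = (∑ k : G, a (g, k)) + (∑ k : G, a (h, k)) - ∑ k : G, a (g * h, k)
    linarith
  let β : G → ℚ := fun g => (A g : ℚ) / Fintype.card G
  have hcard : (Fintype.card G : ℚ) ≠ 0 := by exact_mod_cast Fintype.card_ne_zero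
  have hβ : ∀ g h : G, ((a (g, h) : ℤ) : ℚ) = β g + β h - β (g * h) := by
    intro g h
    have h1 : ((Fintype.card G : ℤ) : ℚ) * a (g, h) = A g + A h - A (g * h) := by
      exact_mod_cast hA g h
    show _ = (A g : ℚ) / _ + (A h : ℚ) / _ - (A (g * h) : ℚ) / _
    field_simp
    push_cast at h1
    linarith
  let χ : Additive G →+ tt_QZ :=
    { toFun := fun x => ((β (Additive.toMul x) : ℚ) : tt_QZ)
      map_zero' := by
        show ((β 1 : ℚ) : tt_QZ) = 0
        have h1 := hβ 1 1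
        rw [mul_one] at h1
        have h2 : β 1 = ((a (1, 1) : ℤ) : ℚ) := by linarith
        rw [h2, AddCircle.coe_eq_zero_iff]
        exact ⟨a (1, 1), by simp⟩
      map_add' := fun x y => by
        show ((β (Additive.toMul x * Additive.toMul y) : ℚ) : tt_QZ) =
          ((β (Additive.toMul x) : ℚ) : tt_QZ) + ((β (Additive.toMul y) : ℚ) : tt_QZ)
        have h1 := hβ (Additive.toMul x) (Additive.toMul y)
        have h2 : β (Additive.toMul x * Additive.toMul y) =
            β (Additive.toMul x) + β (Additive.toMul y) -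
              ((a (Additive.toMul x, Additive.toMul y) : ℤ) : ℚ) := by linarith
        rw [h2, AddCircle.coe_sub, AddCircle.coe_add]
        have h3 : (((a (Additive.toMul x, Additive.toMul y) : ℤ) : ℚ) : tt_QZ) = 0 := by
          rw [AddCircle.coe_eq_zero_iff]
          exact ⟨a (Additive.toMul x, Additive.toMul y), by simp⟩
        rw [h3, sub_zero] }
  have hχ : rcp_IsLift χ β := fun g => rfl
  refine ⟨χ, ?_⟩
  rw [rcp_delta_eq χ β hχ]
  unfold rcp_deltaL
  congr 1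
  funext ⟨g, h⟩
  have : ((rcp_carry β (g, h) : ℤ) : ℚ) = ((a (g, h) : ℤ) : ℚ) := by
    rw [rcp_carry_cast hχ, hβ]
  exact_mod_cast this

end finite

end chars

/-! ### The pairing -/

section pairing

variable {G : Type} [Group G]

/-- the invariants `C^G` -/
def rcp_inv (C : Rep.{0} ℤ G) : AddSubgroup C.V where
  carrier := {c | ∀ g, C.ρ g c = c}
  zero_mem' := fun g => map_zero _
  add_mem' := fun {a b} ha hb g => by
    have ha' : C.ρ g a = a := ha g
    have hb' : C.ρ g b = b := hb g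
    rw [map_add, ha', hb']
  neg_mem' := fun {a} ha g => by
    have ha' : C.ρ g a = a := ha g
    rw [map_neg, ha']

lemma rcp_mem_inv {C : Rep.{0} ℤ G} {c : C.V} : c ∈ rcp_inv C ↔ ∀ g, C.ρ g c = c := Iff.rfl

/-- the morphism `ℤ ⟶ C`, `n ↦ n • c`, attached to an invariant element `c` -/
def rcp_ev (C : Rep.{0} ℤ G) (c : C.V) (hc : ∀ g, C.ρ g c = c) : rcp_Z G ⟶ C :=
  tt_homOfAdd (A := rcp_Z G) (B := C) (zmultiplesHom C.V c) (fun g n => by
    have h1 : (rcp_Z G).ρ g n = n := rfl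
    rw [h1]
    show n • c = C.ρ g (n • c)
    rw [map_zsmul, hc])

lemma rcp_ev_apply (C : Rep.{0} ℤ G) (c : C.V) (hc : ∀ g, C.ρ g c = c) (n : ℤ) :
    (rcp_ev C c hc).hom n = n • c := rfl

/-- every morphism `ℤ ⟶ C` is `rcp_ev` of an invariant element -/
lemma rcp_hom_one_inv {C : Rep.{0} ℤ G} (φ : rcp_Z G ⟶ C) (g : G) :
    C.ρ g (φ.hom (1 : ℤ)) = φ.hom (1 : ℤ) := by
  have h := Rep.hom_comm_apply φ g (1 : ℤ)
  have h1 : (rcp_Z G).ρ g (1 : ℤ) = 1 := rfl
  rw [h1] at h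
  exact h.symm

lemma rcp_hom_eq_ev {C : Rep.{0} ℤ G} (φ : rcp_Z G ⟶ C) :
    φ = rcp_ev C (φ.hom (1 : ℤ)) (rcp_hom_one_inv φ) := by
  ext
  refine DFunLike.ext _ _ fun n => ?_
  show φ.hom n = n • φ.hom (1 : ℤ)
  have h := map_zsmul φ.hom n (1 : ℤ)
  rw [← h]
  congr 1
  simp

/-- the class `c ∪ δχ ∈ H²(G, C)` -/
def rcp_class (C : Rep.{0} ℤ G) (c : C.V) (hc : ∀ g, C.ρ g c = c) (χ : Additive G →+ tt_QZ) :
    groupCohomology C 2 :=
  (tt_coeffMap (rcp_ev C c hc) 2).hom (rcp_delta χ)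

lemma rcp_isZ2_smul (C : Rep.{0} ℤ G) (c : C.V) (hc : ∀ g, C.ρ g c = c)
    {χ : Additive G →+ tt_QZ} {L : G → ℚ} (hL : rcp_IsLift χ L) :
    te_IsZ2 C (fun q => rcp_carry L q • c) := by
  intro g h j
  show rcp_carry L (g * h, j) • c + rcp_carry L (g, h) • c =
    C.ρ g (rcp_carry L (h, j) • c) + rcp_carry L (g, h * j) • c
  rw [map_zsmul, hc, ← add_smul, ← add_smul]
  congr 1
  exact rcp_carry_isZ2 hL g h j

/-- explicit cocycle of `c ∪ δχ` -/
theorem rcp_class_eq (C : Rep.{0} ℤ G) (c : C.V) (hc : ∀ g, C.ρ g c = c)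
    {χ : Additive G →+ tt_QZ} {L : G → ℚ} (hL : rcp_IsLift χ L) :
    rcp_class C c hc χ = te_cl2 C (fun q => rcp_carry L q • c) (rcp_isZ2_smul C c hc hL) := by
  unfold rcp_class
  rw [rcp_delta_eq χ L hL]
  unfold rcp_deltaL
  have h := te_map_cl2 (MonoidHom.id G) (A := rcp_Z G) (B := C) (rcp_ev C c hc)
    (rcp_carry_isZ2 hL)
  refine h.trans ?_
  congr 1

theorem rcp_class_add_right (C : Rep.{0} ℤ G) (c : C.V) (hc : ∀ g, C.ρ g c = c)
    (χ χ' : Additive G →+ tt_QZ) :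
    rcp_class C c hc (χ + χ') = rcp_class C c hc χ + rcp_class C c hc χ' := by
  unfold rcp_class
  rw [rcp_delta_add, map_add]

theorem rcp_class_add_left (C : Rep.{0} ℤ G) (c c' : C.V) (hc : ∀ g, C.ρ g c = c)
    (hc' : ∀ g, C.ρ g c' = c') (hcc : ∀ g, C.ρ g (c + c') = c + c')
    (χ : Additive G →+ tt_QZ) :
    rcp_class C (c + c') hcc χ = rcp_class C c hc χ + rcp_class C c' hc' χ := by
  have hL := rcp_isLift_lift χ
  rw [rcp_class_eq C (c + c') hcc hL, rcp_class_eq C c hc hL, rcp_class_eq C c' hc' hL]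
  unfold te_cl2
  rw [← map_add]
  congr 1
  apply Subtype.ext
  funext q
  show rcp_carry (rcp_lift χ) q • (c + c') = rcp_carry (rcp_lift χ) q • c +
    rcp_carry (rcp_lift χ) q • c'
  rw [smul_add]

end pairing

/-! ### Functoriality -/

section functoriality

variable {G H : Type} [Group G] [Group H]

/-- the identity of `ℤ` as a morphism `res f ℤ ⟶ ℤ` -/
def rcp_pull (f : H →* G) : Rep.res f (rcp_Z G) ⟶ rcp_Z H :=
  tt_homOfAdd (A := Rep.res f (rcp_Z G)) (B := rcp_Z H) (AddMonoidHom.id ℤ) (fun _ _ => rfl)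

lemma rcp_pull_apply (f : H →* G) (n : ℤ) : (rcp_pull f).hom n = n := rfl

lemma rcp_isLift_comp (f : H →* G) {χ : Additive G →+ tt_QZ} {L : G → ℚ}
    (hL : rcp_IsLift χ L) : rcp_IsLift (χ.comp (MonoidHom.toAdditive f)) (fun h => L (f h)) :=
  fun h => hL (f h)

lemma rcp_carry_comp (f : H →* G) (L : G → ℚ) (q : H × H) :
    rcp_carry (fun h => L (f h)) q = rcp_carry L (f q.1, f q.2) := by
  show ⌊L (f q.1) + L (f q.2) - L (f (q.1 * q.2))⌋ = ⌊L (f q.1) + L (f q.2) - L (f q.1 * f q.2)⌋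
  rw [map_mul]

/-- `δ` is compatible with pull-back of characters along any group homomorphism (restriction
and inflation). -/
theorem rcp_delta_map (f : H →* G) (χ : Additive G →+ tt_QZ) :
    (groupCohomology.map f (rcp_pull f) 2).hom (rcp_delta χ) =
      rcp_delta (χ.comp (MonoidHom.toAdditive f)) := by
  have hL := rcp_isLift_lift χ
  rw [rcp_delta_eq _ _ (rcp_isLift_comp f hL), rcp_delta]
  unfold rcp_deltaL
  have h := te_map_cl2 f (A := rcp_Z G) (B := rcp_Z H) (rcp_pull f) (rcp_carry_isZ2 hL)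
  refine h.trans ?_
  congr 1
  funext q
  exact (rcp_carry_comp f (rcp_lift χ) q).symm

/-- `c ∪ δχ` is compatible with morphisms of pairs. -/
theorem rcp_class_map (f : H →* G) {C : Rep.{0} ℤ G} {C' : Rep.{0} ℤ H} (φ : Rep.res f C ⟶ C')
    (c : C.V) (hc : ∀ g, C.ρ g c = c) (hc' : ∀ h, C'.ρ h (φ.hom c) = φ.hom c)
    (χ : Additive G →+ tt_QZ) :
    (groupCohomology.map f φ 2).hom (rcp_class C c hc χ) =
      rcp_class C' (φ.hom c) hc' (χ.comp (MonoidHom.toAdditive f)) := by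
  have hL := rcp_isLift_lift χ
  rw [rcp_class_eq C c hc hL, rcp_class_eq C' (φ.hom c) hc' (rcp_isLift_comp f hL)]
  have h := te_map_cl2 f (A := C) (B := C') φ (rcp_isZ2_smul C c hc hL)
  refine h.trans ?_
  congr 1
  funext q
  show φ.hom (rcp_carry (rcp_lift χ) (f q.1, f q.2) • c) = _
  rw [rcp_carry_comp]
  exact map_zsmul φ.hom _ c

/-- for an invariant of the source, the image is invariant when `f` is surjective; in general
the hypothesis `hc'` of `rcp_class_map` is automatic for restriction to subgroups: -/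
lemma rcp_inv_res (J : Subgroup G) {C : Rep.{0} ℤ G} {c : C.V} (hc : ∀ g, C.ρ g c = c)
    (j : ↥J) : (tt_res J C).ρ j c = c := hc (j : G)

/-- restriction of `c ∪ δχ` to a subgroup -/
theorem rcp_class_res (J : Subgroup G) {C : Rep.{0} ℤ G} (c : C.V) (hc : ∀ g, C.ρ g c = c)
    (χ : Additive G →+ tt_QZ) :
    (tt_resMap J C 2).hom (rcp_class C c hc χ) =
      rcp_class (tt_res J C) c (rcp_inv_res J hc) (χ.comp (MonoidHom.toAdditive J.subtype)) :=
  rcp_class_map J.subtype (𝟙 (tt_res J C)) c hc (rcp_inv_res J hc) χ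

/-- The restriction of `δχ` to a finite subgroup `J` vanishes iff `χ` is trivial on `J`. -/
theorem rcp_resMap_delta_eq_zero_iff (J : Subgroup G) [Fintype ↥J] (χ : Additive G →+ tt_QZ) :
    (tt_resMap J (rcp_Z G) 2).hom (rcp_delta χ) = 0 ↔ ∀ j ∈ J, χ (Additive.ofMul j) = 0 := by
  have hL := rcp_isLift_lift χ
  have h := te_map_cl2 J.subtype (A := rcp_Z G) (B := tt_res J (rcp_Z G))
    (𝟙 (tt_res J (rcp_Z G))) (rcp_carry_isZ2 hL)
  have h' : (tt_resMap J (rcp_Z G) 2).hom (rcp_delta χ) = _ := h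
  rw [h', te_cl2_eq_zero_iff]
  constructor
  · rintro ⟨b, hb⟩ j hj
    have hb' : ∀ g h : ↥J, rcp_carry (rcp_lift χ) ((g : G), (h : G)) =
        b h - b (g * h) + b g := fun g h => congrFun hb (g, h)
    have hhom : ∀ g h : ↥J, (rcp_lift χ ((g * h : ↥J) : G) - (b (g * h) : ℚ)) =
        (rcp_lift χ (g : G) - (b g : ℚ)) + (rcp_lift χ (h : G) - (b h : ℚ)) := by
      intro g h
      have h1 := rcp_carry_cast hL (g : G) (h : G)
      rw [hb' g h] at h1
      push_cast at h1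
      rw [Subgroup.coe_mul]
      linarith
    have hz := rcp_hom_rat_eq_zero (fun g : ↥J => rcp_lift χ (g : G) - (b g : ℚ)) hhom ⟨j, hj⟩
    have h2 : rcp_lift χ j = (b ⟨j, hj⟩ : ℚ) := by
      have h3 : rcp_lift χ j - (b ⟨j, hj⟩ : ℚ) = 0 := hz
      linarith
    rw [← hL j, h2, AddCircle.coe_eq_zero_iff]
    exact ⟨b ⟨j, hj⟩, by simp⟩
  · intro hJ
    have h0 : ∀ j : ↥J, ((rcp_lift χ (j : G) : ℚ) : tt_QZ) = 0 := fun j => by
      rw [hL (j : G)]; exact hJ j j.2
    choose b hb using fun j => (AddCircle.coe_eq_zero_iff (1 : ℚ)).1 (h0 j)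
    have hb' : ∀ j : ↥J, ((b j : ℤ) : ℚ) = rcp_lift χ (j : G) := fun j => by
      rw [← hb j]; simp
    refine ⟨b, ?_⟩
    funext ⟨g, h⟩
    show rcp_carry (rcp_lift χ) ((g : G), (h : G)) = b h - b (g * h) + b g
    have : ((rcp_carry (rcp_lift χ) ((g : G), (h : G)) : ℤ) : ℚ) =
        ((b h - b (g * h) + b g : ℤ) : ℚ) := by
      push_cast
      rw [rcp_carry_cast hL, hb', hb', hb', Subgroup.coe_mul]
      ring
    exact_mod_cast this

end functoriality

/-! ### The pairing of a `p`-class module: kernels -/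

section main

variable {Γ : Type} [Group Γ] {p : ℕ} {C : Rep.{0} ℤ Γ}

/-- the reciprocity pairing `C^Γ × Hom(Γ, ℚ/ℤ) → ℚ/ℤ`, `(c, χ) ↦ inv (c ∪ δχ)` -/
def rcp_pair (P : PClassModule p C) : ↥(rcp_inv C) →+ (Additive Γ →+ tt_QZ) →+ tt_QZ :=
  AddMonoidHom.mk' (fun c => AddMonoidHom.mk' (fun χ => P.invTop (rcp_class C c.1 c.2 χ))
    (fun χ χ' => by rw [rcp_class_add_right, map_add]))
    (fun c c' => by
      refine AddMonoidHom.ext fun χ => ?_
      show P.invTop (rcp_class C (c.1 + c'.1) (c + c').2 χ) =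
        P.invTop (rcp_class C c.1 c.2 χ) + P.invTop (rcp_class C c'.1 c'.2 χ)
      rw [rcp_class_add_left C c.1 c'.1 c.2 c'.2, map_add])

lemma rcp_pair_apply (P : PClassModule p C) (c : ↥(rcp_inv C)) (χ : Additive Γ →+ tt_QZ) :
    rcp_pair P c χ = P.invTop (rcp_class C c.1 c.2 χ) := rfl

lemma rcp_pair_eq_pairing (P : PClassModule p C) (c : ↥(rcp_inv C)) (χ : Additive Γ →+ tt_QZ) :
    rcp_pair P c χ = P.pairing (rcp_ev C c.1 c.2) (rcp_delta χ) := rfl

variable [Fintype Γ]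

/-- the norm `a ↦ ∑ g, g a` -/
def rcp_norm (C : Rep.{0} ℤ Γ) : C.V →+ C.V where
  toFun a := ∑ g : Γ, C.ρ g a
  map_zero' := by simp
  map_add' a b := by simp [Finset.sum_add_distrib]

lemma rcp_norm_apply (C : Rep.{0} ℤ Γ) (a : C.V) : rcp_norm C a = ∑ g : Γ, C.ρ g a := rfl

lemma rcp_norm_mem_inv (C : Rep.{0} ℤ Γ) (a : C.V) : rcp_norm C a ∈ rcp_inv C := by
  intro h
  rw [rcp_norm_apply, map_sum]
  exact Fintype.sum_equiv (Equiv.mulLeft h) _ _ (fun g => by
    rw [Equiv.coe_mulLeft, map_mul]; rfl)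

/-- the group of norms `N_Γ C` -/
def rcp_norms (C : Rep.{0} ℤ Γ) : AddSubgroup C.V := (rcp_norm C).range

lemma rcp_norms_le_inv (C : Rep.{0} ℤ Γ) : rcp_norms C ≤ rcp_inv C := by
  rintro _ ⟨a, rfl⟩
  exact rcp_norm_mem_inv C a

lemma rcp_norm_of_mem_inv {c : C.V} (hc : c ∈ rcp_inv C) :
    rcp_norm C c = Fintype.card Γ • c := by
  rw [rcp_norm_apply, Finset.sum_congr rfl (fun g _ => hc g), Finset.sum_const, Finset.card_univ]

lemma rcp_card_smul_mem_norms {c : C.V} (hc : c ∈ rcp_inv C) :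
    Fintype.card Γ • c ∈ rcp_norms C := ⟨c, rcp_norm_of_mem_inv hc⟩

/-- `c ∪ δχ = 0` for a norm `c`. -/
theorem rcp_class_norm (C : Rep.{0} ℤ Γ) (a : C.V) (χ : Additive Γ →+ tt_QZ) :
    rcp_class C (rcp_norm C a) (rcp_norm_mem_inv C a) χ = 0 := by
  unfold rcp_class
  have h := fh_coeffMap_eq_zero_of_norm (rcp_Z Γ) C (rcp_ev C (rcp_norm C a) (rcp_norm_mem_inv C a))
    (zmultiplesHom C.V a) (fun n => by
      rw [rcp_ev_apply, rcp_norm_apply, Finset.smul_sum]
      refine Finset.sum_congr rfl fun g _ => ?_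
      show n • C.ρ g a = C.ρ g (n • a)
      rw [map_zsmul])
  rw [h]
  rfl

theorem rcp_pair_norm (P : PClassModule p C) (c : ↥(rcp_inv C)) (hc : (c : C.V) ∈ rcp_norms C)
    (χ : Additive Γ →+ tt_QZ) : rcp_pair P c χ = 0 := by
  obtain ⟨a, ha⟩ := hc
  have h : c = ⟨rcp_norm C a, rcp_norm_mem_inv C a⟩ := Subtype.ext ha.symm
  rw [h, rcp_pair_apply, rcp_class_norm, map_zero]

lemma rcp_isLattice_Z : tt_IsLattice (rcp_Z Γ) :=
  ⟨1, ⟨(AddEquiv.funUnique (Fin 1) ℤ).symm⟩⟩

lemma rcp_pPrimary_delta_iff (χ : Additive Γ →+ tt_QZ) :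
    tt_IsPPrimary p (rcp_delta χ) ↔ tt_IsPPrimary p χ := by
  constructor
  · rintro ⟨k, hk⟩
    refine ⟨k, rcp_delta_eq_zero _ ?_⟩
    rw [← rcp_deltaHom_apply, map_nsmul]
    exact hk
  · intro h
    exact tt_isPPrimary_map rcp_deltaHom h

variable [Fact p.Prime]

/-- **Left kernel**: an invariant element orthogonal to all `p`-primary characters is a norm up
to a prime-to-`p` multiple. -/
theorem rcp_left (P : PClassModule p C) (c : ↥(rcp_inv C))
    (h : ∀ χ : Additive Γ →+ tt_QZ, tt_IsPPrimary p χ → rcp_pair P c χ = 0) :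
    (c : C.V) ∈ fd_pSat p (rcp_norms C) := by
  obtain ⟨n, hn, ψ, hψ⟩ := tt_TN_left P (rcp_Z Γ) rcp_isLattice_Z (rcp_ev C c.1 c.2)
    (fun y hy => by
      obtain ⟨χ, rfl⟩ := rcp_delta_surjective y
      exact h χ ((rcp_pPrimary_delta_iff χ).1 hy))
  refine ⟨n, hn, ψ (1 : ℤ), ?_⟩
  have h1 := hψ (1 : ℤ)
  rw [rcp_ev_apply, one_smul] at h1
  rw [h1]
  rfl

/-- converse of `rcp_left` -/
theorem rcp_pair_of_mem_pSat (P : PClassModule p C) (c : ↥(rcp_inv C))
    (hc : (c : C.V) ∈ fd_pSat p (rcp_norms C)) (χ : Additive Γ →+ tt_QZ)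
    (hχ : tt_IsPPrimary p χ) : rcp_pair P c χ = 0 := by
  obtain ⟨n, hn, hnc⟩ := hc
  obtain ⟨k, hk⟩ := hχ
  refine fd_eq_zero_of_coprime p (k := k) (n := n) ?_ hn ?_
  · rw [← map_nsmul, hk, map_zero]
  · have h1 : rcp_pair P (n • c) χ = 0 := rcp_pair_norm P (n • c) hnc χ
    rw [map_nsmul] at h1
    exact h1

theorem rcp_left_iff (P : PClassModule p C) (c : ↥(rcp_inv C)) :
    (∀ χ : Additive Γ →+ tt_QZ, tt_IsPPrimary p χ → rcp_pair P c χ = 0) ↔
      (c : C.V) ∈ fd_pSat p (rcp_norms C) :=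
  ⟨rcp_left P c, fun hc χ hχ => rcp_pair_of_mem_pSat P c hc χ hχ⟩

/-- **Right kernel**: a `p`-primary character orthogonal to all invariant elements is trivial. -/
theorem rcp_right (P : PClassModule p C) (χ : Additive Γ →+ tt_QZ) (hχ : tt_IsPPrimary p χ)
    (h : ∀ c : ↥(rcp_inv C), rcp_pair P c χ = 0) : χ = 0 := by
  apply rcp_delta_eq_zero
  refine tt_TN_right P (rcp_Z Γ) rcp_isLattice_Z (rcp_delta χ) ((rcp_pPrimary_delta_iff χ).2 hχ)
    (fun φ => ?_)
  rw [rcp_hom_eq_ev φ]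
  exact h ⟨φ.hom (1 : ℤ), rcp_hom_one_inv φ⟩

end main

/-! ### Counting -/

section counting

universe u v

/-- A pairing `A × X → ℚ/ℤ` with `X` finite, left kernel `K` and trivial right kernel
identifies `A ⧸ K` with the dual of `X`. -/
theorem rcp_card_of_pairing {A : Type u} {X : Type v} [AddCommGroup A] [AddCommGroup X]
    [Finite X] (B : A →+ CharacterModule X) (K : AddSubgroup A)
    (hK : ∀ a, a ∈ K ↔ ∀ x, B a x = 0) (hR : ∀ x, (∀ a, B a x = 0) → x = 0) :
    Finite (A ⧸ K) ∧ Nat.card (A ⧸ K) = Nat.card X := by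
  have hle : K ≤ B.ker := fun a ha => by
    rw [AddMonoidHom.mem_ker]
    exact DFunLike.ext _ _ fun x => (hK a).1 ha x
  let Bq : A ⧸ K →+ CharacterModule X := QuotientAddGroup.lift K B hle
  have hBq : ∀ a, Bq (QuotientAddGroup.mk a) = B a := fun a => rfl
  have hinj : Function.Injective Bq := by
    rw [injective_iff_map_eq_zero]
    intro q hq
    induction q using QuotientAddGroup.induction_on with
    | H a =>
      rw [QuotientAddGroup.eq_zero_iff, hK]
      intro x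
      rw [hBq] at hq
      rw [hq]
      rfl
  have hsurj : Function.Surjective Bq :=
    fd_surjective_of_separating Bq (fun x hx => hR x (fun a => hx (QuotientAddGroup.mk a)))
  have hfin : Finite (A ⧸ K) := Finite.of_injective Bq hinj
  refine ⟨hfin, ?_⟩
  rw [Nat.card_congr (Equiv.ofBijective Bq ⟨hinj, hsurj⟩), fd_card]

/-- characters of `Γ` are characters of `Γ^ab` -/
def rcp_charEquiv (Γ : Type) [Group Γ] :
    (Additive Γ →+ tt_QZ) ≃ CharacterModule (Additive (Abelianization Γ)) :=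
  (AddMonoidHom.toMultiplicativeRight (α := Γ) (β := tt_QZ)).trans
    ((Abelianization.lift (G := Γ) (A := Multiplicative tt_QZ)).trans
      (AddMonoidHom.toMultiplicativeRight (α := Abelianization Γ) (β := tt_QZ)).symm)

instance rcp_finite_chars (Γ : Type) [Group Γ] [Finite Γ] : Finite (Additive Γ →+ tt_QZ) :=
  Finite.of_equiv _ (rcp_charEquiv Γ).symm

theorem rcp_card_chars (Γ : Type) [Group Γ] [Finite Γ] :
    Nat.card (Additive Γ →+ tt_QZ) = Nat.card (Abelianization Γ) := by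
  rw [Nat.card_congr (rcp_charEquiv Γ), fd_card]
  exact Nat.card_congr Additive.toMul

/-- a character kills `g ^ e` if `g ^ e` is a commutator product -/
lemma rcp_char_pow_commutator {Γ : Type} [Group Γ] (χ : Additive Γ →+ tt_QZ) {x : Γ}
    (hx : x ∈ commutator Γ) : χ (Additive.ofMul x) = 0 := by
  have h := Abelianization.commutator_subset_ker (AddMonoidHom.toMultiplicativeRight χ) hx
  rw [MonoidHom.mem_ker] at h
  exact h

lemma rcp_nsmul_char_eq_zero {Γ : Type} [Group Γ] (e : ℕ) (he : ∀ g : Γ, g ^ e ∈ commutator Γ)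
    (χ : Additive Γ →+ tt_QZ) : e • χ = 0 := by
  refine AddMonoidHom.ext fun a => ?_
  show e • χ a = 0
  rw [← map_nsmul]
  exact rcp_char_pow_commutator χ (he (Additive.toMul a))

variable {Γ : Type} [Group Γ] [Fintype Γ] {p : ℕ} [Fact p.Prime] {C : Rep.{0} ℤ Γ}

/-- the pairing restricted to `p`-primary characters, as a map into the character module -/
def rcp_pairP (P : PClassModule p C) :
    ↥(rcp_inv C) →+ CharacterModule ↥(fd_pPrimary p (Additive Γ →+ tt_QZ)) :=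
  AddMonoidHom.mk' (fun c => (rcp_pair P c).comp (fd_pPrimary p (Additive Γ →+ tt_QZ)).subtype)
    (fun c c' => by rw [map_add]; rfl)

lemma rcp_pairP_apply (P : PClassModule p C) (c : ↥(rcp_inv C))
    (χ : ↥(fd_pPrimary p (Additive Γ →+ tt_QZ))) : rcp_pairP P c χ = rcp_pair P c χ.1 := rfl

/-- **The norm index.**  `C^Γ` modulo the `p`-saturation of the norm group is finite of order the
`p`-part of `|Γ^ab|`. -/
theorem rcp_card_quot (P : PClassModule p C) :
    Finite (↥(rcp_inv C) ⧸ (fd_pSat p (rcp_norms C)).addSubgroupOf (rcp_inv C)) ∧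
      Nat.card (↥(rcp_inv C) ⧸ (fd_pSat p (rcp_norms C)).addSubgroupOf (rcp_inv C)) =
        p ^ (Nat.card (Abelianization Γ)).factorization p := by
  have h := rcp_card_of_pairing (rcp_pairP P) ((fd_pSat p (rcp_norms C)).addSubgroupOf (rcp_inv C))
    (fun c => by
      rw [AddSubgroup.mem_addSubgroupOf, ← rcp_left_iff P c]
      constructor
      · intro h χ
        exact h χ.1 χ.2
      · intro h χ hχ
        exact h ⟨χ, hχ⟩)
    (fun χ hχ => by
      apply Subtype.ext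
      exact rcp_right P χ.1 χ.2 (fun c => hχ c))
  refine ⟨h.1, ?_⟩
  rw [h.2, fd_card_pPrimary, rcp_card_chars]

/-- the exponent of `Γ^ab` kills `C^Γ` modulo (saturated) norms -/
theorem rcp_exponent_smul_mem (P : PClassModule p C) (e : ℕ)
    (he : ∀ g : Γ, g ^ e ∈ commutator Γ) {c : C.V} (hc : c ∈ rcp_inv C) :
    e • c ∈ fd_pSat p (rcp_norms C) := by
  have h := rcp_left P (e • (⟨c, hc⟩ : ↥(rcp_inv C))) (fun χ _ => by
    rw [map_nsmul]
    show e • rcp_pair P ⟨c, hc⟩ χ = 0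
    rw [← map_nsmul, rcp_nsmul_char_eq_zero e he χ, map_zero])
  exact h

/-- for a `p`-group the norm group is `p`-saturated in the invariants -/
theorem rcp_mem_norms_of_pGroup (hΓ : IsPGroup p Γ) {c : C.V} (hc : c ∈ rcp_inv C)
    (h : c ∈ fd_pSat p (rcp_norms C)) : c ∈ rcp_norms C := by
  have hp : p.Prime := Fact.out
  obtain ⟨n, hn, hnc⟩ := h
  obtain ⟨k, hk⟩ := IsPGroup.iff_card.1 hΓ
  have hk' : Fintype.card Γ = p ^ k := by rw [← Nat.card_eq_fintype_card]; exact hk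
  have h2 : p ^ k • c ∈ rcp_norms C := hk' ▸ rcp_card_smul_mem_norms hc
  have hcop : Nat.Coprime n (p ^ k) :=
    (Nat.Coprime.pow_left k ((Nat.Prime.coprime_iff_not_dvd hp).mpr hn)).symm
  have hb := Nat.gcd_eq_gcd_ab n (p ^ k)
  rw [hcop.gcd_eq_one] at hb
  have h3 : c = (n.gcdA (p ^ k)) • (n • c) + (n.gcdB (p ^ k)) • (p ^ k • c) := by
    rw [← natCast_zsmul c n, ← natCast_zsmul c (p ^ k), ← mul_smul, ← mul_smul, ← add_smul]
    have h4 : n.gcdA (p ^ k) * (n : ℤ) + n.gcdB (p ^ k) * ((p ^ k : ℕ) : ℤ) = 1 := by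
      push_cast at hb ⊢
      linarith
    rw [h4, one_smul]
  rw [h3]
  exact (rcp_norms C).add_mem ((rcp_norms C).zsmul_mem hnc _) ((rcp_norms C).zsmul_mem h2 _)

theorem rcp_card_quot_pGroup (P : PClassModule p C) (hΓ : IsPGroup p Γ) :
    Finite (↥(rcp_inv C) ⧸ (rcp_norms C).addSubgroupOf (rcp_inv C)) ∧
      Nat.card (↥(rcp_inv C) ⧸ (rcp_norms C).addSubgroupOf (rcp_inv C)) =
        Nat.card (Abelianization Γ) := by
  have hp : p.Prime := Fact.out
  have heq : (rcp_norms C).addSubgroupOf (rcp_inv C) =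
      (fd_pSat p (rcp_norms C)).addSubgroupOf (rcp_inv C) := by
    ext c
    rw [AddSubgroup.mem_addSubgroupOf, AddSubgroup.mem_addSubgroupOf]
    exact ⟨fun h => fd_le_pSat p _ h, fun h => rcp_mem_norms_of_pGroup hΓ c.2 h⟩
  rw [heq]
  refine ⟨(rcp_card_quot P).1, ?_⟩
  rw [(rcp_card_quot P).2]
  obtain ⟨j, hj⟩ := IsPGroup.iff_card.1 (hΓ.to_quotient (commutator Γ))
  have hj' : Nat.card (Abelianization Γ) = p ^ j := hj
  rw [hj', hp.factorization_pow, Finsupp.single_eq_same]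

theorem rcp_exponent_smul_mem_pGroup (P : PClassModule p C) (hΓ : IsPGroup p Γ) (e : ℕ)
    (he : ∀ g : Γ, g ^ e ∈ commutator Γ) {c : C.V} (hc : c ∈ rcp_inv C) :
    e • c ∈ rcp_norms C :=
  rcp_mem_norms_of_pGroup hΓ ((rcp_inv C).nsmul_mem hc e) (rcp_exponent_smul_mem P e he hc)

end counting

/-! ### Layers -/

section layers

variable {Γ : Type} [Group Γ] [Finite Γ] {p : ℕ} [Fact p.Prime] {C : Rep.{0} ℤ Γ}
  (P : PClassModule p C) (H : Subgroup Γ)

/-- the pairing of the layer `H` (class module `P.restrict H`) is computed by `P.inv H` -/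
theorem rcp_pair_restrict (c : ↥(rcp_inv (tt_res H C))) (χ : Additive ↥H →+ tt_QZ) :
    rcp_pair (P.restrict H) c χ = P.inv H (rcp_class (tt_res H C) c.1 c.2 χ) :=
  PClassModule.restrict_invTop P H _

lemma rcp_isPPrimary_class (c : C.V) (hc : ∀ g, C.ρ g c = c) {χ : Additive Γ →+ tt_QZ}
    (hχ : tt_IsPPrimary p χ) : tt_IsPPrimary p (rcp_class C c hc χ) :=
  tt_isPPrimary_map ((tt_coeffMap (rcp_ev C c hc) 2).hom.toAddMonoidHom.comp rcp_deltaHom) hχ

/-- the pairing of a layer on elements and characters coming from the top -/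
theorem rcp_pair_restrict_res (c : C.V) (hc : ∀ g, C.ρ g c = c) (χ : Additive Γ →+ tt_QZ)
    (hχ : tt_IsPPrimary p χ) :
    rcp_pair (P.restrict H) ⟨c, rcp_inv_res H hc⟩ (χ.comp (MonoidHom.toAdditive H.subtype)) =
      H.index • rcp_pair P ⟨c, hc⟩ χ := by
  rw [rcp_pair_restrict, rcp_pair_apply]
  show P.inv H (rcp_class (tt_res H C) c (rcp_inv_res H hc) _) = _
  rw [← rcp_class_res H c hc χ]
  exact P.inv_resMap H _ (rcp_isPPrimary_class c hc hχ)

end layers

end

end Fermat.Agent.S55
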