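import Fermat.Agent.S55.Tate.Reciprocity

/-!
# Perfectness of the reciprocity pairing relative to a subgroup (prefix `rcd_`)

`rcd_perfect` : for a `p`-class module `P` on `C`, a subgroup `U ≤ C^Γ` containing the norms and
`c ∈ C^Γ`: if every `p`-primary character orthogonal to `U` is orthogonal to `c`, then a
prime-to-`p` multiple of `c` lies in `U` (`U^⊥⊥ = U` up to prime-to-`p` saturation).

Proof: finite abelian duality (`fd_surjective_of_separating`) on `X ⧸ V`, `X` the `p`-primary
characters and `V = U^⊥`, and the left kernel `rcp_left`.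
-/

set_option autoImplicit false
set_option linter.unusedSectionVars false

namespace Fermat.Agent.S55

open CategoryTheory groupCohomology

noncomputable section

section abstract

universe u v

/-- **Abstract biduality.**  `B : A →+ CharacterModule X` with `X` finite, `U ≤ A` a subgroup,
`a : A` such that every `x` orthogonal to `U` is orthogonal to `a`.  Then `a` is congruent modulo
the left kernel of `B` to an element of `U`. -/
theorem rcd_exists_sub_mem_ker {A : Type u} {X : Type v} [AddCommGroup A] [AddCommGroup X]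
    [Finite X] (B : A →+ CharacterModule X) (U : AddSubgroup A) (a : A)
    (h : ∀ x : X, (∀ u ∈ U, B u x = 0) → B a x = 0) :
    ∃ u ∈ U, ∀ x : X, B (a - u) x = 0 := by
  -- `V = U^⊥`
  let V : AddSubgroup X :=
    { carrier := {x | ∀ u ∈ U, B u x = 0}
      zero_mem' := fun u _ => map_zero (B u)
      add_mem' := fun {x y} hx hy u hu => by rw [map_add, hx u hu, hy u hu, add_zero]
      neg_mem' := fun {x} hx u hu => by rw [map_neg, hx u hu, neg_zero] }
  have hV : ∀ x, x ∈ V ↔ ∀ u ∈ U, B u x = 0 := fun _ => Iff.rfl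
  -- the pairing of `U` with `X ⧸ V`
  have hle : ∀ u : ↥U, V ≤ AddMonoidHom.ker (fd_toHom (B u.1)) := fun u x hx => by
    rw [AddMonoidHom.mem_ker]
    exact hx u.1 u.2
  let BU : ↥U →+ CharacterModule (X ⧸ V) :=
    AddMonoidHom.mk' (fun u => fd_toHom.symm (QuotientAddGroup.lift V (fd_toHom (B u.1)) (hle u)))
      (fun u u' => by
        apply DFunLike.ext
        intro x
        induction x using QuotientAddGroup.induction_on with
        | H x =>
          show B (u.1 + u'.1) x = B u.1 x + B u'.1 x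
          rw [map_add]
          rfl)
  have hBU : ∀ (u : ↥U) (x : X), BU u (QuotientAddGroup.mk x) = B u.1 x := fun _ _ => rfl
  have hsurj : Function.Surjective BU := by
    apply fd_surjective_of_separating BU
    intro x hx
    induction x using QuotientAddGroup.induction_on with
    | H x =>
      rw [QuotientAddGroup.eq_zero_iff, hV]
      intro u hu
      exact hx ⟨u, hu⟩
  -- the character defined by `a`
  have hlea : V ≤ AddMonoidHom.ker (fd_toHom (B a)) := fun x hx => by
    rw [AddMonoidHom.mem_ker]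
    exact h x hx
  obtain ⟨u, hu⟩ := hsurj (fd_toHom.symm (QuotientAddGroup.lift V (fd_toHom (B a)) hlea))
  refine ⟨u.1, u.2, fun x => ?_⟩
  have h1 := DFunLike.congr_fun hu (QuotientAddGroup.mk x)
  have h2 : B u.1 x = B a x := h1
  rw [map_sub]
  show B a x - B u.1 x = 0
  rw [h2, sub_self]

end abstract

section main

variable {Γ : Type} [Group Γ] [Fintype Γ] {p : ℕ} [Fact p.Prime] {C : Rep.{0} ℤ Γ}

/-- **(5') Perfectness relative to a subgroup.**  `U ≤ C^Γ` contains the norms, `c ∈ C^Γ`, and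
every `p`-primary character orthogonal to `U` is orthogonal to `c`; then a prime-to-`p` multiple of
`c` lies in `U`. -/
theorem rcd_perfect (P : PClassModule p C) (U : AddSubgroup ↥(rcp_inv C))
    (hU : ∀ c : ↥(rcp_inv C), (c : C.V) ∈ rcp_norms C → c ∈ U) (c : ↥(rcp_inv C))
    (h : ∀ χ : Additive Γ →+ tt_QZ, tt_IsPPrimary p χ →
      (∀ u ∈ U, rcp_pair P u χ = 0) → rcp_pair P c χ = 0) :
    ∃ n : ℕ, ¬ p ∣ n ∧ n • c ∈ U := by
  obtain ⟨u, huU, hu⟩ := rcd_exists_sub_mem_ker (rcp_pairP P) U c
    (fun χ hχ => h χ.1 χ.2 (fun u hu => hχ u hu))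
  have h1 : ((c - u : ↥(rcp_inv C)) : C.V) ∈ fd_pSat p (rcp_norms C) :=
    rcp_left P (c - u) (fun χ hχ => hu ⟨χ, hχ⟩)
  obtain ⟨n, hn, hnc⟩ := h1
  refine ⟨n, hn, ?_⟩
  have h2 : n • (c - u) ∈ U := hU (n • (c - u)) hnc
  have h3 : n • c = n • (c - u) + n • u := by
    rw [← smul_add, sub_add_cancel]
  rw [h3]
  exact U.add_mem h2 (U.nsmul_mem huU n)

/-- `rcd_perfect` in terms of elements of `C`: `U ≤ C.V` a subgroup of invariants containing the
norms. -/
theorem rcd_perfect' (P : PClassModule p C) (U : AddSubgroup C.V) (hUinv : U ≤ rcp_inv C)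
    (hU : rcp_norms C ≤ U) (c : C.V) (hc : ∀ g, C.ρ g c = c)
    (h : ∀ χ : Additive Γ →+ tt_QZ, tt_IsPPrimary p χ →
      (∀ (u : C.V) (hu : u ∈ U), rcp_pair P ⟨u, hUinv hu⟩ χ = 0) → rcp_pair P ⟨c, hc⟩ χ = 0) :
    ∃ n : ℕ, ¬ p ∣ n ∧ n • c ∈ U := by
  obtain ⟨n, hn, hnc⟩ := rcd_perfect P (U.addSubgroupOf (rcp_inv C))
    (fun c hc => by
      rw [AddSubgroup.mem_addSubgroupOf]
      exact hU hc) ⟨c, hc⟩
    (fun χ hχ hχU => h χ hχ (fun u hu => hχU ⟨u, hUinv hu⟩ (by
      rw [AddSubgroup.mem_addSubgroupOf]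
      exact hu)))
  refine ⟨n, hn, ?_⟩
  rw [AddSubgroup.mem_addSubgroupOf] at hnc
  exact hnc

end main

end

end Fermat.Agent.S55
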