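import Fermat.Agent.S55.Tate.Reciprocity

/-!
# Relative norms are orthogonal to inflated characters

For a normal subgroup `I` of `Γ`, an `I`-invariant element `c'` of a `Γ`-module `C` and a character
`χ` of `Γ` trivial on `I`, the class `(N_{Γ/I} c') ∪ δχ ∈ H²(Γ, C)` vanishes.  (It is inflated from
`H²(Γ ⧸ I, C^I)`, where it is the cup product of a norm with `δχ̄`.)
-/

set_option autoImplicit false
set_option linter.unusedSectionVars false

namespace Fermat.Agent.S55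

open CategoryTheory groupCohomology

noncomputable section

section generic

variable {k : Type} [CommRing k] {Γ : Type} [Group Γ] (I : Subgroup Γ) [I.Normal]
  (C : Rep.{0} k Γ)

/-- `C^I` as a `Γ ⧸ I`-module -/
abbrev rcp_CI : Rep.{0} k (Γ ⧸ I) := C.quotientToInvariants I

/-- the inclusion `C^I → C`, as a morphism over `Γ → Γ ⧸ I` -/
def rcp_inclI : Rep.res (QuotientGroup.mk' I) (rcp_CI I C) ⟶ C :=
  Rep.ofHom (C.ρ.quotientToInvariants_lift I)

/-- an `I`-invariant element as an element of `C^I` -/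
def rcp_toCI (c' : C.V) (hc' : ∀ i ∈ I, C.ρ i c' = c') : (rcp_CI I C).V :=
  ⟨c', fun s => hc' s.1 s.2⟩

lemma rcp_inclI_toCI (c' : C.V) (hc' : ∀ i ∈ I, C.ρ i c' = c') :
    (rcp_inclI I C).hom (rcp_toCI I C c' hc') = c' := rfl

lemma rcp_inclI_rho (g : Γ) (x : (rcp_CI I C).V) :
    (rcp_inclI I C).hom ((rcp_CI I C).ρ (QuotientGroup.mk g) x) =
      C.ρ g ((rcp_inclI I C).hom x) := rfl

end generic

section relnorm

variable {Γ : Type} [Group Γ] (I : Subgroup Γ) [I.Normal] (C : Rep.{0} ℤ Γ)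

/-- the image in `C` of a `Γ ⧸ I`-invariant element of `C^I` is `Γ`-invariant -/
lemma rcp_inclI_inv {x : (rcp_CI I C).V} (hx : ∀ q, (rcp_CI I C).ρ q x = x) (g : Γ) :
    C.ρ g ((rcp_inclI I C).hom x) = (rcp_inclI I C).hom x := by
  rw [← rcp_inclI_rho, hx]

variable {I}

/-- a character trivial on `I` as a character of `Γ ⧸ I` -/
def rcp_charQuot (χ : Additive Γ →+ tt_QZ) (hχ : ∀ i ∈ I, χ (Additive.ofMul i) = 0) :
    Additive (Γ ⧸ I) →+ tt_QZ :=
  AddMonoidHom.toMultiplicativeRight.symm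
    (QuotientGroup.lift I (AddMonoidHom.toMultiplicativeRight χ) (fun i hi => by
      show Multiplicative.ofAdd (χ (Additive.ofMul i)) = 1
      rw [hχ i hi]
      rfl))

lemma rcp_charQuot_mk (χ : Additive Γ →+ tt_QZ) (hχ : ∀ i ∈ I, χ (Additive.ofMul i) = 0)
    (g : Γ) : rcp_charQuot χ hχ (Additive.ofMul (QuotientGroup.mk g : Γ ⧸ I)) =
      χ (Additive.ofMul g) := rfl

lemma rcp_charQuot_comp (χ : Additive Γ →+ tt_QZ) (hχ : ∀ i ∈ I, χ (Additive.ofMul i) = 0) :
    (rcp_charQuot χ hχ).comp (MonoidHom.toAdditive (QuotientGroup.mk' I)) = χ :=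
  AddMonoidHom.ext fun _ => rfl

variable (I)

lemma rcp_class_congr {G : Type} [Group G] {C : Rep.{0} ℤ G} {c c' : C.V} (h : c = c')
    (hc : ∀ g, C.ρ g c = c) (hc' : ∀ g, C.ρ g c' = c') (χ : Additive G →+ tt_QZ) :
    rcp_class C c hc χ = rcp_class C c' hc' χ := by
  subst h
  rfl

/-- the class `x ∪ δχ̄` of `H²(Γ ⧸ I, C^I)` inflates to `x ∪ δχ` -/
theorem rcp_class_infl (x : (rcp_CI I C).V) (hx : ∀ q, (rcp_CI I C).ρ q x = x)
    (χ : Additive Γ →+ tt_QZ) (hχ : ∀ i ∈ I, χ (Additive.ofMul i) = 0) :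
    (groupCohomology.map (QuotientGroup.mk' I) (rcp_inclI I C) 2).hom
        (rcp_class (rcp_CI I C) x hx (rcp_charQuot χ hχ)) =
      rcp_class C ((rcp_inclI I C).hom x) (rcp_inclI_inv I C hx) χ := by
  have h := rcp_class_map (QuotientGroup.mk' I) (rcp_inclI I C) x hx (rcp_inclI_inv I C hx)
    (rcp_charQuot χ hχ)
  rw [rcp_charQuot_comp] at h
  exact h

/-- **Relative norms**, quotient form. -/
theorem rcp_class_relnorm_quot [Fintype (Γ ⧸ I)] (x : (rcp_CI I C).V)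
    (χ : Additive Γ →+ tt_QZ) (hχ : ∀ i ∈ I, χ (Additive.ofMul i) = 0) :
    rcp_class C ((rcp_inclI I C).hom (rcp_norm (rcp_CI I C) x))
      (rcp_inclI_inv I C (rcp_norm_mem_inv (rcp_CI I C) x)) χ = 0 := by
  rw [← rcp_class_infl I C _ (rcp_norm_mem_inv (rcp_CI I C) x) χ hχ, rcp_class_norm, map_zero]

/-- the relative norm as a sum over a system of representatives -/
lemma rcp_inclI_norm [Fintype (Γ ⧸ I)] (c' : C.V) (hc' : ∀ i ∈ I, C.ρ i c' = c')
    {ι : Type} [Fintype ι] (s : ι → Γ)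
    (hs : Function.Bijective (fun i => (QuotientGroup.mk (s i) : Γ ⧸ I))) :
    (rcp_inclI I C).hom (rcp_norm (rcp_CI I C) (rcp_toCI I C c' hc')) =
      ∑ i, C.ρ (s i) c' := by
  rw [rcp_norm_apply, map_sum]
  symm
  exact Fintype.sum_equiv (Equiv.ofBijective _ hs) _ _ (fun i => rfl)

/-- the relative norm `∑_{t ∈ Γ/I} t c'` is `Γ`-invariant -/
lemma rcp_relnorm_inv (c' : C.V) (hc' : ∀ i ∈ I, C.ρ i c' = c')
    {ι : Type} [Fintype ι] (s : ι → Γ)
    (hs : Function.Bijective (fun i => (QuotientGroup.mk (s i) : Γ ⧸ I))) (g : Γ) :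
    C.ρ g (∑ i, C.ρ (s i) c') = ∑ i, C.ρ (s i) c' := by
  have : Fintype (Γ ⧸ I) := Fintype.ofBijective _ hs
  rw [← rcp_inclI_norm I C c' hc' s hs]
  exact rcp_inclI_inv I C (rcp_norm_mem_inv (rcp_CI I C) _) g

/-- **Relative norms are orthogonal to inflated characters** (class form): for `I` normal in `Γ`,
`c' ∈ C^I`, `s` a system of representatives of `Γ ⧸ I` and `χ` trivial on `I`,
`(∑ i, s i • c') ∪ δχ = 0`. -/
theorem rcp_class_relnorm (c' : C.V) (hc' : ∀ i ∈ I, C.ρ i c' = c')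
    {ι : Type} [Fintype ι] (s : ι → Γ)
    (hs : Function.Bijective (fun i => (QuotientGroup.mk (s i) : Γ ⧸ I)))
    (χ : Additive Γ →+ tt_QZ) (hχ : ∀ i ∈ I, χ (Additive.ofMul i) = 0) :
    rcp_class C (∑ i, C.ρ (s i) c') (rcp_relnorm_inv I C c' hc' s hs) χ = 0 := by
  have : Fintype (Γ ⧸ I) := Fintype.ofBijective _ hs
  rw [rcp_class_congr (rcp_inclI_norm I C c' hc' s hs).symm _
    (rcp_inclI_inv I C (rcp_norm_mem_inv (rcp_CI I C) _)) χ]
  exact rcp_class_relnorm_quot I C _ χ hχ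

/-- **Relative norms are orthogonal to inflated characters** (pairing form). -/
theorem rcp_pair_relnorm {p : ℕ} (P : PClassModule p C) (c' : C.V)
    (hc' : ∀ i ∈ I, C.ρ i c' = c') {ι : Type} [Fintype ι] (s : ι → Γ)
    (hs : Function.Bijective (fun i => (QuotientGroup.mk (s i) : Γ ⧸ I)))
    (χ : Additive Γ →+ tt_QZ) (hχ : ∀ i ∈ I, χ (Additive.ofMul i) = 0) :
    rcp_pair P ⟨∑ i, C.ρ (s i) c', rcp_relnorm_inv I C c' hc' s hs⟩ χ = 0 := by
  rw [rcp_pair_apply]
  show P.invTop (rcp_class C (∑ i, C.ρ (s i) c') _ χ) = 0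
  rw [rcp_class_relnorm I C c' hc' s hs χ hχ, map_zero]

/-- the canonical system of representatives -/
lemma rcp_out_bijective :
    Function.Bijective (fun q : Γ ⧸ I => (QuotientGroup.mk (Quotient.out q) : Γ ⧸ I)) := by
  have : (fun q : Γ ⧸ I => (QuotientGroup.mk (Quotient.out q) : Γ ⧸ I)) = id := by
    funext q
    exact QuotientGroup.out_eq' q
  rw [this]
  exact Function.bijective_id

/-- any invariant element which is a relative norm pairs to zero with characters trivial on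
`I` -/
theorem rcp_pair_eq_zero_of_relnorm {p : ℕ} (P : PClassModule p C) (c : ↥(rcp_inv C))
    (c' : C.V) (hc' : ∀ i ∈ I, C.ρ i c' = c') {ι : Type} [Fintype ι] (s : ι → Γ)
    (hs : Function.Bijective (fun i => (QuotientGroup.mk (s i) : Γ ⧸ I)))
    (hc : (c : C.V) = ∑ i, C.ρ (s i) c')
    (χ : Additive Γ →+ tt_QZ) (hχ : ∀ i ∈ I, χ (Additive.ofMul i) = 0) :
    rcp_pair P c χ = 0 := by
  have h : c = ⟨∑ i, C.ρ (s i) c', rcp_relnorm_inv I C c' hc' s hs⟩ := Subtype.ext hc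
  rw [h]
  exact rcp_pair_relnorm I C P c' hc' s hs χ hχ

end relnorm

end

end Fermat.Agent.S55
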