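import Fermat.Agent.S55.Tate.ReciprocityDual
import Fermat.Agent.S55.Tate.ReciprocityRelNorm

/-!
# [DUAL-core] of the (E1') argument (prefix `e1d_`)

`G` a finite group (the layer `Gal(L'/K)`), `C` a `G`-module with a `p`-class module structure `P`,
`I ⊴ G` (generated by the inertia groups at the primes of `S' ∖ S`), `U ≤ C^G` a subgroup
containing the norms `N_G C` (`U = toC(units at T) + N_G C`).  If every `p`-primary character of
`G` orthogonal to `U` is trivial on `I` ([UNR-core]), then for every `c' ∈ C^I` a prime-to-`p`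
multiple of the relative norm `N_{G/I} c'` lies in `U`.

From `rcd_perfect'` (biduality) and `rcp_pair_eq_zero_of_relnorm` (relative norms pair to zero with
characters trivial on `I`).
-/

set_option autoImplicit false
set_option linter.unusedSectionVars false
set_option linter.style.haveILetI false

namespace Fermat.Agent.S55

open CategoryTheory groupCohomology

noncomputable section

section chars

variable {G : Type} [Group G]

/-- a character killing a set of generators kills the subgroup they generate -/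
theorem e1d_char_closure (χ : Additive G →+ tt_QZ) (Sg : Set G)
    (h : ∀ σ ∈ Sg, χ (Additive.ofMul σ) = 0) :
    ∀ i ∈ Subgroup.closure Sg, χ (Additive.ofMul i) = 0 := by
  intro i hi
  have hle : Subgroup.closure Sg ≤ (AddMonoidHom.toMultiplicativeRight χ).ker := by
    rw [Subgroup.closure_le]
    intro σ hσ
    show AddMonoidHom.toMultiplicativeRight χ σ = 1
    show Multiplicative.ofAdd (χ (Additive.ofMul σ)) = 1
    rw [h σ hσ]
    rfl
  have h1 := hle hi
  rw [MonoidHom.mem_ker] at h1
  exact h1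

/-- a character killing a set stable under conjugation kills its normal closure -/
theorem e1d_char_normalClosure (χ : Additive G →+ tt_QZ) (Sg : Set G)
    (h : ∀ σ ∈ Sg, χ (Additive.ofMul σ) = 0) :
    ∀ i ∈ Subgroup.normalClosure Sg, χ (Additive.ofMul i) = 0 := by
  intro i hi
  have hle : Subgroup.normalClosure Sg ≤ (AddMonoidHom.toMultiplicativeRight χ).ker := by
    apply Subgroup.normalClosure_le_normal
    intro σ hσ
    show AddMonoidHom.toMultiplicativeRight χ σ = 1
    show Multiplicative.ofAdd (χ (Additive.ofMul σ)) = 1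
    rw [h σ hσ]
    rfl
  have h1 := hle hi
  rw [MonoidHom.mem_ker] at h1
  exact h1

end chars

section main

variable {G : Type} [Group G] [Fintype G] {p : ℕ} [Fact p.Prime] {C : Rep.{0} ℤ G}

/-- **[DUAL-core].**  `U ≤ C^G` contains the norms; every `p`-primary character orthogonal to `U`
is trivial on the normal subgroup `I`; then a prime-to-`p` multiple of the relative norm
`N_{G/I} c' = ∑ i, s i • c'` (over any system `s` of representatives of `G ⧸ I`) of any
`I`-invariant `c'` lies in `U`. -/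
theorem e1d_dual (P : PClassModule p C) (I : Subgroup G) [I.Normal] (U : AddSubgroup C.V)
    (hUinv : U ≤ rcp_inv C) (hU : rcp_norms C ≤ U)
    (hunr : ∀ χ : Additive G →+ tt_QZ, tt_IsPPrimary p χ →
      (∀ (u : C.V) (hu : u ∈ U), rcp_pair P ⟨u, hUinv hu⟩ χ = 0) →
        ∀ i ∈ I, χ (Additive.ofMul i) = 0)
    (c' : C.V) (hc' : ∀ i ∈ I, C.ρ i c' = c') {ι : Type} [Fintype ι] (s : ι → G)
    (hs : Function.Bijective (fun i => (QuotientGroup.mk (s i) : G ⧸ I))) :
    ∃ n : ℕ, ¬ p ∣ n ∧ n • (∑ i, C.ρ (s i) c') ∈ U :=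
  rcd_perfect' P U hUinv hU (∑ i, C.ρ (s i) c') (rcp_relnorm_inv I C c' hc' s hs)
    (fun χ hχ hχU => rcp_pair_relnorm I C P c' hc' s hs χ (hunr χ hχ hχU))

/-- [DUAL-core] with the canonical representatives `Quotient.out`. -/
theorem e1d_dual_out (P : PClassModule p C) (I : Subgroup G) [I.Normal] (U : AddSubgroup C.V)
    (hUinv : U ≤ rcp_inv C) (hU : rcp_norms C ≤ U)
    (hunr : ∀ χ : Additive G →+ tt_QZ, tt_IsPPrimary p χ →
      (∀ (u : C.V) (hu : u ∈ U), rcp_pair P ⟨u, hUinv hu⟩ χ = 0) →
        ∀ i ∈ I, χ (Additive.ofMul i) = 0)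
    (c' : C.V) (hc' : ∀ i ∈ I, C.ρ i c' = c') :
    letI : Fintype (G ⧸ I) := Fintype.ofFinite _
    ∃ n : ℕ, ¬ p ∣ n ∧ n • (∑ q : G ⧸ I, C.ρ (Quotient.out q) c') ∈ U := by
  letI : Fintype (G ⧸ I) := Fintype.ofFinite _
  exact e1d_dual P I U hUinv hU hunr c' hc' (fun q : G ⧸ I => Quotient.out q)
    (rcp_out_bijective I)

/-- [DUAL-core], generator form: `I` is the normal closure of a set `Sg` and every `p`-primary
character orthogonal to `U` kills `Sg`. -/
theorem e1d_dual_gen (P : PClassModule p C) (Sg : Set G) (U : AddSubgroup C.V)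
    (hUinv : U ≤ rcp_inv C) (hU : rcp_norms C ≤ U)
    (hunr : ∀ χ : Additive G →+ tt_QZ, tt_IsPPrimary p χ →
      (∀ (u : C.V) (hu : u ∈ U), rcp_pair P ⟨u, hUinv hu⟩ χ = 0) →
        ∀ σ ∈ Sg, χ (Additive.ofMul σ) = 0)
    (c' : C.V) (hc' : ∀ i ∈ Subgroup.normalClosure Sg, C.ρ i c' = c') {ι : Type} [Fintype ι]
    (s : ι → G)
    (hs : Function.Bijective
      (fun i => (QuotientGroup.mk (s i) : G ⧸ Subgroup.normalClosure Sg))) :
    ∃ n : ℕ, ¬ p ∣ n ∧ n • (∑ i, C.ρ (s i) c') ∈ U :=
  e1d_dual P (Subgroup.normalClosure Sg) U hUinv hU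
    (fun χ hχ hχU => e1d_char_normalClosure χ Sg (hunr χ hχ hχU)) c' hc' s hs

end main

end

end Fermat.Agent.S55
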