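import Mathlib

/-!
# S55 / (A4): finite duality for `ℤ`-free `G`-lattices (explicit form)

For a finite group `G`, `n = |G|`, and a `G`-lattice `Y` (free of finite rank over `ℤ`), with dual
lattice `Y^∨ = Hom(Y, ℤ)` (contragredient action), the pairing
`(Y^∨)^G / N Y^∨ × Y^G / N Y → ℤ / n`, `(f, y) ↦ f y`, is perfect:

* `td_exists_dual_invariant`: every character of `Y^G / N Y` is `y ↦ f y / n` for a `G`-invariant
  functional `f`;
* `td_mem_range_norm_of_forall_dvd`: `y ∈ Y^G` with `n ∣ f y` for all invariant `f` is a norm;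
* `td_mem_range_dual_norm_of_forall_dvd`: an invariant `f` with `n ∣ f y` for all `y ∈ Y^G` is a
  norm.
-/

set_option autoImplicit false

namespace Fermat.Agent.S55

open Module

section basic

variable {G : Type*} [Group G] [Fintype G] {Y : Type*} [AddCommGroup Y]
  (ρ : Representation ℤ G Y)

theorem td_norm_apply (y : Y) : ρ.norm y = ∑ g : G, ρ g y := by
  simp [Representation.norm]

theorem td_norm_mem_invariants (y : Y) : ρ.norm y ∈ ρ.invariants := by
  rw [Representation.mem_invariants]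
  exact fun g => ρ.self_norm_apply g y

theorem td_norm_of_mem_invariants {y : Y} (hy : y ∈ ρ.invariants) :
    ρ.norm y = (Fintype.card G : ℤ) • y := by
  rw [td_norm_apply]
  rw [Representation.mem_invariants] at hy
  simp [hy, Finset.card_univ]

omit [Fintype G] in
theorem td_mem_dual_invariants_iff (f : Module.Dual ℤ Y) :
    f ∈ ρ.dual.invariants ↔ ∀ g y, f (ρ g y) = f y := by
  rw [Representation.mem_invariants]
  constructor
  · intro h g y
    have := congrArg (fun F : Module.Dual ℤ Y => F y) (h g⁻¹)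
    simpa [Module.Dual.transpose_apply] using this
  · intro h g
    ext y
    simpa [Module.Dual.transpose_apply] using h g⁻¹ y

theorem td_dual_norm_apply (f : Module.Dual ℤ Y) (y : Y) :
    ρ.dual.norm f y = f (ρ.norm y) := by
  rw [td_norm_apply, td_norm_apply, map_sum, LinearMap.sum_apply]
  rw [← Equiv.sum_comp (Equiv.inv G)]
  simp [Module.Dual.transpose_apply]

end basic

section lattice

variable {G : Type*} [Group G] [Fintype G] {Y : Type*} [AddCommGroup Y] [Module.Free ℤ Y]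
  [Module.Finite ℤ Y] (ρ : Representation ℤ G Y)

/-- An `n`-torsion element of `ℚ/ℤ` is of the form `a / n`. -/
theorem td_exists_int_of_nsmul_eq_zero {n : ℕ} (hn : 0 < n) (x : AddCircle (1 : ℚ))
    (hx : n • x = 0) : ∃ a : ℤ, x = (((a : ℚ) / (n : ℚ) : ℚ) : AddCircle (1 : ℚ)) := by
  obtain ⟨q, rfl⟩ := QuotientAddGroup.mk_surjective x
  change n • (q : AddCircle (1 : ℚ)) = 0 at hx
  rw [← AddCircle.coe_nsmul, AddCircle.coe_eq_zero_iff] at hx
  obtain ⟨m, hm⟩ := hx
  refine ⟨m, ?_⟩
  have hn' : (n : ℚ) ≠ 0 := by exact_mod_cast hn.ne'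
  have : q = (m : ℚ) / (n : ℚ) := by
    rw [eq_div_iff hn']
    simp only [zsmul_eq_mul, mul_one, nsmul_eq_mul] at hm
    rw [hm]; ring
  rw [this]

/-- The norm as a map into the invariants. -/
noncomputable def td_normInv : Y →ₗ[ℤ] ρ.invariants :=
  ρ.norm.codRestrict ρ.invariants (td_norm_mem_invariants ρ)

omit [Module.Free ℤ Y] [Module.Finite ℤ Y] in
theorem td_normInv_coe (y : Y) : (td_normInv ρ y : Y) = ρ.norm y := rfl

omit [Module.Free ℤ Y] [Module.Finite ℤ Y] in
theorem td_normInv_of_invariant (z : ρ.invariants) :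
    td_normInv ρ z.1 = (Fintype.card G : ℤ) • z :=
  Subtype.ext (td_norm_of_mem_invariants ρ z.2)

/-- The scaling map `ℤ → ℚ/ℤ`, `a ↦ a / n`. -/
noncomputable def td_divHom (n : ℕ) : ℤ →+ AddCircle (1 : ℚ) :=
  (QuotientAddGroup.mk' _).comp ((AddMonoidHom.mulRight (1 / (n : ℚ))).comp (Int.castAddHom ℚ))

theorem td_divHom_apply (n : ℕ) (a : ℤ) :
    td_divHom n a = (((a : ℚ) / (n : ℚ) : ℚ) : AddCircle (1 : ℚ)) := by
  simp [td_divHom, div_eq_mul_inv]

theorem td_divHom_eq_zero_iff {n : ℕ} (hn : 0 < n) (a : ℤ) :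
    td_divHom n a = 0 ↔ (n : ℤ) ∣ a := by
  have hn' : (n : ℚ) ≠ 0 := by exact_mod_cast hn.ne'
  rw [td_divHom_apply, AddCircle.coe_eq_zero_iff]
  constructor
  · rintro ⟨m, hm⟩
    refine ⟨m, ?_⟩
    have : (a : ℚ) = (n : ℚ) * (m : ℚ) := by
      simp only [zsmul_eq_mul, mul_one] at hm
      rw [hm]; field_simp
    exact_mod_cast this
  · rintro ⟨m, rfl⟩
    refine ⟨m, ?_⟩
    simp only [zsmul_eq_mul, mul_one]
    push_cast
    field_simp

/-- **Surjectivity of the duality map**: every character of `Y^G / N Y` is `y ↦ f y / n` for an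
invariant functional `f`. -/
theorem td_exists_dual_invariant (χ : ρ.invariants →+ AddCircle (1 : ℚ))
    (hχ : ∀ y : Y, χ (td_normInv ρ y) = 0) :
    ∃ f : Module.Dual ℤ Y, f ∈ ρ.dual.invariants ∧
      ∀ z : ρ.invariants, χ z = td_divHom (Fintype.card G) (f z.1) := by
  classical
  set n := Fintype.card G with hn
  have hn0 : 0 < n := Fintype.card_pos
  let b := Module.Free.chooseBasis ℤ ρ.invariants
  have htors : ∀ i, n • χ (b i) = 0 := by
    intro i
    rw [← map_nsmul, ← hχ (b i).1, td_normInv_of_invariant]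
    simp [hn]
  choose a ha using fun i => td_exists_int_of_nsmul_eq_zero hn0 (χ (b i)) (htors i)
  let φ : ρ.invariants →ₗ[ℤ] ℤ := b.constr ℤ a
  have hφ : ∀ z, χ z = td_divHom n (φ z) := by
    have key : χ.toIntLinearMap = ((td_divHom n).comp φ.toAddMonoidHom).toIntLinearMap := by
      refine b.ext fun i => ?_
      simp only [AddMonoidHom.coe_toIntLinearMap, AddMonoidHom.coe_comp, Function.comp_apply,
        LinearMap.toAddMonoidHom_coe]
      rw [ha i, td_divHom_apply]
      congr 3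
      simp [φ]
    intro z
    exact congrArg (fun F => F z) key
  have hdvd : ∀ y : Y, (n : ℤ) ∣ φ (td_normInv ρ y) := by
    intro y
    rw [← td_divHom_eq_zero_iff hn0, ← hφ, hχ]
  refine ⟨{ toFun := fun y => φ (td_normInv ρ y) / (n : ℤ)
            map_add' := fun y y' => by
              rw [map_add, map_add, Int.add_ediv_of_dvd_left (hdvd y)]
            map_smul' := fun k y => by
              rw [map_smul, map_smul, smul_eq_mul, smul_eq_mul, RingHom.id_apply,
                Int.mul_ediv_assoc _ (hdvd y)] }, ?_, ?_⟩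
  · rw [td_mem_dual_invariants_iff]
    intro g y
    change φ (td_normInv ρ (ρ g y)) / (n : ℤ) = φ (td_normInv ρ y) / (n : ℤ)
    congr 2
    exact Subtype.ext (ρ.norm_self_apply g y)
  · intro z
    change χ z = td_divHom n (φ (td_normInv ρ z.1) / (n : ℤ))
    rw [td_normInv_of_invariant, map_smul, smul_eq_mul, ← hn,
      Int.mul_ediv_cancel_left _ (by exact_mod_cast hn0.ne')]
    exact hφ z

/-- **Right kernel**: an invariant `y` with `n ∣ f y` for all invariant functionals is a norm. -/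
theorem td_mem_range_norm_of_forall_dvd {y : Y} (hy : y ∈ ρ.invariants)
    (h : ∀ f : Module.Dual ℤ Y, f ∈ ρ.dual.invariants → (Fintype.card G : ℤ) ∣ f y) :
    y ∈ LinearMap.range ρ.norm := by
  by_contra hcon
  set Q := ρ.invariants ⧸ LinearMap.range (td_normInv ρ) with hQ
  have hq : (Submodule.Quotient.mk ⟨y, hy⟩ : Q) ≠ 0 := by
    rw [Ne, Submodule.Quotient.mk_eq_zero]
    rintro ⟨y', hy'⟩
    exact hcon ⟨y', congrArg Subtype.val hy'⟩
  obtain ⟨c, hc⟩ := CharacterModule.exists_character_apply_ne_zero_of_ne_zero hq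
  let χ : ρ.invariants →+ AddCircle (1 : ℚ) :=
    (c : Q →+ AddCircle (1 : ℚ)).comp (LinearMap.range (td_normInv ρ)).mkQ.toAddMonoidHom
  have hχ : ∀ y' : Y, χ (td_normInv ρ y') = 0 := by
    intro y'
    change c (Submodule.Quotient.mk (td_normInv ρ y')) = 0
    rw [(Submodule.Quotient.mk_eq_zero _).mpr (LinearMap.mem_range_self _ y'), map_zero]
  obtain ⟨f, hf, hfχ⟩ := td_exists_dual_invariant ρ χ hχ
  apply hc
  have h1 := hfχ ⟨y, hy⟩
  rw [(td_divHom_eq_zero_iff Fintype.card_pos _).mpr (h f hf)] at h1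
  exact h1

end lattice

section leftKernel

variable {G : Type*} [Group G] [Fintype G] {Y : Type*} [AddCommGroup Y] [Module.Free ℤ Y]
  [Module.Finite ℤ Y] (ρ : Representation ℤ G Y)

omit [Fintype G] [Module.Finite ℤ Y] in
/-- `Y / Y^G` is torsion-free. -/
theorem td_isTorsionFree_quotient : Module.IsTorsionFree ℤ (Y ⧸ ρ.invariants) := by
  refine Module.IsTorsionFree.of_smul_eq_zero fun k q hq => ?_
  obtain ⟨y, rfl⟩ := Submodule.Quotient.mk_surjective _ q
  by_cases hk : k = 0
  · exact Or.inl hk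
  right
  rw [← Submodule.Quotient.mk_smul, Submodule.Quotient.mk_eq_zero,
    Representation.mem_invariants] at hq
  rw [Submodule.Quotient.mk_eq_zero, Representation.mem_invariants]
  intro g
  have h1 := hq g
  rw [map_smul] at h1
  exact smul_right_injective Y hk h1

omit [Fintype G] in
/-- `Y^G` is a direct summand of `Y`. -/
theorem td_exists_retraction : ∃ r : Y →ₗ[ℤ] ρ.invariants, ∀ z : ρ.invariants, r z.1 = z := by
  have := td_isTorsionFree_quotient ρ
  have : Module.Free ℤ (Y ⧸ ρ.invariants) := Module.free_of_finite_type_torsion_free'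
  obtain ⟨s, hs⟩ := Module.projective_lifting_property ρ.invariants.mkQ LinearMap.id
    (Submodule.mkQ_surjective _)
  have hmem : ∀ y : Y, y - s (ρ.invariants.mkQ y) ∈ ρ.invariants := by
    intro y
    rw [← Submodule.Quotient.mk_eq_zero, Submodule.Quotient.mk_sub]
    have := congrArg (fun F => F (ρ.invariants.mkQ y)) hs
    simp only [LinearMap.comp_apply, LinearMap.id_apply] at this
    rw [← Submodule.mkQ_apply, ← Submodule.mkQ_apply, this, sub_self]
  refine ⟨(LinearMap.id - s.comp ρ.invariants.mkQ).codRestrict ρ.invariants hmem, fun z => ?_⟩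
  apply Subtype.ext
  simp only [LinearMap.codRestrict_apply, LinearMap.sub_apply, LinearMap.id_apply,
    LinearMap.comp_apply, Submodule.mkQ_apply]
  rw [(Submodule.Quotient.mk_eq_zero _).mpr z.2, map_zero, sub_zero]

/-- **Left kernel**: an invariant functional `f` with `n ∣ f y` for all `y ∈ Y^G` is a norm. -/
theorem td_mem_range_dual_norm_of_forall_dvd {f : Module.Dual ℤ Y} (hf : f ∈ ρ.dual.invariants)
    (h : ∀ y ∈ ρ.invariants, (Fintype.card G : ℤ) ∣ f y) :
    f ∈ LinearMap.range ρ.dual.norm := by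
  set n := Fintype.card G with hn
  have hn0 : (n : ℤ) ≠ 0 := by exact_mod_cast (Fintype.card_pos (α := G)).ne'
  obtain ⟨r, hr⟩ := td_exists_retraction ρ
  -- `φ y = f y / n` on the invariants
  let φ : ρ.invariants →ₗ[ℤ] ℤ :=
    { toFun := fun z => f z.1 / (n : ℤ)
      map_add' := fun z z' => by
        simp only [Submodule.coe_add, map_add]
        rw [Int.add_ediv_of_dvd_left (h _ z.2)]
      map_smul' := fun k z => by
        simp only [Submodule.coe_smul, map_smul, smul_eq_mul, RingHom.id_apply]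
        rw [Int.mul_ediv_assoc _ (h _ z.2)] }
  refine ⟨φ.comp r, ?_⟩
  ext y
  rw [td_dual_norm_apply]
  change φ (r (ρ.norm y)) = f y
  have h1 : r (ρ.norm y) = td_normInv ρ y := hr (td_normInv ρ y)
  rw [h1]
  change f (ρ.norm y) / (n : ℤ) = f y
  have h2 : f (ρ.norm y) = (n : ℤ) * f y := by
    rw [td_norm_apply, map_sum]
    rw [td_mem_dual_invariants_iff] at hf
    simp [hf, hn, Finset.card_univ]
  rw [h2, Int.mul_ediv_cancel_left _ hn0]

end leftKernel

/-! ### Instance-free additive forms (for consumption by modules `Rep ℤ Γ`) -/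

section additive

variable {G : Type*} [Group G] [Fintype G] {Y : Type*} [AddCommGroup Y]

/-- The `ℤ`-linear representation attached to an action by additive endomorphisms. -/
def td_repOfAdd (ρ : G →* AddMonoid.End Y) : Representation ℤ G Y where
  toFun g := (ρ g : Y →+ Y).toIntLinearMap
  map_one' := by
    ext y
    rw [map_one]
    rfl
  map_mul' g h := by
    ext y
    rw [map_mul]
    rfl

omit [Fintype G] in
@[simp]
theorem td_repOfAdd_apply (ρ : G →* AddMonoid.End Y) (g : G) (y : Y) :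
    td_repOfAdd ρ g y = ρ g y := rfl

omit [Fintype G] in
theorem td_mem_invariants_repOfAdd (ρ : G →* AddMonoid.End Y) (y : Y) :
    y ∈ (td_repOfAdd ρ).invariants ↔ ∀ g, ρ g y = y := by
  rw [Representation.mem_invariants]
  rfl

theorem td_free_finite_of_equiv (hY : ∃ n : ℕ, Nonempty (Y ≃+ (Fin n → ℤ))) :
    Module.Free ℤ Y ∧ Module.Finite ℤ Y := by
  obtain ⟨n, ⟨e⟩⟩ := hY
  exact ⟨Module.Free.of_equiv e.toIntLinearEquiv.symm, Module.Finite.equiv e.toIntLinearEquiv.symm⟩

/-- **(A4), right kernel, additive form.** -/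
theorem td_add_right (ρ : G →* AddMonoid.End Y) (hY : ∃ n : ℕ, Nonempty (Y ≃+ (Fin n → ℤ)))
    {y : Y} (hy : ∀ g, ρ g y = y)
    (h : ∀ f : Y →+ ℤ, (∀ g y', f (ρ g y') = f y') → (Fintype.card G : ℤ) ∣ f y) :
    ∃ y' : Y, y = ∑ g : G, ρ g y' := by
  obtain ⟨hfree, hfin⟩ := td_free_finite_of_equiv hY
  have := td_mem_range_norm_of_forall_dvd (td_repOfAdd ρ)
    ((td_mem_invariants_repOfAdd ρ y).mpr hy) (fun f hf => by
      rw [td_mem_dual_invariants_iff] at hf
      exact h f.toAddMonoidHom fun g y' => hf g y')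
  obtain ⟨y', hy'⟩ := this
  refine ⟨y', ?_⟩
  rw [← hy', td_norm_apply]
  rfl

/-- **(A4), left kernel, additive form.** -/
theorem td_add_left (ρ : G →* AddMonoid.End Y) (hY : ∃ n : ℕ, Nonempty (Y ≃+ (Fin n → ℤ)))
    {f : Y →+ ℤ} (hf : ∀ g y, f (ρ g y) = f y)
    (h : ∀ y, (∀ g, ρ g y = y) → (Fintype.card G : ℤ) ∣ f y) :
    ∃ f' : Y →+ ℤ, ∀ y, f y = ∑ g : G, f' (ρ g y) := by
  obtain ⟨hfree, hfin⟩ := td_free_finite_of_equiv hY
  have := td_mem_range_dual_norm_of_forall_dvd (td_repOfAdd ρ) (f := f.toIntLinearMap)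
    ((td_mem_dual_invariants_iff _ _).mpr fun g y => hf g y)
    (fun y hy => h y ((td_mem_invariants_repOfAdd ρ y).mp hy))
  obtain ⟨f', hf'⟩ := this
  refine ⟨f'.toAddMonoidHom, fun y => ?_⟩
  have h1 : (td_repOfAdd ρ).dual.norm f' y = f.toIntLinearMap y := by rw [hf']
  rw [td_dual_norm_apply, td_norm_apply, map_sum] at h1
  exact h1.symm

/-- **(A4), surjectivity, additive form**: a character of `Y` killing the norms is, on the
invariants, `y ↦ f y / |G|` for an invariant functional `f`. -/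
theorem td_add_exists (ρ : G →* AddMonoid.End Y) (hY : ∃ n : ℕ, Nonempty (Y ≃+ (Fin n → ℤ)))
    (χ : Y →+ AddCircle (1 : ℚ)) (hχ : ∀ y', χ (∑ g : G, ρ g y') = 0) :
    ∃ f : Y →+ ℤ, (∀ g y, f (ρ g y) = f y) ∧
      ∀ y, (∀ g, ρ g y = y) → χ y = td_divHom (Fintype.card G) (f y) := by
  obtain ⟨hfree, hfin⟩ := td_free_finite_of_equiv hY
  obtain ⟨f, hf, hfχ⟩ := td_exists_dual_invariant (td_repOfAdd ρ)
    (χ.comp (td_repOfAdd ρ).invariants.subtype.toAddMonoidHom) (fun y' => by
      change χ ((td_repOfAdd ρ).norm y') = 0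
      rw [td_norm_apply]
      exact hχ y')
  rw [td_mem_dual_invariants_iff] at hf
  exact ⟨f.toAddMonoidHom, fun g y => hf g y, fun y hy =>
    hfχ ⟨y, (td_mem_invariants_repOfAdd ρ y).mpr hy⟩⟩

/-! ### `p`-primary variants -/

/-- `p`-primary right kernel: if `p^k ∣ f y` (`p^k` the `p`-part of `|G|`) for all invariant `f`,
then a prime-to-`p` multiple of `y` is a norm. -/
theorem td_add_right_pPrimary (p : ℕ) (ρ : G →* AddMonoid.End Y)
    (hY : ∃ n : ℕ, Nonempty (Y ≃+ (Fin n → ℤ))) {y : Y} (hy : ∀ g, ρ g y = y)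
    (h : ∀ f : Y →+ ℤ, (∀ g y', f (ρ g y') = f y') →
      ((ordProj[p] (Fintype.card G) : ℕ) : ℤ) ∣ f y) :
    ∃ y' : Y, (ordCompl[p] (Fintype.card G)) • y = ∑ g : G, ρ g y' := by
  refine td_add_right ρ hY (y := (ordCompl[p] (Fintype.card G)) • y)
    (fun g => by rw [map_nsmul, hy g]) (fun f hf => ?_)
  rw [map_nsmul, nsmul_eq_mul]
  have h1 := h f hf
  have h2 : (Fintype.card G : ℤ)
      = ((ordCompl[p] (Fintype.card G) : ℕ) : ℤ) * ((ordProj[p] (Fintype.card G) : ℕ) : ℤ) := by
    rw [← Nat.cast_mul, mul_comm, Nat.ordProj_mul_ordCompl_eq_self]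
  rw [h2]
  exact mul_dvd_mul_left _ h1

/-- `p`-primary left kernel. -/
theorem td_add_left_pPrimary (p : ℕ) (ρ : G →* AddMonoid.End Y)
    (hY : ∃ n : ℕ, Nonempty (Y ≃+ (Fin n → ℤ))) {f : Y →+ ℤ} (hf : ∀ g y, f (ρ g y) = f y)
    (h : ∀ y, (∀ g, ρ g y = y) → ((ordProj[p] (Fintype.card G) : ℕ) : ℤ) ∣ f y) :
    ∃ f' : Y →+ ℤ, ∀ y, (ordCompl[p] (Fintype.card G)) • f y = ∑ g : G, f' (ρ g y) := by
  obtain ⟨f', hf'⟩ := td_add_left ρ hY (f := (ordCompl[p] (Fintype.card G)) • f)
    (fun g y => by simp [hf g y]) (fun y hy => by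
      simp only [AddMonoidHom.coe_smul, Pi.smul_apply, nsmul_eq_mul]
      have h1 := h y hy
      have h2 : (Fintype.card G : ℤ)
          = ((ordCompl[p] (Fintype.card G) : ℕ) : ℤ)
            * ((ordProj[p] (Fintype.card G) : ℕ) : ℤ) := by
        rw [← Nat.cast_mul, mul_comm, Nat.ordProj_mul_ordCompl_eq_self]
      rw [h2]
      exact mul_dvd_mul_left _ h1)
  exact ⟨f', fun y => by simpa using hf' y⟩

end additive

end Fermat.Agent.S55
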