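import Fermat.Agent.S55.Tate.TateMap
import Fermat.Agent.S55.Tate.ClassModule
import Fermat.Agent.S55.FinGrp.H2Torsion
import Fermat.Agent.S55.Tate.Duality
import Fermat.Agent.S55.FinGrp.Vanish

/-!
# Tate's theorem on the layers of a `p`-class module (S55, block A)

For `P : PClassModule p C` on a finite group `Γ` and a 2-cocycle `σ` representing a `p`-primary
fundamental class (`inv σ` of order the `p`-part of `|Γ|`), the splitting module `C(σ)` has
vanishing `H¹` and `H²` on every `p`-subgroup of `Γ` (`tn_split_isZero`).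
-/

set_option autoImplicit false
namespace Fermat.Agent.S55
open CategoryTheory groupCohomology

/-- In `ℚ/ℤ`, an element killed by `N` is a multiple of any element of order `N`. -/
theorem tn_QZ_zmultiple {N : ℕ} (hN : 0 < N) (w x : tt_QZ) (hw : addOrderOf w = N)
    (hx : N • x = 0) : ∃ n : ℤ, x = n • w := by
  obtain ⟨a, ha⟩ := td_exists_int_of_nsmul_eq_zero hN x hx
  obtain ⟨m, -, hm, hmw⟩ := (AddCircle.addOrderOf_eq_pos_iff (p := (1 : ℚ)) hN).1 hw
  rw [mul_one] at hmw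
  have hcop : IsCoprime (m : ℤ) (N : ℤ) := by
    rw [Int.isCoprime_iff_gcd_eq_one, Int.gcd_natCast_natCast]
    exact hm
  obtain ⟨s, t, hst⟩ := hcop
  refine ⟨a * s, ?_⟩
  rw [ha, ← hmw]
  have hN' : (N : ℚ) ≠ 0 := by exact_mod_cast hN.ne'
  have h1 : ((a : ℚ) / N) = (a * s : ℤ) • ((m : ℚ) / N) + ((a * t : ℤ) : ℚ) := by
    have : ((s * m + t * N : ℤ) : ℚ) = 1 := by exact_mod_cast congrArg (Int.cast : ℤ → ℚ) hst
    push_cast at this
    rw [zsmul_eq_mul]
    push_cast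
    field_simp
    linear_combination (-(a : ℚ)) * this
  rw [h1, AddCircle.coe_add, AddCircle.coe_zsmul]
  have h2 : (((a * t : ℤ) : ℚ) : AddCircle (1 : ℚ)) = 0 := by
    rw [AddCircle.coe_eq_zero_iff]
    exact ⟨a * t, by simp⟩
  rw [h2, add_zero]

/-- order of an index multiple of an element whose order is the `p`-part of `p ^ b * I` -/
theorem tn_addOrderOf_index_smul {A : Type*} [AddCommGroup A] {p : ℕ} (hp : p.Prime) (b I : ℕ)
    (hI : I ≠ 0) (w : A) (hw : addOrderOf w = ordProj[p] (p ^ b * I)) :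
    addOrderOf (I • w) = p ^ b := by
  have hpb : p ^ b ≠ 0 := pow_ne_zero _ hp.ne_zero
  have h1 : ordProj[p] (p ^ b * I) = p ^ b * ordProj[p] I := by
    rw [Nat.ordProj_mul p hpb hI]
    congr 1
    rw [hp.factorization_pow]
    simp
  apply Nat.dvd_antisymm
  · apply addOrderOf_dvd_of_nsmul_eq_zero
    rw [smul_smul]
    apply addOrderOf_dvd_iff_nsmul_eq_zero.1
    rw [hw]
    exact Nat.ordProj_dvd _ p
  · have h2 : (addOrderOf (I • w) * I) • w = 0 := by
      rw [mul_smul]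
      exact addOrderOf_nsmul_eq_zero _
    have h3 := addOrderOf_dvd_of_nsmul_eq_zero h2
    rw [hw, h1] at h3
    have h5 : p ^ b * ordProj[p] I ∣ (addOrderOf (I • w) * ordCompl[p] I) * ordProj[p] I := by
      have : addOrderOf (I • w) * ordCompl[p] I * ordProj[p] I = addOrderOf (I • w) * I := by
        rw [mul_assoc, mul_comm (ordCompl[p] I), Nat.ordProj_mul_ordCompl_eq_self]
      rw [this]
      exact h3
    have h6 : p ^ b ∣ addOrderOf (I • w) * ordCompl[p] I :=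
      Nat.dvd_of_mul_dvd_mul_right (Nat.ordProj_pos I p) h5
    exact (Nat.Coprime.pow_left b (Nat.coprime_ordCompl hp hI)).dvd_of_dvd_mul_right h6

section general
variable {k G : Type} [CommRing k] [Group G]

theorem tn_isZ2_sub_zsmul (A : Rep.{0} k G) (n : ℤ) {z σ : G × G → A.V} (hz : te_IsZ2 A z)
    (hσ : te_IsZ2 A σ) : te_IsZ2 A (z - n • σ) := by
  rw [te_isZ2_iff] at hz hσ ⊢
  exact (cocycles₂ A).toAddSubgroup.sub_mem hz ((cocycles₂ A).toAddSubgroup.zsmul_mem hσ n)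

theorem tn_cl2_sub_zsmul (A : Rep.{0} k G) (n : ℤ) {z σ : G × G → A.V} (hz : te_IsZ2 A z)
    (hσ : te_IsZ2 A σ) :
    te_cl2 A (z - n • σ) (tn_isZ2_sub_zsmul A n hz hσ) = te_cl2 A z hz - n • te_cl2 A σ hσ := by
  rw [te_cl2, te_cl2, te_cl2, ← map_zsmul, ← map_sub]
  rfl

theorem tn_isZ2_zsmul (A : Rep.{0} k G) (n : ℤ) {σ : G × G → A.V} 
    (hσ : te_IsZ2 A σ) : te_IsZ2 A (n • σ) := by
  rw [te_isZ2_iff] at hσ ⊢
  exact (cocycles₂ A).toAddSubgroup.zsmul_mem hσ n

theorem tn_cl2_zsmul (A : Rep.{0} k G) (n : ℤ) {σ : G × G → A.V} 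
    (hσ : te_IsZ2 A σ) :
    te_cl2 A (n • σ) (tn_isZ2_zsmul A n hσ) = n • te_cl2 A σ hσ := by
  rw [te_cl2, te_cl2, ← map_zsmul]
  rfl

/-- `|G|` kills `H¹(G, A)`, explicitly. -/
theorem tn_card_smul_cl1 [Fintype G] (A : Rep.{0} k G) (c : G → A.V) (hc : te_IsZ1 A c) :
    Fintype.card G • te_cl1 A c hc = 0 := by
  rw [← te_cl1_nsmul, te_cl1_eq_zero_iff]
  refine ⟨-∑ h : G, c h, ?_⟩
  funext g
  have h1 : ∑ h : G, c (g * h) = ∑ h : G, c h :=
    Fintype.sum_equiv (Equiv.mulLeft g) _ _ (fun _ => rfl)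
  have h2 : ∑ h : G, c (g * h) = A.ρ g (∑ h : G, c h) + Fintype.card G • c g := by
    simp_rw [hc g]
    rw [Finset.sum_add_distrib, map_sum, Finset.sum_const, Finset.card_univ]
  rw [h1] at h2
  show Fintype.card G • c g = A.ρ g (-∑ h : G, c h) - -∑ h : G, c h
  rw [map_neg]
  have h3 : Fintype.card G • c g = ∑ h : G, c h - A.ρ g (∑ h : G, c h) := by
    rw [eq_sub_iff_add_eq, add_comm]; exact h2.symm
  rw [h3]; abel

/-- additive characters of a finite group with values in `ℤ` vanish -/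
theorem tn_hom_int_eq_zero [Finite G] (y : G → ℤ) (hy : ∀ a b : G, y (a * b) = y a + y b) (a : G) :
    y a = 0 := by
  have h1 : y 1 = 0 := by
    have := hy 1 1
    rw [one_mul] at this
    linarith
  have hpow : ∀ n : ℕ, y (a ^ n) = n * y a := by
    intro n
    induction n with
    | zero => simp [h1]
    | succ n ih => rw [pow_succ, hy, ih]; push_cast; ring
  have h2 := hpow (Nat.card G)
  rw [pow_card_eq_one', h1] at h2
  have h3 : (Nat.card G : ℤ) ≠ 0 := by exact_mod_cast Nat.card_pos.ne'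
  rcases mul_eq_zero.1 h2.symm with h | h
  · exact absurd h h3
  · exact h

end general


section
variable {k G : Type} [CommRing k] [Group G] [Fintype G]

theorem tn_isZero_funRep (H : Subgroup G) (n : ℕ) :
    Limits.IsZero (groupCohomology (tt_res H (Rep.of (fg_funRep k G k))) (n + 1)) := by
  have : Fintype H := Fintype.ofFinite H
  have h := fg_isZero_tate_res_coind₁ H (Rep.trivial k G k) ((n + 1 : ℕ) : ℤ)
  exact h.of_iso ((TateCohomology.isoGroupCohomology (n + 1)).app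
    (tt_res H (Rep.of (fg_funRep k G k)))).symm

theorem tn_hF1 (H : Subgroup G) (c : H → (G → k))
    (hc : ∀ a b : H, c (a * b) = fg_funRep k G k (a : G) (c b) + c a) :
    ∃ x : G → k, ∀ a : H, c a = fg_funRep k G k (a : G) x - x := by
  obtain ⟨x, hx⟩ := te_H1_explicit (tt_res H (Rep.of (fg_funRep k G k))) (tn_isZero_funRep H 0) c hc
  exact ⟨x, fun a => congrFun hx a⟩

theorem tn_hF2 (H : Subgroup G) (z : H × H → (G → k))
    (hz : ∀ a b c : H, z (a * b, c) + z (a, b) = fg_funRep k G k (a : G) (z (b, c)) + z (a, b * c)) :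
    ∃ y : H → (G → k), ∀ a b : H, z (a, b) = fg_funRep k G k (a : G) (y b) - y (a * b) + y a := by
  obtain ⟨y, hy⟩ := te_H2_explicit (tt_res H (Rep.of (fg_funRep k G k))) (tn_isZero_funRep H 1) z hz
  exact ⟨y, fun a b => congrFun hy (a, b)⟩

end

section layer

variable {Γ : Type} [Group Γ] [Fintype Γ] {p : ℕ} [Fact p.Prime] {C : Rep.{0} ℤ Γ}
  (P : PClassModule p C)

omit [Fintype Γ] [Fact p.Prime] in
theorem tn_isZ2_res (H : Subgroup Γ) {σ : Γ × Γ → C.V} (hσ : te_IsZ2 C σ) :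
    te_IsZ2 (tt_res H C) (fun q : H × H => σ ((q.1 : Γ), (q.2 : Γ))) :=
  fun a b c => hσ a b c

omit [Fintype Γ] [Fact p.Prime] in
theorem tn_res_cl2 (H : Subgroup Γ) (σ : Γ × Γ → C.V) (hσ : te_IsZ2 C σ) :
    (tt_resMap H C 2).hom (te_cl2 C σ hσ) =
      te_cl2 (tt_res H C) (fun q : H × H => σ ((q.1 : Γ), (q.2 : Γ))) (tn_isZ2_res H hσ) :=
  te_map_cl2 H.subtype (𝟙 _) hσ

theorem tn_order_res (H : Subgroup Γ) (b : ℕ) (hH : Nat.card H = p ^ b)
    (u : groupCohomology C 2) (hu : tt_IsPPrimary p u)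
    (hord : addOrderOf (P.invTop u) = ordProj[p] (Nat.card Γ)) :
    addOrderOf (P.inv H ((tt_resMap H C 2).hom u)) = Nat.card H := by
  rw [P.inv_resMap H u hu, hH]
  apply tn_addOrderOf_index_smul Fact.out b H.index Subgroup.index_ne_zero_of_finite
  rw [hord, ← hH, H.card_mul_index]

omit [Fintype Γ] [Fact p.Prime] in
theorem tn_isPPrimary_layer [Finite Γ] (H : Subgroup Γ) (b : ℕ) (hH : Nat.card H = p ^ b)
    (x : groupCohomology (tt_res H C) 2) : tt_IsPPrimary p x :=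
  ⟨b, by rw [← hH]; exact h2_card_smul_eq_zero (tt_res H C) x⟩

theorem tn_gen (H : Subgroup Γ) (b : ℕ) (hH : Nat.card H = p ^ b) (σ : Γ × Γ → C.V)
    (hσ : te_IsZ2 C σ) (hu : tt_IsPPrimary p (te_cl2 C σ hσ))
    (hord : addOrderOf (P.invTop (te_cl2 C σ hσ)) = ordProj[p] (Nat.card Γ))
    (ζ : H × H → C.V) (hζ : te_IsZ2 (tt_res H C) ζ) :
    ∃ (n : ℤ) (γ : H → C.V),
      ζ - n • (fun q : H × H => σ ((q.1 : Γ), (q.2 : Γ))) = te_d1 (tt_res H C) γ := by
  have hσH := tn_isZ2_res H hσ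
  have hw := tn_order_res P H b hH _ hu hord
  rw [tn_res_cl2] at hw
  have hx : Nat.card H • P.inv H (te_cl2 (tt_res H C) ζ hζ) = 0 := by
    rw [← map_nsmul, h2_card_smul_eq_zero (tt_res H C), map_zero]
  obtain ⟨n, hn⟩ := tn_QZ_zmultiple Nat.card_pos _ _ hw hx
  have h0 : te_cl2 (tt_res H C) ζ hζ - n • te_cl2 (tt_res H C) _ hσH = 0 := by
    apply P.inv_inj H _ (tn_isPPrimary_layer H b hH _)
    rw [map_sub, map_zsmul, hn, sub_self]
  rw [← tn_cl2_sub_zsmul, te_cl2_eq_zero_iff] at h0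
  obtain ⟨γ, hγ⟩ := h0
  exact ⟨n, γ, hγ⟩

theorem tn_ord (H : Subgroup Γ) (b : ℕ) (hH : Nat.card H = p ^ b) (σ : Γ × Γ → C.V)
    (hσ : te_IsZ2 C σ) (hu : tt_IsPPrimary p (te_cl2 C σ hσ))
    (hord : addOrderOf (P.invTop (te_cl2 C σ hσ)) = ordProj[p] (Nat.card Γ))
    (n : ℤ) (γ : H → C.V)
    (h : n • (fun q : H × H => σ ((q.1 : Γ), (q.2 : Γ))) = te_d1 (tt_res H C) γ) :
    (Nat.card H : ℤ) ∣ n := by
  have hσH := tn_isZ2_res H hσ
  have hw := tn_order_res P H b hH _ hu hord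
  rw [tn_res_cl2] at hw
  have h0 : n • te_cl2 (tt_res H C) _ hσH = 0 := by
    rw [← tn_cl2_zsmul, te_cl2_eq_zero_iff]
    exact ⟨γ, h⟩
  have h1 := congrArg (P.inv H) h0
  rw [map_zsmul, map_zero] at h1
  rw [← hw]
  exact addOrderOf_dvd_iff_zsmul_eq_zero.2 h1

omit [Fintype Γ] [Fact p.Prime] in
include P in
theorem tn_H1 [Finite Γ] (H : Subgroup Γ) (b : ℕ) (hH : Nat.card H = p ^ b) (c : H → C.V)
    (hc : te_IsZ1 (tt_res H C) c) : ∃ m : C.V, c = te_d0 (tt_res H C) m := by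
  have : Fintype H := Fintype.ofFinite H
  rw [← te_cl1_eq_zero_iff (tt_res H C) c hc]
  have h1 := tn_card_smul_cl1 (tt_res H C) c hc
  rw [← Nat.card_eq_fintype_card, hH] at h1
  clear hH
  generalize te_cl1 (tt_res H C) c hc = x at h1
  induction b with
  | zero => simpa using h1
  | succ b ih =>
    apply ih
    apply P.h1 H
    rw [← mul_smul, ← pow_succ']
    exact h1

/-- **Tate's theorem for the splitting module**: `H¹` and `H²` of every `p`-subgroup vanish on
`C(σ)` when `σ` represents a fundamental class. -/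
theorem tn_split_isZero (σ : cocycles₂ C) (hu : tt_IsPPrimary p (H2π C σ))
    (hord : addOrderOf (P.invTop (H2π C σ)) = ordProj[p] (Nat.card Γ))
    (H : Subgroup Γ) (hH : IsPGroup p H) :
    Limits.IsZero (groupCohomology (Rep.res H.subtype (sp_split C σ)) 1) ∧
      Limits.IsZero (groupCohomology (Rep.res H.subtype (sp_split C σ)) 2) := by
  classical
  obtain ⟨b, hb⟩ := IsPGroup.iff_card.1 hH
  have hσ : te_IsZ2 C σ.1 := (te_isZ2_iff C σ.1).mpr σ.2
  have : Fintype H := Fintype.ofFinite H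
  constructor
  · apply te_isZero_H1_of_explicit
    intro c hc
    obtain ⟨m, hm⟩ := sp_H1_vanish H C σ (tn_hF1 H)
      (fun c hc => by
        obtain ⟨m, hm⟩ := tn_H1 P H b hb c hc
        exact ⟨m, fun a => congrFun hm a⟩)
      (fun n ⟨y, hy⟩ => by
        obtain ⟨n', hn'⟩ := tn_ord P H b hb σ.1 hσ hu hord n y (by
          funext q
          rw [Pi.smul_apply, ← int_smul_eq_zsmul C.hV2]
          exact hy q.1 q.2)
        refine ⟨n', ?_⟩
        rw [hn', Nat.card_eq_fintype_card])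
      c hc
    exact ⟨m, funext hm⟩
  · apply te_isZero_H2_of_explicit
    intro z hz
    obtain ⟨w, hw⟩ := sp_H2_vanish H C σ (fun y hy a => tn_hom_int_eq_zero y hy a) (tn_hF2 H)
      (fun ζ hζ => by
        obtain ⟨n, γ, hnγ⟩ := tn_gen P H b hb σ.1 hσ hu hord ζ hζ
        refine ⟨n, γ, fun a b => ?_⟩
        have := congrFun hnγ (a, b)
        rw [Pi.sub_apply, Pi.smul_apply, sub_eq_iff_eq_add, ← int_smul_eq_zsmul C.hV2] at this
        rw [this, add_comm]
        rfl)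
      z hz
    exact ⟨w, funext fun q => hw q.1 q.2⟩

end layer

end Fermat.Agent.S55
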