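import Fermat.Agent.S55.Tate.E1Abstract
import Fermat.Agent.S55.Tate.Reciprocity

/-!
# S55 / G5 (G-abs), leaf T5: [UNR-core] in character form

`Tate/E1Abstract.lean` proves [UNR-core] in `H²(·, ℤ)`-language.  Here it is translated to
characters `χ : Additive ↥G →+ ℚ/ℤ` with helper12's `rcp_delta` / `rcp_pair`
(`Tate/Reciprocity.lean`): the hypothesis is orthogonality for `rcp_pair (P.restrict G)`, the
local input (L-unr) is taken in helper24's character form (`lu_unr_char` / `ilu_unr_char`), and the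
conclusion is `χ (g d g⁻¹) = 0` for `d` in the local inertia group with `g d g⁻¹ ∈ G` — the
hypothesis `hunr` of helper29's `e1d_dual_gen` (`Tate/E1Dual.lean`).
-/

set_option autoImplicit false

namespace Fermat.Agent.S55

open CategoryTheory groupCohomology

section char

/-- `e1_mapZ` on `δχ` is `δ (χ ∘ f)`. -/
theorem e1_mapZ_delta {E G : Type} [Group E] [Group G] (f : E →* G) (χ : Additive G →+ tt_QZ) :
    (e1_mapZ f).hom (rcp_delta χ) = rcp_delta (χ.comp (MonoidHom.toAdditive f)) :=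
  rcp_delta_map f χ

theorem e1_isPPrimary_comp {E G : Type} [Group E] [Group G] (f : E →* G) {p : ℕ}
    {χ : Additive G →+ tt_QZ} (hχ : tt_IsPPrimary p χ) :
    tt_IsPPrimary p (χ.comp (MonoidHom.toAdditive f)) := by
  obtain ⟨k, hk⟩ := hχ
  refine ⟨k, AddMonoidHom.ext fun x => ?_⟩
  have := congrArg (fun ψ : Additive G →+ tt_QZ => ψ (MonoidHom.toAdditive f x)) hk
  simpa using this

variable {Γ : Type} [Group Γ] [Finite Γ] {p : ℕ} [Fact p.Prime] {J C : Rep.{0} ℤ Γ}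

/-- the pairing `e1_pair` with `δχ` is helper12's reciprocity pairing of the layer. -/
theorem e1_pair_delta (P : PClassModule p C) (H : Subgroup Γ) (c : ↥(rcp_inv (tt_res H C)))
    (χ : Additive ↥H →+ tt_QZ) :
    e1_pair P H c.1 c.2 (rcp_delta χ) = rcp_pair (P.restrict H) c χ := by
  rw [rcp_pair_restrict]
  rfl

variable (π : J ⟶ C) (P : PClassModule p C) {Q : Type} (𝔻 : rc_InvData p J Q)
  (hfin : rc_FinSupp 𝔻)

/-- **[UNR-core], character form.**  A `p`-primary character `χ` of the layer `G` which is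
orthogonal to the classes of all `G`-invariant ideles supported over `q` with components in the
`D q`-stable subgroup `U ≤ X q` kills every `g d g⁻¹ ∈ G` with `d ∈ I ≤ D q`, provided (L-unr)
holds for the local class module `P q` on every layer of `D q`. -/
theorem e1_unr_char (hcoind : hs_IsCoindSum 𝔻) (G : Subgroup Γ)
    (hINV : ∀ w : groupCohomology (tt_res G J) 2, tt_IsPPrimary p w →
      P.inv G ((tt_coeffMap ((Rep.resFunctor G.subtype).map π) 2).hom w) = rc_INV 𝔻 hfin G w)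
    (q : Q) (U : AddSubgroup (𝔻.X q).V)
    (hU : ∀ (d : ↥(𝔻.D q)) (v : (𝔻.X q).V), v ∈ U → (𝔻.X q).ρ d v ∈ U)
    (I : Subgroup ↥(𝔻.D q))
    (hLunr : ∀ (E : Subgroup ↥(𝔻.D q)) (χ' : Additive ↥E →+ tt_QZ), tt_IsPPrimary p χ' →
      (∀ c : ↥(rcp_inv (tt_res E (𝔻.X q))), (c : (𝔻.X q).V) ∈ U →
        rcp_pair ((𝔻.P q).restrict E) c χ' = 0) →
      ∀ j : ↥E, (j : ↥(𝔻.D q)) ∈ I → χ' (Additive.ofMul j) = 0)
    (χ : Additive ↥G →+ tt_QZ) (hχ : tt_IsPPrimary p χ)
    (h : ∀ (x : J.V) (hx : ∀ s : ↥G, (tt_res G J).ρ s x = x),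
      (∀ k : Γ, (𝔻.pr q).hom (J.ρ k x) ∈ U) →
      (∀ (q' : Q) (k : Γ), q' ≠ q → (𝔻.pr q').hom (J.ρ k x) = 0) →
      rcp_pair (P.restrict G) ⟨π.hom x, e1_map_invariant π G x hx⟩ χ = 0)
    (g : Γ) (d : ↥(𝔻.D q)) (hd : d ∈ I) (hgd : g * (d : Γ) * g⁻¹ ∈ G) :
    χ (Additive.ofMul (⟨g * (d : Γ) * g⁻¹, hgd⟩ : ↥G)) = 0 := by
  classical
  have : Fintype ↥G := Fintype.ofFinite _
  have hy : tt_IsPPrimary p (rcp_delta χ) := (rcp_pPrimary_delta_iff χ).2 hχ
  set E := (rc_conj g G).subgroupOf (𝔻.D q) with hE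
  set χ' : Additive ↥E →+ tt_QZ :=
    χ.comp (MonoidHom.toAdditive (e1_cjLocHom (𝔻.D q) G g)) with hχ'
  have hloc : ∀ c : ↥(rcp_inv (tt_res E (𝔻.X q))), (c : (𝔻.X q).V) ∈ U →
      rcp_pair ((𝔻.P q).restrict E) c χ' = 0 := by
    intro c hcU
    rw [← e1_pair_delta, hχ', ← e1_mapZ_delta]
    exact e1_unr_local π P 𝔻 hfin hcoind G hINV q g U hU (rcp_delta χ) hy
      (fun x hx h1 h2 => by
        rw [e1_pair_delta P G ⟨π.hom x, e1_map_invariant π G x hx⟩ χ]
        exact h x hx h1 h2) c.1 hcU c.2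
  have hdE : d ∈ E := by
    rw [hE, Subgroup.mem_subgroupOf, rc_mem_conj]
    exact hgd
  have := hLunr E χ' (e1_isPPrimary_comp _ hχ) hloc ⟨d, hdE⟩ hd
  exact this

end char

end Fermat.Agent.S55
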