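import Fermat.Agent.S55.FinGrp.CohTrivial
import Fermat.Agent.S55.Tate.Hom
import Fermat.Agent.S55.Tate.LowDegree

/-!
# The explicit double dimension shift of a lattice (S55, block A, leaf A5-Y, assembly half)

For a finite group `G`, `Z C : Rep ℤ G` with `Z` a lattice, we put `Y := Z⁺⁺ = fg_up (fg_up Z)` and
construct

* `dsh_D Z : Y^G → H²(G, Z)` (`δ ∘ δ` of the two sequences `fg_upSC`), surjective, killing norms;
* `dsh_D' Z C : Hom_G(Z, C) → H²(G, Hom(Y, C))` (`δ ∘ δ` of the two Hom-sequences), surjective,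
  with kernel contained in the norms.

The adjointness `φ_*(D y) = - (ev_y)_*(D' φ)` is proved in a later section from the generic
Yoneda identities.
-/

set_option autoImplicit false
set_option linter.style.haveILetI false

namespace Fermat.Agent.S55

open CategoryTheory groupCohomology

noncomputable section

/-- finite powers of lattices are lattices -/
theorem dsh_lattice_pi {ι : Type} [Finite ι] {M : Type} [AddCommGroup M]
    (h : ∃ n : ℕ, Nonempty (M ≃+ (Fin n → ℤ))) :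
    ∃ m : ℕ, Nonempty ((ι → M) ≃+ (Fin m → ℤ)) := by
  classical
  obtain ⟨n, ⟨e⟩⟩ := h
  haveI := Fintype.ofFinite ι
  let e1 : (ι → M) ≃+ (ι → Fin n → ℤ) := AddEquiv.piCongrRight fun _ => e
  let e2 : (ι → Fin n → ℤ) ≃+ (ι × Fin n → ℤ) := (LinearEquiv.curry ℤ ℤ ι (Fin n)).symm.toAddEquiv
  let e3 : (ι × Fin n → ℤ) ≃+ (Fin (Fintype.card (ι × Fin n)) → ℤ) :=
    (LinearEquiv.funCongrLeft ℤ ℤ (Fintype.equivFin (ι × Fin n)).symm).toAddEquiv
  exact ⟨_, ⟨(e1.trans e2).trans e3⟩⟩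

section general

variable {k G : Type} [CommRing k] [Group G]

/-! ### elementwise exactness -/

/-- elementwise exactness of a short exact sequence of representations -/
theorem dsh_exact_apply {T : ShortComplex (Rep.{0} k G)} (hT : T.ShortExact) (y : T.X₂.V)
    (hy : T.g.hom y = 0) : ∃ x : T.X₁.V, T.f.hom x = y := by
  have := (hT.exact.map (forget₂ (Rep k G) (ModuleCat k)))
  rw [ShortComplex.moduleCat_exact_iff] at this
  exact this y hy

theorem dsh_zero_apply (T : ShortComplex (Rep.{0} k G)) (x : T.X₁.V) :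
    T.g.hom (T.f.hom x) = 0 :=
  congrArg (fun f => f.hom x) T.zero

theorem dsh_upπ_surjective (A : Rep.{0} k G) : Function.Surjective (fg_upπ A).hom :=
  (Rep.epi_iff_surjective (fg_upπ A)).1 inferInstance

theorem dsh_upπ_ι (A : Rep.{0} k G) (a : A.V) : (fg_upπ A).hom ((fg_ι A).hom a) = 0 :=
  dsh_zero_apply (fg_upSC A) a

theorem dsh_upπ_eq_zero_iff (A : Rep.{0} k G) (φ : G → A.V) :
    (fg_upπ A).hom φ = 0 ↔ ∃ a : A.V, (fg_ι A).hom a = φ :=
  ⟨fun h => dsh_exact_apply (fg_upSC_shortExact A) φ h, by rintro ⟨a, rfl⟩; exact dsh_upπ_ι A a⟩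

/-! ### `fg_up` of a lattice is a lattice -/

/-- functions `G → A` vanishing at `1`, a complement of `fg_ι A` -/
def dsh_K (A : Rep.{0} k G) : AddSubgroup (G → A.V) :=
  (Pi.evalAddMonoidHom (fun _ : G => A.V) 1).ker

theorem dsh_mem_K {A : Rep.{0} k G} {φ : G → A.V} : φ ∈ dsh_K A ↔ φ 1 = 0 := Iff.rfl

/-- the projection `Fun(G, A) → A⁺` restricted to `dsh_K` -/
def dsh_Kπ (A : Rep.{0} k G) : dsh_K A →+ (fg_up A).V :=
  ((fg_upπ A).hom.toLinearMap.toAddMonoidHom).comp (dsh_K A).subtype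

theorem dsh_Kπ_apply (A : Rep.{0} k G) (φ : dsh_K A) : dsh_Kπ A φ = (fg_upπ A).hom φ.1 := rfl

theorem dsh_Kπ_bijective (A : Rep.{0} k G) : Function.Bijective (dsh_Kπ A) := by
  constructor
  · rw [injective_iff_map_eq_zero]
    intro φ hφ
    rw [dsh_Kπ_apply, dsh_upπ_eq_zero_iff] at hφ
    obtain ⟨a, ha⟩ := hφ
    have h1 : φ.1 1 = 0 := φ.2
    rw [← ha, fg_ι_apply, map_one] at h1
    have h2 : a = 0 := h1
    apply Subtype.ext
    rw [← ha, h2, map_zero]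
    rfl
  · intro y
    obtain ⟨φ, rfl⟩ := dsh_upπ_surjective A y
    refine ⟨⟨φ - (fg_ι A).hom (φ 1), ?_⟩, ?_⟩
    · rw [dsh_mem_K]
      show φ 1 - (fg_ι A).hom (φ 1) 1 = 0
      rw [fg_ι_apply, map_one]
      exact sub_self _
    · rw [dsh_Kπ_apply]
      show (fg_upπ A).hom (φ - (fg_ι A).hom (φ 1)) = _
      rw [map_sub, dsh_upπ_ι, sub_zero]

/-- `dsh_K A` is the group of functions on `G ∖ {1}` -/
def dsh_Kequiv (A : Rep.{0} k G) : dsh_K A ≃+ ({g : G // g ≠ 1} → A.V) := by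
  classical
  exact
  { toFun := fun φ g => φ.1 g.1
    invFun := fun ψ => ⟨fun g => if h : g = 1 then 0 else ψ ⟨g, h⟩, by
      rw [dsh_mem_K]; simp⟩
    left_inv := fun φ => by
      apply Subtype.ext
      funext g
      by_cases h : g = 1
      · subst h
        simpa using φ.2.symm
      · simp [h]
    right_inv := fun ψ => by
      funext g
      simp [g.2]
    map_add' := fun _ _ => rfl }

/-! ### the Hom-sequence of a split short exact sequence -/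

/-- the contravariant Hom-sequence `Hom(X₃, C) → Hom(X₂, C) → Hom(X₁, C)` -/
def dsh_homSC (S : ShortComplex (Rep.{0} k G)) (C : Rep.{0} k G) : ShortComplex (Rep.{0} k G) :=
  ShortComplex.mk (tt_homPre S.g C) (tt_homPre S.f C) (by
    ext F x
    show F (S.g.hom (S.f.hom x)) = 0
    rw [dsh_zero_apply, map_zero])

/-- the Hom-sequence of a `k`-split short exact sequence is short exact -/
theorem dsh_homSC_shortExact {S : ShortComplex (Rep.{0} k G)} (hS : S.ShortExact)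
    (C : Rep.{0} k G) (r : S.X₂.V →ₗ[k] S.X₁.V) (hr : ∀ x, r (S.f.hom x) = x) :
    (dsh_homSC S C).ShortExact := by
  have hg : Function.Surjective S.g.hom := by
    haveI := hS.epi_g
    exact (Rep.epi_iff_surjective S.g).1 inferInstance
  refine ShortComplex.ShortExact.mk' ?_ ?_ ?_
  · rw [← ShortComplex.exact_map_iff_of_faithful _ (forget₂ (Rep k G) (ModuleCat k)),
      ShortComplex.moduleCat_exact_iff]
    intro F hF
    change S.X₂.V →ₗ[k] C.V at F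
    have hF' : ∀ x, F (S.f.hom x) = 0 := fun x => LinearMap.congr_fun hF x
    have hker : LinearMap.ker S.g.hom.toLinearMap ≤ LinearMap.ker F := by
      intro y hy
      obtain ⟨x, rfl⟩ := dsh_exact_apply hS y hy
      exact hF' x
    refine ⟨((LinearMap.ker S.g.hom.toLinearMap).liftQ F hker) ∘ₗ
      (S.g.hom.toLinearMap.quotKerEquivOfSurjective hg).symm.toLinearMap, ?_⟩
    apply LinearMap.ext
    intro y
    show ((LinearMap.ker S.g.hom.toLinearMap).liftQ F hker)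
      ((S.g.hom.toLinearMap.quotKerEquivOfSurjective hg).symm (S.g.hom y)) = F y
    have : (S.g.hom.toLinearMap.quotKerEquivOfSurjective hg).symm (S.g.hom y) =
        Submodule.Quotient.mk y := by
      rw [LinearEquiv.symm_apply_eq]
      rfl
    rw [this]
    rfl
  · rw [Rep.mono_iff_injective]
    intro F F' h
    change S.X₃.V →ₗ[k] C.V at F F'
    apply LinearMap.ext
    intro z
    obtain ⟨y, rfl⟩ := hg z
    exact LinearMap.congr_fun h y
  · rw [Rep.epi_iff_surjective]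
    intro F
    change S.X₁.V →ₗ[k] C.V at F
    refine ⟨F ∘ₗ r, ?_⟩
    apply LinearMap.ext
    intro x
    show F (r (S.f.hom x)) = F x
    rw [hr]

/-- evaluation at `1`, a `k`-linear retraction of `fg_ι` -/
def dsh_ev1 (A : Rep.{0} k G) : (G → A.V) →ₗ[k] A.V := LinearMap.proj 1

theorem dsh_ev1_ι (A : Rep.{0} k G) (a : A.V) : dsh_ev1 A ((fg_ι A).hom a) = a := by
  show (fg_ι A).hom a 1 = a
  rw [fg_ι_apply, map_one]
  rfl

theorem dsh_homSC_up_shortExact (A C : Rep.{0} k G) : (dsh_homSC (fg_upSC A) C).ShortExact :=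
  dsh_homSC_shortExact (fg_upSC_shortExact A) C (dsh_ev1 A) (dsh_ev1_ι A)

/-- an equivariant map as an invariant of the internal Hom -/
def dsh_ofHom (Z C : Rep.{0} k G) : (Z ⟶ C) →ₗ[k] (tt_hom Z C).ρ.invariants where
  toFun φ := ⟨φ.hom.toLinearMap, fun g => by
    apply LinearMap.ext
    intro z
    show C.ρ g (φ.hom (Z.ρ g⁻¹ z)) = φ.hom z
    rw [← Rep.hom_comm_apply, ← Module.End.mul_apply, ← map_mul, mul_inv_cancel, map_one]
    rfl⟩
  map_add' _ _ := rfl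
  map_smul' _ _ := rfl

theorem dsh_ofHom_coe (Z C : Rep.{0} k G) (φ : Z ⟶ C) :
    ((dsh_ofHom Z C φ : (tt_hom Z C).ρ.invariants) : Z.V →ₗ[k] C.V) = φ.hom.toLinearMap := rfl

theorem dsh_ofHom_surjective (Z C : Rep.{0} k G) : Function.Surjective (dsh_ofHom Z C) := by
  intro F
  refine ⟨Rep.ofHom ⟨F.1, fun g => ?_⟩, Subtype.ext rfl⟩
  apply LinearMap.ext
  intro z
  have h := LinearMap.congr_fun (F.2 g) (Z.ρ g z)
  rw [tt_hom_ρ_apply, ← Module.End.mul_apply, ← map_mul, inv_mul_cancel, map_one] at h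
  exact h.symm

/-! ### the kernel of `δ⁰` -/

/-- kernel of `δ⁰`: an invariant of `X₃` killed by `δ` lifts to an invariant of `X₂`. -/
theorem dsh_exists_invariant_lift {T : ShortComplex (Rep.{0} k G)} (hT : T.ShortExact)
    (z : T.X₃.ρ.invariants) (h : δ hT 0 1 rfl ((H0Iso T.X₃).inv z) = 0) :
    ∃ y : T.X₂.V, (∀ g, T.X₂.ρ g y = y) ∧ T.g.hom y = z := by
  haveI := hT.epi_g
  obtain ⟨y0, hy0⟩ := (Rep.epi_iff_surjective T.g).1 inferInstance z.1
  have hx : ∀ g : G, ∃ x : T.X₁.V, T.f.hom x = T.X₂.ρ g y0 - y0 := by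
    intro g
    apply dsh_exact_apply hT
    rw [map_sub, Rep.hom_comm_apply, hy0, z.2 g, sub_self]
  choose x hx using hx
  have hxd : T.f.hom ∘ x = d₀₁ T.X₂ y0 := by
    funext g
    rw [Function.comp_apply, hx g, d₀₁_hom_apply]
  have h1 := δ₀_apply hT z y0 hy0 x hxd
  rw [h] at h1
  have h2 := (H1π_eq_zero_iff _).1 h1.symm
  obtain ⟨a, ha⟩ := h2
  refine ⟨y0 - T.f.hom a, fun g => ?_, ?_⟩
  · have h3 : x g = T.X₁.ρ g a - a := by
      have := congrFun ha g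
      rw [d₀₁_hom_apply] at this
      exact this.symm
    have h4 := hx g
    rw [h3, map_sub, Rep.hom_comm_apply] at h4
    rw [map_sub, sub_eq_sub_iff_sub_eq_sub]
    exact h4.symm
  · rw [map_sub, hy0, dsh_zero_apply, sub_zero]

/-! ### `D` -/

/-- the double dimension shift `Z⁺⁺` -/
abbrev dsh_Y (Z : Rep.{0} k G) : Rep.{0} k G := fg_up (fg_up Z)

/-- `D = δ ∘ δ : H⁰(Z⁺⁺) → H²(Z)` on invariants -/
def dsh_D (Z : Rep.{0} k G) : (dsh_Y Z).ρ.invariants →ₗ[k] groupCohomology Z 2 :=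
  (δ (fg_upSC_shortExact Z) 1 2 rfl).hom ∘ₗ (δ (fg_upSC_shortExact (fg_up Z)) 0 1 rfl).hom ∘ₗ
    (H0Iso (dsh_Y Z)).inv.hom

theorem dsh_D_surjective (Z : Rep.{0} k G) : Function.Surjective (dsh_D Z) := by
  have h1 : Epi (δ (fg_upSC_shortExact Z) 1 2 rfl) :=
    epi_δ_of_isZero _ 1 (fg_isZero_groupCohomology_coind₁ Z 1)
  have h0 : Epi (δ (fg_upSC_shortExact (fg_up Z)) 0 1 rfl) :=
    epi_δ_of_isZero _ 0 (fg_isZero_groupCohomology_coind₁ (fg_up Z) 0)
  rw [ModuleCat.epi_iff_surjective] at h1 h0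
  have h2 : Function.Surjective (H0Iso (dsh_Y Z)).inv.hom := by
    have : Epi (H0Iso (dsh_Y Z)).inv := inferInstance
    rwa [ModuleCat.epi_iff_surjective] at this
  exact h1.comp (h0.comp h2)

/-- `D' = δ ∘ δ : Hom_G(Z, C) → H²(Hom(Z⁺⁺, C))` -/
def dsh_D' (Z C : Rep.{0} k G) : (Z ⟶ C) →ₗ[k] groupCohomology (tt_hom (dsh_Y Z) C) 2 :=
  (δ (dsh_homSC_up_shortExact (fg_up Z) C) 1 2 rfl).hom ∘ₗ
    (δ (dsh_homSC_up_shortExact Z C) 0 1 rfl).hom ∘ₗ (H0Iso (tt_hom Z C)).inv.hom ∘ₗ dsh_ofHom Z C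

end general

/-- `fg_up` of a lattice is a lattice -/
theorem dsh_lattice_up {G : Type} [Group G] [Finite G] (Z : Rep.{0} ℤ G) (hZ : tt_IsLattice Z) :
    tt_IsLattice (fg_up Z) := by
  obtain ⟨m, ⟨e⟩⟩ := dsh_lattice_pi (ι := {g : G // g ≠ 1}) hZ
  exact ⟨m, ⟨((AddEquiv.ofBijective (dsh_Kπ Z) (dsh_Kπ_bijective Z)).symm.trans
    (dsh_Kequiv Z)).trans e⟩⟩

section finite

variable {k G : Type} [CommRing k] [Group G] [Fintype G]

theorem dsh_D_norm (Z : Rep.{0} k G) (y : (dsh_Y Z).V) :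
    dsh_D Z ⟨(dsh_Y Z).ρ.norm y, fun g => Representation.self_norm_apply _ g y⟩ = 0 := by
  obtain ⟨b, hb⟩ := dsh_upπ_surjective (fg_up Z) y
  have hy : (fg_upSC (fg_up Z)).g.hom ((fg_coind₁ (fg_up Z)).ρ.norm b) = (dsh_Y Z).ρ.norm y := by
    show (fg_upπ (fg_up Z)).hom ((fg_coind₁ (fg_up Z)).ρ.norm b) = (dsh_Y Z).ρ.norm y
    rw [Representation.norm, Representation.norm, LinearMap.sum_apply, LinearMap.sum_apply,
      map_sum]
    refine Finset.sum_congr rfl fun g _ => ?_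
    rw [Rep.hom_comm_apply, hb]
  have hx : (fg_ι (fg_up Z)).hom ∘ (0 : G → (fg_up Z).V) =
      d₀₁ (fg_coind₁ (fg_up Z)) ((fg_coind₁ (fg_up Z)).ρ.norm b) := by
    funext g
    rw [Function.comp_apply, Pi.zero_apply, map_zero, d₀₁_hom_apply,
      Representation.self_norm_apply, sub_self]
  have h1 := δ₀_apply (fg_upSC_shortExact (fg_up Z))
    ⟨(dsh_Y Z).ρ.norm y, fun g => Representation.self_norm_apply _ g y⟩ _ hy 0 hx
  show (δ (fg_upSC_shortExact Z) 1 2 rfl).hom ((δ (fg_upSC_shortExact (fg_up Z)) 0 1 rfl).hom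
    ((H0Iso (dsh_Y Z)).inv.hom _)) = 0
  have h2 : (δ (fg_upSC_shortExact (fg_up Z)) 0 1 rfl).hom ((H0Iso (dsh_Y Z)).inv.hom
      ⟨(dsh_Y Z).ρ.norm y, fun g => Representation.self_norm_apply _ g y⟩) = 0 := by
    refine h1.trans ?_
    have : (⟨0, mem_cocycles₁_of_comp_eq_d₀₁ (fg_upSC_shortExact (fg_up Z)) hx⟩ :
        cocycles₁ (fg_upSC (fg_up Z)).X₁) = 0 := rfl
    rw [this]
    exact map_zero _
  rw [h2]
  exact map_zero _

/-! ### acyclicity of `Hom(Fun(G, X), C)` -/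

/-- the `G`-trace of `fg_cut {1}` is the identity of `Fun(G, V)` -/
theorem dsh_trace_coind₁ (X : Rep.{0} k G) (φ : G → X.V) :
    ∑ g : G, (fg_coind₁ X).ρ g (fg_cut k X.V {1} ((fg_coind₁ X).ρ g⁻¹ φ)) = φ := by
  classical
  funext x
  rw [Finset.sum_apply]
  rw [Finset.sum_eq_single (x⁻¹ : G)]
  · show fg_cut k X.V {1} (fg_funRep k G X.V (x⁻¹)⁻¹ φ) (x * x⁻¹) = φ x
    rw [fg_cut_apply, if_pos (by simp)]
    simp
  · intro g _ hne
    show fg_cut k X.V {1} (fg_funRep k G X.V g⁻¹ φ) (x * g) = 0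
    rw [fg_cut_apply, if_neg]
    intro hmem
    apply hne
    have : x * g = 1 := hmem
    exact eq_inv_of_mul_eq_one_right this
  · intro h; exact absurd (Finset.mem_univ _) h

/-- a trace-one endomorphism of `X` induces one on `Hom(X, C)` -/
theorem dsh_trace_hom (X C : Rep.{0} k G) (π : X.V →ₗ[k] X.V)
    (hπ : ∀ x, ∑ g : G, X.ρ g (π (X.ρ g⁻¹ x)) = x) (F : X.V →ₗ[k] C.V) :
    ∑ g : G, (tt_hom X C).ρ g (LinearMap.lcomp k C.V π ((tt_hom X C).ρ g⁻¹ F)) = F := by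
  apply LinearMap.ext
  intro x
  rw [LinearMap.sum_apply]
  conv_rhs => rw [← hπ x, map_sum]
  refine Finset.sum_congr rfl fun g _ => ?_
  show C.ρ g (C.ρ g⁻¹ (F (X.ρ g⁻¹⁻¹ (π (X.ρ g⁻¹ x))))) = _
  rw [inv_inv]
  rw [← Module.End.mul_apply, ← map_mul, mul_inv_cancel, map_one]
  rfl

theorem dsh_isZero_tate_hom_coind₁ (X C : Rep.{0} k G) (n : ℤ) :
    Limits.IsZero (tateCohomology (tt_hom (fg_coind₁ X) C) n) :=
  fg_isZero_tate_of_trace _ (LinearMap.lcomp k C.V (fg_cut k X.V {1}))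
    (dsh_trace_hom (fg_coind₁ X) C (fg_cut k X.V {1}) (dsh_trace_coind₁ X)) n

theorem dsh_isZero_H_hom_coind₁ (X C : Rep.{0} k G) (n : ℕ) :
    Limits.IsZero (groupCohomology (tt_hom (fg_coind₁ X) C) (n + 1)) :=
  (dsh_isZero_tate_hom_coind₁ X C ((n + 1 : ℕ) : ℤ)).of_iso
    ((TateCohomology.isoGroupCohomology (n + 1)).app (tt_hom (fg_coind₁ X) C)).symm

/-- an equivariant map out of `Fun(G, Z)` restricts along `fg_ι` to a norm -/
theorem dsh_norm_of_factor (Z C : Rep.{0} k G) (ψ' : (G → Z.V) →ₗ[k] C.V)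
    (hψ' : ∀ g, (tt_hom (fg_coind₁ Z) C).ρ g ψ' = ψ') :
    ∃ ψ : Z.V →ₗ[k] C.V, ∀ z, ψ' ((fg_ι Z).hom z) = ∑ g : G, C.ρ g (ψ (Z.ρ g⁻¹ z)) := by
  refine ⟨ψ' ∘ₗ fg_cut k Z.V {1} ∘ₗ (fg_ι Z).hom.toLinearMap, fun z => ?_⟩
  conv_lhs => rw [← dsh_trace_coind₁ Z ((fg_ι Z).hom z), map_sum]
  refine Finset.sum_congr rfl fun g _ => ?_
  have h1 : ψ' ((fg_coind₁ Z).ρ g (fg_cut k Z.V {1} ((fg_coind₁ Z).ρ g⁻¹ ((fg_ι Z).hom z)))) =
      C.ρ g (ψ' (fg_cut k Z.V {1} ((fg_coind₁ Z).ρ g⁻¹ ((fg_ι Z).hom z)))) := by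
    have h2 := LinearMap.congr_fun (hψ' g)
      ((fg_coind₁ Z).ρ g (fg_cut k Z.V {1} ((fg_coind₁ Z).ρ g⁻¹ ((fg_ι Z).hom z))))
    rw [tt_hom_ρ_apply, ← Module.End.mul_apply, ← map_mul, inv_mul_cancel, map_one] at h2
    exact h2.symm
  rw [h1, ← Rep.hom_comm_apply]
  rfl

/-! ### `D'` is surjective with kernel in the norms -/

theorem dsh_D'_surjective (Z C : Rep.{0} k G) : Function.Surjective (dsh_D' Z C) := by
  have h1 : Epi (δ (dsh_homSC_up_shortExact (fg_up Z) C) 1 2 rfl) :=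
    epi_δ_of_isZero _ 1 (dsh_isZero_H_hom_coind₁ (fg_up Z) C 1)
  have h0 : Epi (δ (dsh_homSC_up_shortExact Z C) 0 1 rfl) :=
    epi_δ_of_isZero _ 0 (dsh_isZero_H_hom_coind₁ Z C 0)
  rw [ModuleCat.epi_iff_surjective] at h1 h0
  have h2 : Function.Surjective (H0Iso (tt_hom Z C)).inv.hom := by
    have : Epi (H0Iso (tt_hom Z C)).inv := inferInstance
    rwa [ModuleCat.epi_iff_surjective] at this
  exact h1.comp (h0.comp (h2.comp (dsh_ofHom_surjective Z C)))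

theorem dsh_D'_eq_zero (Z C : Rep.{0} k G) (φ : Z ⟶ C) (h : dsh_D' Z C φ = 0) :
    ∃ ψ : Z.V →ₗ[k] C.V, ∀ z, φ.hom z = ∑ g : G, C.ρ g (ψ (Z.ρ g⁻¹ z)) := by
  have h1 : Mono (δ (dsh_homSC_up_shortExact (fg_up Z) C) 1 2 rfl) :=
    mono_δ_of_isZero _ 1 (dsh_isZero_H_hom_coind₁ (fg_up Z) C 0)
  rw [ModuleCat.mono_iff_injective] at h1
  have h2 : (δ (dsh_homSC_up_shortExact Z C) 0 1 rfl).hom
      ((H0Iso (tt_hom Z C)).inv.hom (dsh_ofHom Z C φ)) = 0 := by
    apply h1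
    exact h.trans (map_zero _).symm
  obtain ⟨ψ', hψ', hψ'φ⟩ := dsh_exists_invariant_lift (dsh_homSC_up_shortExact Z C)
    (dsh_ofHom Z C φ) h2
  change (G → Z.V) →ₗ[k] C.V at ψ'
  obtain ⟨ψ, hψ⟩ := dsh_norm_of_factor Z C ψ' hψ'
  refine ⟨ψ, fun z => ?_⟩
  rw [← hψ z]
  exact (LinearMap.congr_fun hψ'φ z).symm

end finite

end

end Fermat.Agent.S55
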