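import Fermat.Agent.S55.LocalCF.Unr
import Fermat.Agent.S55.Recip.HasseSum
import Fermat.Agent.S55.Recip.TotalInvInf
import Fermat.Agent.S55.Tate.ClassModuleRestrict

/-!
# S55 / G5 (G-abs), leaf T5: the abstract core of (E1') — [UNR-core]

Setting (abstract idele classes): `Γ` finite, `π : J ⟶ C` (ideles → idele classes),
`P : PClassModule p C`, local data `𝔻 : rc_InvData p J Q` such that `J` is the restricted sum of
the modules coinduced from the local modules (`hs_IsCoindSum 𝔻`), and the invariant of the layer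
`G ≤ Γ` is computed by the total invariant on idele classes lifted to ideles (`hINV`).

Language: `H²(G, ℤ)` instead of characters (`y : groupCohomology (Rep.trivial ℤ ↥G ℤ) 2`, to be
thought of as `δχ`), and the pairing of an invariant element `c ∈ C^G` with `y` is
`e1_pair P G c hc y = P.inv G ((lu_ev c)_* y)` (`= (P.restrict G).pairing (lu_ev _ c hc) y`,
helper24's `lu_unr` language; `= rcp_pair (P.restrict G) c hc χ` for `y = δχ`).

Main result `e1_unr_local` (**global orthogonality ⟹ local orthogonality**): if `y` is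
`p`-primary and pairs to zero with the classes of all `G`-invariant ideles `x` which are supported
at the places over one `q` with all components in a `D q`-stable subgroup `U ≤ X q` ("units"),
then for every `g : Γ` the conjugate-localised class `y^g ∈ H²(g⁻¹Gg ∩ D q, ℤ)`
(`e1_mapZ (e1_cjLocHom (D q) G g)`, i.e. `d ↦ χ (g d g⁻¹)`) pairs to zero, for the local class
module `P q` on the layer `g⁻¹Gg ∩ D q`, with all invariant elements of `U`.

Combined with (L-unr) for the local class modules (`lu_unr`, helper24) this gives: `y^g` dies on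
`g⁻¹Gg ∩ I_q` (`e1_unr_core`).
-/

set_option autoImplicit false

namespace Fermat.Agent.S55

open CategoryTheory groupCohomology

noncomputable section

/-! ### `H²(·, ℤ)` along group homomorphisms -/

section mapZ

/-- the identity of `ℤ` over a group homomorphism. -/
def e1_idZ {E G : Type} [Group E] [Group G] (f : E →* G) :
    Rep.res f (Rep.trivial ℤ G ℤ) ⟶ Rep.trivial ℤ E ℤ :=
  Rep.ofHom ⟨LinearMap.id, fun _ => rfl⟩

theorem e1_idZ_apply {E G : Type} [Group E] [Group G] (f : E →* G) (n : ℤ) :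
    (e1_idZ f).hom n = n := rfl

/-- `H²(G, ℤ) ⟶ H²(E, ℤ)` along `f : E →* G` (on characters: `χ ↦ χ ∘ f`). -/
def e1_mapZ {E G : Type} [Group E] [Group G] (f : E →* G) :
    groupCohomology (Rep.trivial ℤ G ℤ) 2 ⟶ groupCohomology (Rep.trivial ℤ E ℤ) 2 :=
  map f (e1_idZ f) 2

theorem e1_mapZ_comp {E F G : Type} [Group E] [Group F] [Group G] (f : F →* G) (f' : E →* F) :
    e1_mapZ f ≫ e1_mapZ f' = e1_mapZ (f.comp f') := by
  unfold e1_mapZ
  rw [← map_comp]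
  exact map_congr rfl rfl 2

theorem e1_mapZ_isPPrimary {E G : Type} [Group E] [Group G] (f : E →* G) {p : ℕ}
    {y : groupCohomology (Rep.trivial ℤ G ℤ) 2} (hy : tt_IsPPrimary p y) :
    tt_IsPPrimary p ((e1_mapZ f).hom y) :=
  tt_isPPrimary_map (e1_mapZ f).hom.toAddMonoidHom hy

end mapZ

/-! ### Evaluation morphisms -/

section ev

variable {Γ : Type} [Group Γ]

theorem e1_ev_eq_zero (A : Rep.{0} ℤ Γ) (u : A.V) (hu : ∀ g, A.ρ g u = u) (h0 : u = 0) :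
    lu_ev A u hu = 0 := by
  subst h0
  ext
  refine DFunLike.ext _ _ fun n => ?_
  show n • (0 : A.V) = 0
  exact smul_zero n

theorem e1_coeff_ev_eq_zero (A : Rep.{0} ℤ Γ) (u : A.V) (hu : ∀ g, A.ρ g u = u) (h0 : u = 0)
    (y : groupCohomology (Rep.trivial ℤ Γ ℤ) 2) : (tt_coeffMap (lu_ev A u hu) 2).hom y = 0 := by
  rw [e1_ev_eq_zero A u hu h0, ld_coeffMap_zero]
  rfl

theorem e1_coeff_ev_congr (A : Rep.{0} ℤ Γ) {u u' : A.V} (hu : ∀ g, A.ρ g u = u)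
    (hu' : ∀ g, A.ρ g u' = u') (h : u = u') (y : groupCohomology (Rep.trivial ℤ Γ ℤ) 2) :
    (tt_coeffMap (lu_ev A u hu) 2).hom y = (tt_coeffMap (lu_ev A u' hu') 2).hom y := by
  subst h
  rfl

theorem e1_ev_comp {A B : Rep.{0} ℤ Γ} (f : A ⟶ B) (u : A.V) (hu : ∀ g, A.ρ g u = u)
    (hfu : ∀ g, B.ρ g (f.hom u) = f.hom u) : lu_ev A u hu ≫ f = lu_ev B (f.hom u) hfu := by
  ext
  refine DFunLike.ext _ _ fun n => ?_
  show f.hom (n • u) = n • f.hom u
  rw [map_zsmul]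

end ev

/-! ### Conjugation-localisation of a cup product with an invariant element -/

section cjloc

variable {Γ : Type} [Group Γ]

/-- `E = g⁻¹ G g ∩ D → G`, `d ↦ g d g⁻¹`. -/
def e1_cjLocHom (D G : Subgroup Γ) (g : Γ) : ↥((rc_conj g G).subgroupOf D) →* ↥G :=
  (rc_cjHom g (rc_conj_spec g G)).comp (rc_locHom D (rc_conj g G))

theorem e1_cjLocHom_coe (D G : Subgroup Γ) (g : Γ) (d : ↥((rc_conj g G).subgroupOf D)) :
    ((e1_cjLocHom D G g d : ↥G) : Γ) = g * ((d : ↥D) : Γ) * g⁻¹ := rfl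

variable {J : Rep.{0} ℤ Γ}

/-- **The `(q, g)`-component of the cup product `x ∪ y`** of a `G`-invariant `x : J` with
`y ∈ H²(G, ℤ)` is the cup product of the component `pr (g⁻¹ x)` with `y^g`. -/
theorem e1_comp_ev {D : Subgroup Γ} {X : Rep.{0} ℤ ↥D} (pr : tt_res D J ⟶ X) (G : Subgroup Γ)
    (g : Γ) (x : J.V) (hx : ∀ s : ↥G, (tt_res G J).ρ s x = x)
    (hu : ∀ d : ↥((rc_conj g G).subgroupOf D),
      (tt_res ((rc_conj g G).subgroupOf D) X).ρ d (pr.hom (J.ρ g⁻¹ x)) = pr.hom (J.ρ g⁻¹ x)) :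
    tt_coeffMap (lu_ev (tt_res G J) x hx) 2 ≫ rc_cj J g (rc_conj_spec g G) 2 ≫
        rc_loc pr (rc_conj g G) 2 =
      e1_mapZ (e1_cjLocHom D G g) ≫
        tt_coeffMap (lu_ev (tt_res ((rc_conj g G).subgroupOf D) X) (pr.hom (J.ρ g⁻¹ x)) hu) 2 := by
  unfold rc_cj rc_loc e1_mapZ
  rw [← map_comp, ← map_comp, ← map_comp]
  refine map_congr ?_ ?_ 2
  · rfl
  · refine DFunLike.ext _ _ fun n => ?_
    show pr.hom (J.ρ g⁻¹ (n • x)) = n • pr.hom (J.ρ g⁻¹ x)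
    rw [map_zsmul, map_zsmul]

/-- the component `pr (g⁻¹ x)` of a `G`-invariant `x` is invariant under `g⁻¹ G g ∩ D`. -/
theorem e1_comp_invariant {D : Subgroup Γ} {X : Rep.{0} ℤ ↥D} (pr : tt_res D J ⟶ X)
    (G : Subgroup Γ) (g : Γ) (x : J.V) (hx : ∀ s : ↥G, (tt_res G J).ρ s x = x)
    (d : ↥((rc_conj g G).subgroupOf D)) :
    (tt_res ((rc_conj g G).subgroupOf D) X).ρ d (pr.hom (J.ρ g⁻¹ x)) = pr.hom (J.ρ g⁻¹ x) := by
  show X.ρ (d : ↥D) (pr.hom (J.ρ g⁻¹ x)) = pr.hom (J.ρ g⁻¹ x)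
  have h1 := Rep.hom_comm_apply pr (d : ↥D) (J.ρ g⁻¹ x)
  rw [← h1]
  show pr.hom (J.ρ ((d : ↥D) : Γ) (J.ρ g⁻¹ x)) = _
  congr 1
  have hmem : g * ((d : ↥D) : Γ) * g⁻¹ ∈ G := Subgroup.mem_subgroupOf.1 d.2
  have h2 := hx ⟨_, hmem⟩
  have h3 : J.ρ (g * ((d : ↥D) : Γ) * g⁻¹) x = x := h2
  rw [← hs_ρ_mul]
  have h4 : ((d : ↥D) : Γ) * g⁻¹ = g⁻¹ * (g * ((d : ↥D) : Γ) * g⁻¹) := by group
  rw [h4, hs_ρ_mul, h3]

end cjloc

/-! ### The bump function: an equivariant function supported on one double coset -/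

section bump

variable {Γ : Type} [Group Γ] {D : Subgroup Γ} (X : Rep.{0} ℤ ↥D) (G : Subgroup Γ) (g : Γ)
  (u : X.V)

open Classical in
/-- the `D`-equivariant, right `G`-invariant function `Γ → X` supported on `D g⁻¹ G` with value `u`
at `g⁻¹` (for `u` invariant under `g⁻¹ G g ∩ D`). -/
def e1_bump (k : Γ) : X.V :=
  if h : ∃ d : ↥D, ∃ s : ↥G, k = (d : Γ) * g⁻¹ * (s : Γ) then X.ρ h.choose u else 0

variable {X G g u}

theorem e1_bump_apply
    (hu : ∀ d : ↥((rc_conj g G).subgroupOf D), (tt_res ((rc_conj g G).subgroupOf D) X).ρ d u = u)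
    (d : ↥D) (s : ↥G) : e1_bump X G g u ((d : Γ) * g⁻¹ * (s : Γ)) = X.ρ d u := by
  have h : ∃ d' : ↥D, ∃ s' : ↥G, (d : Γ) * g⁻¹ * (s : Γ) = (d' : Γ) * g⁻¹ * (s' : Γ) :=
    ⟨d, s, rfl⟩
  unfold e1_bump
  rw [dif_pos h]
  obtain ⟨s', hs'⟩ := h.choose_spec
  set d₁ := h.choose with hd₁
  -- `e = d₁⁻¹ d ∈ g⁻¹ G g ∩ D`
  have hmem : (d₁⁻¹ * d : ↥D) ∈ (rc_conj g G).subgroupOf D := by
    rw [Subgroup.mem_subgroupOf, rc_mem_conj]
    have e1 : g * ((d₁⁻¹ * d : ↥D) : Γ) * g⁻¹ = (s' : Γ) * (s : Γ)⁻¹ := by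
      have e2 : ((d₁⁻¹ * d : ↥D) : Γ) = (d₁ : Γ)⁻¹ * ((d : Γ) * g⁻¹ * (s : Γ)) * (s : Γ)⁻¹ * g := by
        push_cast
        group
      rw [e2, hs']
      group
    rw [e1]
    exact G.mul_mem s'.2 (G.inv_mem s.2)
  have h1 := hu ⟨d₁⁻¹ * d, hmem⟩
  have h2 : X.ρ (d₁⁻¹ * d) u = u := h1
  have h3 : d = d₁ * (d₁⁻¹ * d) := by group
  conv_rhs => rw [h3, hs_ρ_mul, h2]

theorem e1_bump_of_not (k : Γ) (h : ¬ ∃ d : ↥D, ∃ s : ↥G, k = (d : Γ) * g⁻¹ * (s : Γ)) :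
    e1_bump X G g u k = 0 := by
  unfold e1_bump
  rw [dif_neg h]

theorem e1_bump_equivariant
    (hu : ∀ d : ↥((rc_conj g G).subgroupOf D), (tt_res ((rc_conj g G).subgroupOf D) X).ρ d u = u)
    (d : ↥D) (k : Γ) : e1_bump X G g u ((d : Γ) * k) = X.ρ d (e1_bump X G g u k) := by
  by_cases h : ∃ d' : ↥D, ∃ s : ↥G, k = (d' : Γ) * g⁻¹ * (s : Γ)
  · obtain ⟨d', s, rfl⟩ := h
    have e : (d : Γ) * ((d' : Γ) * g⁻¹ * (s : Γ)) = ((d * d' : ↥D) : Γ) * g⁻¹ * (s : Γ) := by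
      push_cast
      group
    rw [e, e1_bump_apply hu, e1_bump_apply hu, hs_ρ_mul]
  · have h' : ¬ ∃ d' : ↥D, ∃ s : ↥G, (d : Γ) * k = (d' : Γ) * g⁻¹ * (s : Γ) := by
      rintro ⟨d', s, hk⟩
      apply h
      refine ⟨d⁻¹ * d', s, ?_⟩
      have : k = (d : Γ)⁻¹ * ((d : Γ) * k) := by group
      rw [this, hk]
      push_cast
      group
    rw [e1_bump_of_not _ h, e1_bump_of_not _ h', map_zero]

theorem e1_bump_mul_right
    (hu : ∀ d : ↥((rc_conj g G).subgroupOf D), (tt_res ((rc_conj g G).subgroupOf D) X).ρ d u = u)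
    (k : Γ) (s : ↥G) : e1_bump X G g u (k * (s : Γ)) = e1_bump X G g u k := by
  by_cases h : ∃ d' : ↥D, ∃ s' : ↥G, k = (d' : Γ) * g⁻¹ * (s' : Γ)
  · obtain ⟨d', s', rfl⟩ := h
    have e : (d' : Γ) * g⁻¹ * (s' : Γ) * (s : Γ) = (d' : Γ) * g⁻¹ * ((s' * s : ↥G) : Γ) := by
      push_cast
      group
    rw [e, e1_bump_apply hu, e1_bump_apply hu]
  · have h' : ¬ ∃ d' : ↥D, ∃ s' : ↥G, k * (s : Γ) = (d' : Γ) * g⁻¹ * (s' : Γ) := by
      rintro ⟨d', s', hk⟩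
      apply h
      refine ⟨d', s' * s⁻¹, ?_⟩
      have : k = k * (s : Γ) * (s : Γ)⁻¹ := by group
      rw [this, hk]
      push_cast
      group
    rw [e1_bump_of_not _ h, e1_bump_of_not _ h']

theorem e1_bump_mem (U : AddSubgroup X.V) (hU : ∀ (d : ↥D) (v : X.V), v ∈ U → X.ρ d v ∈ U)
    (huU : u ∈ U) (k : Γ) : e1_bump X G g u k ∈ U := by
  unfold e1_bump
  split_ifs with h
  · exact hU _ _ huU
  · exact U.zero_mem

end bump

/-! ### Ideles supported over one `q` -/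

section single

variable {Γ : Type} [Group Γ] {p : ℕ} {J : Rep.{0} ℤ Γ} {Q : Type} {𝔻 : rc_InvData p J Q}

/-- **Extension by zero**: a `D q`-equivariant function `Γ → X q` is the family of components
over `q` of an element of `J` whose components over all `q' ≠ q` vanish. -/
theorem e1_exists_single (h : hs_IsCoindSum 𝔻) (q : Q) (ψ : Γ → (𝔻.X q).V)
    (hψ : ∀ (d : ↥(𝔻.D q)) (k : Γ), ψ ((d : Γ) * k) = (𝔻.X q).ρ d (ψ k)) :
    ∃ a : J.V, (∀ k : Γ, (𝔻.pr q).hom (J.ρ k a) = ψ k) ∧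
      ∀ (q' : Q) (k : Γ), q' ≠ q → (𝔻.pr q').hom (J.ρ k a) = 0 := by
  classical
  obtain ⟨a, ha⟩ := h.exists_eq
    (fun q' k => if hq' : q' = q then (hq' ▸ ψ) k else 0) (by
      intro q' d k
      by_cases hq' : q' = q
      · subst hq'
        simp only [dif_pos]
        exact hψ d k
      · simp only [dif_neg hq', map_zero]) (by
      refine (Set.finite_singleton q).subset ?_
      rintro q' ⟨k, hk⟩
      by_contra hne
      exact hk (dif_neg hne))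
  refine ⟨a, fun k => ?_, fun q' k hq' => ?_⟩
  · rw [ha q k, dif_pos rfl]
  · rw [ha q' k, dif_neg hq']

end single

/-! ### [UNR-core] -/

section unr

variable {Γ : Type} [Group Γ] [Finite Γ] {p : ℕ} [Fact p.Prime] {J C : Rep.{0} ℤ Γ}

/-- the pairing of `c ∈ C^H` with a class of `H²(H, ℤ)`, on the layer `H`. -/
def e1_pair (P : PClassModule p C) (H : Subgroup Γ) (c : C.V)
    (hc : ∀ s : ↥H, (tt_res H C).ρ s c = c) (y : groupCohomology (Rep.trivial ℤ ↥H ℤ) 2) :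
    tt_QZ :=
  P.inv H ((tt_coeffMap (lu_ev (tt_res H C) c hc) 2).hom y)

theorem e1_pair_eq_restrict (P : PClassModule p C) (H : Subgroup Γ) (c : C.V)
    (hc : ∀ s : ↥H, (tt_res H C).ρ s c = c) (y : groupCohomology (Rep.trivial ℤ ↥H ℤ) 2) :
    e1_pair P H c hc y = (P.restrict H).pairing (lu_ev (tt_res H C) c hc) y := by
  rw [PClassModule.pairing_apply, PClassModule.restrict_invTop]
  rfl

omit [Finite Γ] [Fact p.Prime] in
theorem e1_map_invariant (π : J ⟶ C) (G : Subgroup Γ) (x : J.V)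
    (hx : ∀ s : ↥G, (tt_res G J).ρ s x = x) (s : ↥G) :
    (tt_res G C).ρ s (π.hom x) = π.hom x := by
  have h := Rep.hom_comm_apply π (s : Γ) x
  show C.ρ (s : Γ) (π.hom x) = π.hom x
  rw [← h]
  congr 1
  exact hx s

variable (π : J ⟶ C) (P : PClassModule p C) {Q : Type} (𝔻 : rc_InvData p J Q)
  (hfin : rc_FinSupp 𝔻)

/-- **[UNR-core], local form: global orthogonality implies local orthogonality.** -/
theorem e1_unr_local (hcoind : hs_IsCoindSum 𝔻) (G : Subgroup Γ)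
    (hINV : ∀ w : groupCohomology (tt_res G J) 2, tt_IsPPrimary p w →
      P.inv G ((tt_coeffMap ((Rep.resFunctor G.subtype).map π) 2).hom w) = rc_INV 𝔻 hfin G w)
    (q : Q) (g : Γ) (U : AddSubgroup (𝔻.X q).V)
    (hU : ∀ (d : ↥(𝔻.D q)) (v : (𝔻.X q).V), v ∈ U → (𝔻.X q).ρ d v ∈ U)
    (y : groupCohomology (Rep.trivial ℤ ↥G ℤ) 2) (hy : tt_IsPPrimary p y)
    (h : ∀ (x : J.V) (hx : ∀ s : ↥G, (tt_res G J).ρ s x = x),
      (∀ k : Γ, (𝔻.pr q).hom (J.ρ k x) ∈ U) →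
      (∀ (q' : Q) (k : Γ), q' ≠ q → (𝔻.pr q').hom (J.ρ k x) = 0) →
      e1_pair P G (π.hom x) (e1_map_invariant π G x hx) y = 0)
    (u : (𝔻.X q).V) (huU : u ∈ U)
    (hu : ∀ d : ↥((rc_conj g G).subgroupOf (𝔻.D q)),
      (tt_res ((rc_conj g G).subgroupOf (𝔻.D q)) (𝔻.X q)).ρ d u = u) :
    e1_pair (𝔻.P q) ((rc_conj g G).subgroupOf (𝔻.D q)) u hu
      ((e1_mapZ (e1_cjLocHom (𝔻.D q) G g)).hom y) = 0 := by
  classical
  -- the idele supported on the orbit of `g` over `q`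
  obtain ⟨x, hxq, hxq'⟩ :=
    e1_exists_single hcoind q (e1_bump (𝔻.X q) G g u) (e1_bump_equivariant hu)
  have hx : ∀ s : ↥G, (tt_res G J).ρ s x = x := by
    intro s
    show J.ρ (s : Γ) x = x
    refine hcoind.ext' fun q' k => ?_
    rw [← hs_ρ_mul]
    by_cases hq' : q' = q
    · subst hq'
      rw [hxq, hxq, e1_bump_mul_right hu]
    · rw [hxq' q' _ hq', hxq' q' _ hq']
  have hglob := h x hx (fun k => by rw [hxq]; exact e1_bump_mem U hU huU k) hxq'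
  -- the class `w = x ∪ y`
  set w := (tt_coeffMap (lu_ev (tt_res G J) x hx) 2).hom y with hw
  have hwp : tt_IsPPrimary p w :=
    tt_isPPrimary_map (tt_coeffMap (lu_ev (tt_res G J) x hx) 2).hom.toAddMonoidHom hy
  have h1 : (tt_coeffMap (lu_ev (tt_res G C) (π.hom x) (e1_map_invariant π G x hx)) 2).hom y =
      (tt_coeffMap ((Rep.resFunctor G.subtype).map π) 2).hom w := by
    rw [hw, ← ld_coeffMap_comp_apply,
      e1_ev_comp ((Rep.resFunctor G.subtype).map π) x hx (e1_map_invariant π G x hx)]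
    rfl
  unfold e1_pair at hglob
  rw [h1, hINV w hwp] at hglob
  -- the components of `w`
  have hcomp : ∀ (q' : Q) (g' : Γ), rc_comp 𝔻 q' G g' w =
      (tt_coeffMap (lu_ev (tt_res ((rc_conj g' G).subgroupOf (𝔻.D q')) (𝔻.X q'))
        ((𝔻.pr q').hom (J.ρ g'⁻¹ x)) (e1_comp_invariant (𝔻.pr q') G g' x hx)) 2).hom
        ((e1_mapZ (e1_cjLocHom (𝔻.D q') G g')).hom y) := by
    intro q' g'
    have e := e1_comp_ev (𝔻.pr q') G g' x hx (e1_comp_invariant (𝔻.pr q') G g' x hx)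
    exact congrArg (fun f => f.hom y) e
  have hzero : ∀ (q' : Q) (g' : Γ), (𝔻.pr q').hom (J.ρ g'⁻¹ x) = 0 →
      rc_term 𝔻 q' G g' w = 0 := by
    intro q' g' h0
    rw [rc_term_apply, hcomp,
      e1_coeff_ev_eq_zero (tt_res ((rc_conj g' G).subgroupOf (𝔻.D q')) (𝔻.X q')) _ _ h0, map_zero]
  have hq'term : ∀ q', q' ≠ q → rc_qterm 𝔻 q' G w = 0 := by
    intro q' hq'
    rw [rc_qterm_apply]
    exact finsum_eq_zero_of_forall_eq_zero fun o => hzero q' _ (hxq' q' _ hq')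
  rw [rc_INV_apply, finsum_eq_single _ q (fun q' hq' => hq'term q' hq'), rc_qterm_apply] at hglob
  -- only the orbit of `g` contributes
  set o₀ : MulAction.orbitRel.Quotient ↥G (Γ ⧸ 𝔻.D q) :=
    Quotient.mk'' ((g : Γ) : Γ ⧸ 𝔻.D q) with ho₀
  have hother : ∀ o, o ≠ o₀ → rc_term 𝔻 q G (rc_rep (𝔻.D q) G o) w = 0 := by
    intro o ho
    apply hzero
    rw [hxq]
    apply e1_bump_of_not
    rintro ⟨d, s, hk⟩
    apply ho
    rw [← rc_rep_spec (𝔻.D q) G o, ho₀]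
    refine rc_inf_orbit_eq (𝔻.D q) G (G.inv_mem s.2) d⁻¹ ?_
    have : rc_rep (𝔻.D q) G o = ((rc_rep (𝔻.D q) G o)⁻¹)⁻¹ := (inv_inv _).symm
    rw [this, hk]
    push_cast
    group
  rw [finsum_eq_single _ o₀ hother] at hglob
  -- the term at `o₀` is the term at `g`
  have e : (Quotient.mk'' ((rc_rep (𝔻.D q) G o₀ : Γ) : Γ ⧸ 𝔻.D q) :
        MulAction.orbitRel.Quotient ↥G (Γ ⧸ 𝔻.D q)) = Quotient.mk'' ((g : Γ) : Γ ⧸ 𝔻.D q) :=
    rc_rep_spec _ _ o₀
  obtain ⟨s, hs, d, hd⟩ := rc_exists_of_orbit_eq (𝔻.D q) G e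
  rw [hd, rc_term_congr 𝔻 q G g hs d w hwp, rc_term_apply, hcomp] at hglob
  have hval : (𝔻.pr q).hom (J.ρ g⁻¹ x) = u := by
    rw [hxq]
    have h2 := e1_bump_apply hu (1 : ↥(𝔻.D q)) (1 : ↥G)
    rw [hs_ρ_one] at h2
    rw [← h2]
    congr 1
    simp
  unfold e1_pair
  rw [← hglob]
  congr 1
  exact (e1_coeff_ev_congr (tt_res ((rc_conj g G).subgroupOf (𝔻.D q)) (𝔻.X q)) _ _ hval _).symm

omit [Finite Γ] [Fact p.Prime] in
/-- `e1_mapZ` along the inclusion of a subgroup is the restriction map of seam A. -/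
theorem e1_mapZ_subtype (I : Subgroup Γ) :
    e1_mapZ I.subtype = tt_resMap I (Rep.trivial ℤ Γ ℤ) 2 :=
  map_congr rfl rfl 2

/-- **[UNR-core]**: global orthogonality to the "units over `q`" and (L-unr) for the local class
module at `q` (hypothesis `hLunr`, in the form produced by `lu_unr` for `(𝔻.P q).restrict E`)
imply that `y^g` dies on `g⁻¹ G g ∩ I` for every `g : Γ`.  On characters:
`χ (g d g⁻¹) = 0` for all `d ∈ I` with `g d g⁻¹ ∈ G`. -/
theorem e1_unr_core (hcoind : hs_IsCoindSum 𝔻) (G : Subgroup Γ)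
    (hINV : ∀ w : groupCohomology (tt_res G J) 2, tt_IsPPrimary p w →
      P.inv G ((tt_coeffMap ((Rep.resFunctor G.subtype).map π) 2).hom w) = rc_INV 𝔻 hfin G w)
    (q : Q) (U : AddSubgroup (𝔻.X q).V)
    (hU : ∀ (d : ↥(𝔻.D q)) (v : (𝔻.X q).V), v ∈ U → (𝔻.X q).ρ d v ∈ U)
    (I : Subgroup ↥(𝔻.D q))
    (hLunr : ∀ (E : Subgroup ↥(𝔻.D q)) (y' : groupCohomology (Rep.trivial ℤ ↥E ℤ) 2),
      tt_IsPPrimary p y' →
      (∀ (u : (𝔻.X q).V), u ∈ U → ∀ hu : ∀ d : ↥E, (tt_res E (𝔻.X q)).ρ d u = u,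
        e1_pair (𝔻.P q) E u hu y' = 0) →
      (e1_mapZ (I.subgroupOf E).subtype).hom y' = 0)
    (y : groupCohomology (Rep.trivial ℤ ↥G ℤ) 2) (hy : tt_IsPPrimary p y)
    (h : ∀ (x : J.V) (hx : ∀ s : ↥G, (tt_res G J).ρ s x = x),
      (∀ k : Γ, (𝔻.pr q).hom (J.ρ k x) ∈ U) →
      (∀ (q' : Q) (k : Γ), q' ≠ q → (𝔻.pr q').hom (J.ρ k x) = 0) →
      e1_pair P G (π.hom x) (e1_map_invariant π G x hx) y = 0)
    (g : Γ) :
    (e1_mapZ ((e1_cjLocHom (𝔻.D q) G g).comp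
      (I.subgroupOf ((rc_conj g G).subgroupOf (𝔻.D q))).subtype)).hom y = 0 := by
  have h1 := hLunr ((rc_conj g G).subgroupOf (𝔻.D q))
    ((e1_mapZ (e1_cjLocHom (𝔻.D q) G g)).hom y) (e1_mapZ_isPPrimary _ hy)
    (fun u huU hu => e1_unr_local π P 𝔻 hfin hcoind G hINV q g U hU y hy h u huU hu)
  rw [← e1_mapZ_comp]
  exact h1

omit [Finite Γ] [Fact p.Prime] in
/-- the hypothesis of `e1_unr_core` in the form with a family `T` of `q`'s (the shape of the idele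
statement: orthogonality to all invariant ideles which are units over `T` and trivial elsewhere). -/
theorem e1_orth_of_family (G : Subgroup Γ) (T : Set Q) (U : ∀ q, AddSubgroup (𝔻.X q).V)
    (y : groupCohomology (Rep.trivial ℤ ↥G ℤ) 2)
    (h : ∀ (x : J.V) (hx : ∀ s : ↥G, (tt_res G J).ρ s x = x),
      (∀ (q : Q) (k : Γ), q ∈ T → (𝔻.pr q).hom (J.ρ k x) ∈ U q) →
      (∀ (q : Q) (k : Γ), q ∉ T → (𝔻.pr q).hom (J.ρ k x) = 0) →
      e1_pair P G (π.hom x) (e1_map_invariant π G x hx) y = 0)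
    (q : Q) (hq : q ∈ T) :
    ∀ (x : J.V) (hx : ∀ s : ↥G, (tt_res G J).ρ s x = x),
      (∀ k : Γ, (𝔻.pr q).hom (J.ρ k x) ∈ U q) →
      (∀ (q' : Q) (k : Γ), q' ≠ q → (𝔻.pr q').hom (J.ρ k x) = 0) →
      e1_pair P G (π.hom x) (e1_map_invariant π G x hx) y = 0 := by
  intro x hx h1 h2
  refine h x hx (fun q' k hq' => ?_) (fun q' k hq' => ?_)
  · by_cases e : q' = q
    · subst e
      exact h1 k
    · rw [h2 q' k e]
      exact (U q').zero_mem
  · exact h2 q' k (fun e => hq' (e ▸ hq))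

end unr

end

end Fermat.Agent.S55
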