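import Fermat.Agent.S55.Tate.HerbrandBridge
import Fermat.Agent.S55.Tate.LowDegree

/-!
# Herbrand bridge in Tate degrees

For a finite cyclic group `G = ⟨g⟩` and `A : Rep k G`:
`|Ĥⁿ(G, A)| = [ker (ρ g - 1) : range N]` for even `n` (here `n = 0` and `n ≥ 1`) and
`|Ĥⁿ(G, A)| = [ker N : range (ρ g - 1)]` for odd `n` (here `n = -1` and `n ≥ 1`).
-/

set_option autoImplicit false

namespace Fermat.Agent.S55

universe u

open CategoryTheory Rep groupCohomology

section

variable {k G : Type u} [CommRing k] [Group G] [Fintype G] (A : Rep k G) (g : G)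
  (hg : ∀ x, x ∈ Subgroup.zpowers g)

omit [Fintype G] in
include hg in
lemma hb_mem_ker_d₀₁_iff (a : A.V) :
    a ∈ LinearMap.ker (d₀₁ A).hom ↔ a ∈ (hb_D A g).ker := by
  rw [d₀₁_ker_eq_invariants, AddMonoidHom.mem_ker, hb_D_apply, sub_eq_zero]
  exact Representation.mem_invariants_iff_of_forall_mem_zpowers A.ρ g hg a

include hg in
lemma hb_mem_coinvariantsKer_iff (a : A.V) :
    a ∈ Representation.Coinvariants.ker A.ρ ↔ a ∈ (hb_D A g).range := by
  rw [Representation.FiniteCyclicGroup.coinvariantsKer_eq_range A.ρ g hg]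
  constructor
  · rintro ⟨b, rfl⟩
    exact ⟨b, rfl⟩
  · rintro ⟨b, rfl⟩
    exact ⟨b, rfl⟩

lemma hb_mem_ker_normHom_iff (a : A.V) :
    a ∈ LinearMap.ker A.norm.toModuleCatHom.hom ↔ a ∈ (hb_N A).ker := by
  rw [AddMonoidHom.mem_ker, hb_N_eq_norm]
  rfl

/-- The class map `ker (ρ g - 1) → Ĥ⁰(G, A)`. -/
noncomputable def hb_tateClass0 : (hb_D A g).ker →+ ((tateComplex A).homology 0 : ModuleCat k) where
  toFun a := tt_H0π A ⟨a.1, (hb_mem_ker_d₀₁_iff A g hg a.1).2 a.2⟩
  map_zero' := by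
    have : (⟨0, (hb_mem_ker_d₀₁_iff A g hg 0).2 (zero_mem _)⟩ : LinearMap.ker (d₀₁ A).hom) = 0 :=
      rfl
    simp only [ZeroMemClass.coe_zero]
    erw [this, map_zero]
  map_add' a b := by
    rw [← map_add]
    rfl

/-- The class map `ker N → Ĥ⁻¹(G, A)`. -/
noncomputable def hb_tateClassm1 : (hb_N A).ker →+ ((tateComplex A).homology (-1) : ModuleCat k) where
  toFun a := tt_Hm1π A ⟨a.1, (hb_mem_ker_normHom_iff A a.1).2 a.2⟩
  map_zero' := by
    have : (⟨0, (hb_mem_ker_normHom_iff A 0).2 (zero_mem _)⟩ :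
        LinearMap.ker A.norm.toModuleCatHom.hom) = 0 := rfl
    simp only [ZeroMemClass.coe_zero]
    erw [this, map_zero]
  map_add' a b := by
    rw [← map_add]
    rfl

lemma hb_tateClass0_surjective : Function.Surjective (hb_tateClass0 A g hg) := by
  intro y
  obtain ⟨x, hx⟩ := tt_H0π_surjective A y
  exact ⟨⟨x.1, (hb_mem_ker_d₀₁_iff A g hg x.1).1 x.2⟩, hx⟩

lemma hb_tateClassm1_surjective : Function.Surjective (hb_tateClassm1 A) := by
  intro y
  obtain ⟨x, hx⟩ := tt_Hm1π_surjective A y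
  exact ⟨⟨x.1, (hb_mem_ker_normHom_iff A x.1).1 x.2⟩, hx⟩

lemma hb_ker_tateClass0 :
    (hb_tateClass0 A g hg).ker = (hb_N A).range.addSubgroupOf (hb_D A g).ker := by
  ext a
  rw [AddMonoidHom.mem_ker, AddSubgroup.mem_addSubgroupOf]
  refine (tt_H0π_eq_zero_iff A _).trans ?_
  constructor
  · rintro ⟨b, hb⟩
    exact ⟨b, by rw [hb_N_eq_norm]; exact hb⟩
  · rintro ⟨b, hb⟩
    exact ⟨b, by rw [hb_N_eq_norm] at hb; exact hb⟩

include hg in
lemma hb_ker_tateClassm1 :
    (hb_tateClassm1 A).ker = (hb_D A g).range.addSubgroupOf (hb_N A).ker := by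
  ext a
  rw [AddMonoidHom.mem_ker, AddSubgroup.mem_addSubgroupOf, ← hb_mem_coinvariantsKer_iff A g hg]
  exact tt_Hm1π_eq_zero_iff A _

include hg in
/-- **Herbrand bridge, Tate degree 0**: `|Ĥ⁰(G, A)| = [ker (ρ g - 1) : range N]`. -/
theorem hb_card_tate_zero :
    Nat.card (tateCohomology A 0) = (hb_N A).range.relIndex (hb_D A g).ker := by
  change Nat.card ((tateComplex A).homology 0 : ModuleCat k) = _
  rw [AddSubgroup.relIndex, AddSubgroup.index_eq_card, ← hb_ker_tateClass0 A g hg]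
  exact (Nat.card_congr (QuotientAddGroup.quotientKerEquivOfSurjective _
    (hb_tateClass0_surjective A g hg)).toEquiv).symm

include hg in
/-- **Herbrand bridge, Tate degree -1**: `|Ĥ⁻¹(G, A)| = [ker N : range (ρ g - 1)]`. -/
theorem hb_card_tate_neg_one :
    Nat.card (tateCohomology A (-1)) = (hb_D A g).range.relIndex (hb_N A).ker := by
  change Nat.card ((tateComplex A).homology (-1) : ModuleCat k) = _
  rw [AddSubgroup.relIndex, AddSubgroup.index_eq_card, ← hb_ker_tateClassm1 A g hg]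
  exact (Nat.card_congr (QuotientAddGroup.quotientKerEquivOfSurjective _
    (hb_tateClassm1_surjective A)).toEquiv).symm

/-- Tate cohomology in positive degrees has the same order as group cohomology. -/
theorem hb_card_tate_pos (n : ℕ) [NeZero n] :
    Nat.card (tateCohomology A (n : ℤ)) = Nat.card (groupCohomology A n) :=
  Nat.card_congr ((TateCohomology.isoGroupCohomology n).app A).toLinearEquiv.toEquiv

include hg in
/-- **Herbrand bridge, even positive Tate degrees.** -/
theorem hb_card_tate_even (n : ℕ) [NeZero n] (hn : Even n) :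
    Nat.card (tateCohomology A (n : ℤ)) = (hb_N A).range.relIndex (hb_D A g).ker := by
  rw [hb_card_tate_pos, hb_card_even' A g hg n hn]

include hg in
/-- **Herbrand bridge, odd positive Tate degrees.** -/
theorem hb_card_tate_odd (n : ℕ) (hn : Odd n) :
    Nat.card (tateCohomology A (n : ℤ)) = (hb_D A g).range.relIndex (hb_N A).ker := by
  have : NeZero n := ⟨fun h => by subst h; simp at hn⟩
  rw [hb_card_tate_pos, hb_card_odd' A g hg n hn]

end

end Fermat.Agent.S55
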