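import Mathlib

/-!
# Modules over a finite `p`-group killed by `p`

* `pg_exists_invariant`: a nonzero `p`-torsion module has a nonzero invariant vector;
* `pg_subsingleton_of_coinvariants`: if the "augmentation submodule" is everything, the module
  is zero (Nakayama for `p`-groups).
-/

set_option autoImplicit false

namespace Fermat.Agent.S55

open Finset

variable {p : ℕ} [Fact p.Prime] {G : Type*} [Group G] [Finite G]

/-- A nonzero `𝔽_p`-representation of a finite `p`-group has a nonzero invariant vector. -/
theorem pg_exists_invariant_zmod (hG : IsPGroup p G) {A : Type*} [AddCommGroup A]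
    [Module (ZMod p) A] (ρ : Representation (ZMod p) G A) (hA : Nontrivial A) :
    ∃ a : A, a ≠ 0 ∧ ∀ g, ρ g a = a := by
  classical
  obtain ⟨a₀, ha₀⟩ := exists_ne (0 : A)
  -- the span of the orbit
  set V : Submodule (ZMod p) A := Submodule.span (ZMod p) (Set.range fun g : G => ρ g a₀) with hV
  have hfin : (Set.range fun g : G => ρ g a₀).Finite := Set.finite_range _
  have : Module.Finite (ZMod p) V := Module.Finite.span_of_finite (ZMod p) hfin
  have : Finite V := Module.finite_of_finite (ZMod p)
  have hstab : ∀ g : G, ∀ v ∈ V, ρ g v ∈ V := by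
    intro g v hv
    have : V ≤ V.comap (ρ g) := by
      rw [hV, Submodule.span_le]
      rintro _ ⟨h, rfl⟩
      show ρ g (ρ h a₀) ∈ V
      rw [← Module.End.mul_apply, ← map_mul]
      exact Submodule.subset_span ⟨g * h, rfl⟩
    exact this hv
  -- the action of `G` on `V`
  let : MulAction G V :=
    { smul := fun g v => ⟨ρ g v, hstab g v v.2⟩
      one_smul := fun v => by
        apply Subtype.ext
        show ρ 1 (v : A) = v
        rw [map_one]; rfl
      mul_smul := fun g h v => by
        apply Subtype.ext
        show ρ (g * h) (v : A) = ρ g (ρ h (v : A))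
        rw [map_mul]; rfl }
  have hsmul : ∀ (g : G) (v : V), ((g • v : V) : A) = ρ g v := fun _ _ => rfl
  have ha₀V : a₀ ∈ V := by
    have : ρ 1 a₀ ∈ V := Submodule.subset_span ⟨1, rfl⟩
    rwa [map_one] at this
  have : Nontrivial V := ⟨⟨⟨a₀, ha₀V⟩, 0, fun h => ha₀ (congrArg Subtype.val h)⟩⟩
  have hcard : p ∣ Nat.card V := by
    have : Fintype V := Fintype.ofFinite V
    obtain ⟨n, hn⟩ := VectorSpace.card_fintype (ZMod p) V
    rw [ZMod.card] at hn
    rw [Nat.card_eq_fintype_card, hn]
    have hn0 : n ≠ 0 := by
      rintro rfl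
      rw [pow_zero] at hn
      have := Fintype.one_lt_card (α := V)
      omega
    exact dvd_pow_self p hn0
  have h0 : (0 : V) ∈ MulAction.fixedPoints G V := by
    intro g
    apply Subtype.ext
    rw [hsmul]
    simp
  obtain ⟨b, hb, hb0⟩ := hG.exists_fixed_point_of_prime_dvd_card_of_fixed_point V hcard h0
  refine ⟨(b : A), fun h => hb0 (Subtype.ext h).symm, fun g => ?_⟩
  have := hb g
  rw [← hsmul, this]

/-- Nakayama for `p`-groups: if every element is a sum of elements `ρ g x - x`, the module is
zero. -/
theorem pg_subsingleton_of_coinvariants_zmod (hG : IsPGroup p G) {A : Type*} [AddCommGroup A]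
    [Module (ZMod p) A] (ρ : Representation (ZMod p) G A)
    (h : Submodule.span (ZMod p) {y : A | ∃ g x, y = ρ g x - x} = ⊤) : Subsingleton A := by
  by_contra hns
  rw [not_subsingleton_iff_nontrivial] at hns
  -- the dual space is nontrivial
  have hdual : Nontrivial (Module.Dual (ZMod p) A) := by
    obtain ⟨a, ha⟩ := exists_ne (0 : A)
    have hne : ¬ ∀ φ : Module.Dual (ZMod p) A, φ a = 0 := fun hall =>
      ha ((Module.forall_dual_apply_eq_zero_iff (ZMod p) a).mp hall)
    push Not at hne
    obtain ⟨φ, hφ⟩ := hne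
    exact ⟨⟨φ, 0, fun h0 => hφ (by rw [h0]; rfl)⟩⟩
  obtain ⟨f, hf0, hf⟩ := pg_exists_invariant_zmod hG ρ.dual hdual
  apply hf0
  have hker : ∀ y ∈ {y : A | ∃ g x, y = ρ g x - x}, f y = 0 := by
    rintro _ ⟨g, x, rfl⟩
    have h1 := congrArg (fun φ : Module.Dual (ZMod p) A => φ x) (hf g⁻¹)
    simp only [Representation.dual_apply, Module.Dual.transpose_apply, inv_inv] at h1
    rw [map_sub, sub_eq_zero]
    exact h1
  have : LinearMap.ker f = ⊤ := by
    rw [eq_top_iff, ← h, Submodule.span_le]
    exact hker
  ext a
  have ha : a ∈ LinearMap.ker f := by rw [this]; trivial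
  simpa using ha

end Fermat.Agent.S55
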