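import Fermat.Agent.S55.FinGrp.Coind1
import Fermat.Agent.S55.Tate.Hom

/-!
# The splitting module of a 2-cocycle

For a finite group `G`, `C : Rep k G` and a 2-cocycle `σ` of `C` we construct the splitting module
`C(σ)` on the carrier `C × I_G`, where `I_G ⊆ Fun(G, k)` is the augmentation ideal of the group
ring (functions on `G` with right translation, `u_g = δ_{g⁻¹}` corresponding to `g`).
The action is `h • (c, x) = (h • c + ∑ g, x g⁻¹ • σ (h, g), h • x)`.
There are equivariant maps `C → C(σ) → Fun(G, k)` and a 1-cochain `sp_b` of `C(σ)` with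
`d (sp_b) = σ`.
-/

set_option autoImplicit false

namespace Fermat.Agent.S55

open groupCohomology Finset

noncomputable section

variable {k G : Type} [CommRing k] [Group G] [Fintype G]

/-- the augmentation `x ↦ ∑ g, x g` -/
def sp_eps (k G : Type) [CommRing k] [Group G] [Fintype G] : (G → k) →ₗ[k] k :=
  ∑ g : G, LinearMap.proj g

lemma sp_eps_apply (x : G → k) : sp_eps k G x = ∑ g : G, x g := by
  simp [sp_eps, LinearMap.sum_apply]

/-- the augmentation ideal, as a submodule of `Fun(G, k)` -/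
def sp_aug (k G : Type) [CommRing k] [Group G] [Fintype G] : Submodule k (G → k) :=
  LinearMap.ker (sp_eps k G)

lemma sp_mem_aug (x : G → k) : x ∈ sp_aug k G ↔ ∑ g : G, x g = 0 := by
  rw [sp_aug, LinearMap.mem_ker, sp_eps_apply]

lemma sp_eps_funRep (h : G) (x : G → k) : sp_eps k G (fg_funRep k G k h x) = sp_eps k G x := by
  rw [sp_eps_apply, sp_eps_apply]
  simp only [fg_funRep_apply]
  exact Fintype.sum_equiv (Equiv.mulRight h) _ _ fun _ => rfl

lemma sp_aug_stable (h : G) : sp_aug k G ≤ (sp_aug k G).comap (fg_funRep k G k h) := by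
  intro x hx
  rw [Submodule.mem_comap, sp_aug, LinearMap.mem_ker, sp_eps_funRep]
  exact hx

lemma sp_sum_inv (x : G → k) : ∑ g : G, x g⁻¹ = ∑ g : G, x g :=
  Fintype.sum_equiv (Equiv.inv G) _ _ fun _ => rfl

/-- the twisting map `x ↦ ∑ g, x g⁻¹ • σ (h, g)` -/
def sp_s (C : Rep.{0} k G) (σ : G × G → C.V) (h : G) : (G → k) →ₗ[k] C.V :=
  ∑ g : G, (LinearMap.proj g⁻¹ : (G → k) →ₗ[k] k).smulRight (σ (h, g))

lemma sp_s_apply (C : Rep.{0} k G) (σ : G × G → C.V) (h : G) (x : G → k) :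
    sp_s C σ h x = ∑ g : G, x g⁻¹ • σ (h, g) := by
  simp [sp_s, LinearMap.sum_apply]

lemma sp_s_one (C : Rep.{0} k G) (σ : cocycles₂ C) (x : G → k) (hx : x ∈ sp_aug k G) :
    sp_s C σ 1 x = 0 := by
  rw [sp_s_apply]
  simp_rw [cocycles₂_map_one_fst σ]
  rw [← Finset.sum_smul, sp_sum_inv, (sp_mem_aug x).mp hx, zero_smul]

lemma sp_s_mul (C : Rep.{0} k G) (σ : cocycles₂ C) (h h' : G) (x : G → k)
    (hx : x ∈ sp_aug k G) :
    sp_s C σ (h * h') x = C.ρ h (sp_s C σ h' x) + sp_s C σ h (fg_funRep k G k h' x) := by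
  have h2 : sp_s C σ h (fg_funRep k G k h' x) = ∑ g : G, x g⁻¹ • σ (h, h' * g) := by
    rw [sp_s_apply]
    simp only [fg_funRep_apply]
    refine (Fintype.sum_equiv (Equiv.mulLeft h') _ _ fun g => ?_).symm
    simp [mul_inv_rev]
  rw [h2, sp_s_apply, sp_s_apply, map_sum, ← Finset.sum_add_distrib]
  have hc := (mem_cocycles₂_iff σ).1 σ.2 h h'
  have h3 : ∀ g : G, x g⁻¹ • σ (h * h', g) + x g⁻¹ • σ (h, h') =
      C.ρ h (x g⁻¹ • σ (h', g)) + x g⁻¹ • σ (h, h' * g) := by
    intro g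
    rw [map_smul, ← smul_add, ← smul_add, hc g]
  have h4 : ∑ g : G, x g⁻¹ • σ (h, h') = 0 := by
    rw [← Finset.sum_smul, sp_sum_inv, (sp_mem_aug x).mp hx, zero_smul]
  rw [← add_zero (∑ g : G, x g⁻¹ • σ (h * h', g)), ← h4, ← Finset.sum_add_distrib]
  exact Finset.sum_congr rfl fun g _ => h3 g

/-- the action of `h` on `C × I_G` -/
def sp_act (C : Rep.{0} k G) (σ : G × G → C.V) (h : G) :
    (C.V × sp_aug k G) →ₗ[k] (C.V × sp_aug k G) :=
  LinearMap.prod
    ((C.ρ h).coprod (sp_s C σ h ∘ₗ (sp_aug k G).subtype))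
    (((fg_funRep k G k h).restrict (sp_aug_stable h)) ∘ₗ LinearMap.snd k C.V (sp_aug k G))

lemma sp_act_apply (C : Rep.{0} k G) (σ : G × G → C.V) (h : G) (c : C.V) (x : sp_aug k G) :
    sp_act C σ h (c, x) =
      (C.ρ h c + sp_s C σ h x.1, ⟨fg_funRep k G k h x.1, sp_aug_stable h x.2⟩) := rfl

/-- the representation of `G` on `C × I_G` twisted by the cocycle `σ` -/
def sp_rho (C : Rep.{0} k G) (σ : cocycles₂ C) : Representation k G (C.V × sp_aug k G) where
  toFun h := sp_act C σ h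
  map_one' := by
    apply LinearMap.ext
    rintro ⟨c, x⟩
    rw [sp_act_apply]
    refine Prod.ext ?_ (Subtype.ext ?_)
    · show C.ρ 1 c + sp_s C σ 1 x.1 = c
      rw [sp_s_one C σ x.1 x.2, map_one, add_zero]; rfl
    · show fg_funRep k G k 1 x.1 = x.1
      rw [map_one]; rfl
  map_mul' h h' := by
    apply LinearMap.ext
    rintro ⟨c, x⟩
    rw [Module.End.mul_apply, sp_act_apply, sp_act_apply, sp_act_apply]
    refine Prod.ext ?_ (Subtype.ext ?_)
    · show C.ρ (h * h') c + sp_s C σ (h * h') x.1 =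
        C.ρ h (C.ρ h' c + sp_s C σ h' x.1) + sp_s C σ h (fg_funRep k G k h' x.1)
      rw [sp_s_mul C σ h h' x.1 x.2, map_mul, Module.End.mul_apply, map_add]
      abel
    · show fg_funRep k G k (h * h') x.1 = fg_funRep k G k h (fg_funRep k G k h' x.1)
      rw [map_mul]; rfl

/-- **The splitting module** `C(σ)`. -/
abbrev sp_split (C : Rep.{0} k G) (σ : cocycles₂ C) : Rep.{0} k G := Rep.of (sp_rho C σ)

lemma sp_split_ρ_apply (C : Rep.{0} k G) (σ : cocycles₂ C) (h : G) (c : C.V) (x : sp_aug k G) :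
    (sp_split C σ).ρ h (c, x) =
      (C.ρ h c + sp_s C σ h x.1, ⟨fg_funRep k G k h x.1, sp_aug_stable h x.2⟩) := rfl

/-- the inclusion `C → C(σ)` -/
def sp_i (C : Rep.{0} k G) (σ : cocycles₂ C) : C ⟶ sp_split C σ :=
  Rep.ofHom
    { toLinearMap := LinearMap.inl k C.V (sp_aug k G)
      isIntertwining' := fun h => by
        apply LinearMap.ext
        intro c
        refine Prod.ext ?_ (Subtype.ext ?_)
        · show C.ρ h c = C.ρ h c + sp_s C σ h (0 : G → k)
          rw [map_zero, add_zero]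
        · show (0 : G → k) = fg_funRep k G k h (0 : G → k)
          rw [map_zero] }

lemma sp_i_apply (C : Rep.{0} k G) (σ : cocycles₂ C) (c : C.V) :
    (sp_i C σ).hom c = ((c, 0) : C.V × sp_aug k G) := rfl

/-- the projection `C(σ) → Fun(G, k)` (with image the augmentation ideal) -/
def sp_pr (C : Rep.{0} k G) (σ : cocycles₂ C) : sp_split C σ ⟶ Rep.of (fg_funRep k G k) :=
  Rep.ofHom
    { toLinearMap := (sp_aug k G).subtype ∘ₗ LinearMap.snd k C.V (sp_aug k G)
      isIntertwining' := fun h => by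
        apply LinearMap.ext
        rintro ⟨c, x⟩
        rfl }

lemma sp_pr_apply (C : Rep.{0} k G) (σ : cocycles₂ C) (c : C.V) (x : sp_aug k G) :
    (sp_pr C σ).hom ((c, x) : C.V × sp_aug k G) = x.1 := rfl

open Classical in
/-- the element `u_g - u_1` of the augmentation ideal, `u_g = δ_{g⁻¹}` -/
def sp_u (k : Type) {G : Type} [CommRing k] [Group G] [Fintype G] (g : G) : sp_aug k G :=
  ⟨Pi.single g⁻¹ 1 - Pi.single 1 1, by
    rw [sp_mem_aug]
    simp [Finset.sum_sub_distrib]⟩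

open Classical in
lemma sp_u_val (g : G) : (sp_u k g).1 = Pi.single g⁻¹ (1 : k) - Pi.single 1 1 := rfl

omit [Fintype G] in
open Classical in
lemma sp_funRep_single (h a : G) (r : k) :
    fg_funRep k G k h (Pi.single a r) = Pi.single (a * h⁻¹) r := by
  ext x
  rw [fg_funRep_apply, Pi.single_apply, Pi.single_apply]
  congr 1
  exact propext eq_mul_inv_iff_mul_eq.symm

open Classical in
lemma sp_s_single (C : Rep.{0} k G) (σ : G × G → C.V) (h a : G) (r : k) :
    sp_s C σ h (Pi.single a r) = r • σ (h, a⁻¹) := by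
  rw [sp_s_apply, Finset.sum_eq_single a⁻¹]
  · rw [inv_inv, Pi.single_eq_same]
  · intro g _ hg
    rw [Pi.single_eq_of_ne, zero_smul]
    intro h'
    exact hg (by rw [← h', inv_inv])
  · intro h'; exact absurd (Finset.mem_univ _) h'

/-- the 1-cochain of `C(σ)` whose coboundary is `σ` -/
def sp_b (C : Rep.{0} k G) (σ : cocycles₂ C) (g : G) : C.V × sp_aug k G :=
  (σ (1, 1), sp_u k g)

open Classical in
/-- **`σ` splits in `C(σ)`**: `d (sp_b) = σ`. -/
theorem sp_d_b (C : Rep.{0} k G) (σ : cocycles₂ C) (h g : G) :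
    (sp_split C σ).ρ h (sp_b C σ g) - sp_b C σ (h * g) + sp_b C σ h =
      ((σ (h, g), 0) : C.V × sp_aug k G) := by
  unfold sp_b
  rw [sp_split_ρ_apply]
  refine Prod.ext ?_ (Subtype.ext ?_)
  · show C.ρ h (σ (1, 1)) + sp_s C σ h (sp_u k g).1 - σ (1, 1) + σ (1, 1) = σ (h, g)
    rw [sp_u_val, map_sub, sp_s_single, sp_s_single, inv_inv, inv_one, one_smul, one_smul,
      ← cocycles₂_map_one_snd σ h]
    abel
  · show fg_funRep k G k h (sp_u k g).1 - (sp_u k (h * g)).1 + (sp_u k h).1 = 0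
    rw [sp_u_val, sp_u_val, sp_u_val, map_sub, sp_funRep_single, sp_funRep_single, mul_inv_rev,
      one_mul]
    abel

/-! ### Tate's vanishing for the splitting module, in explicit cocycle form -/

section vanish

variable (H : Subgroup G) [Fintype H] (C : Rep.{0} k G) (σ : cocycles₂ C)

lemma sp_eps_single [DecidableEq G] (a : G) (r : k) : sp_eps k G (Pi.single a r) = r := by
  rw [sp_eps_apply, Finset.sum_pi_single']
  simp

open Classical in
/-- `u_a = a • δ₁ - δ₁`. -/
lemma sp_u_eq (a : G) : (sp_u k a).1 = fg_funRep k G k a (Pi.single 1 1) - Pi.single 1 (1 : k) := by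
  rw [sp_u_val, sp_funRep_single, one_mul]

open Classical in
lemma sp_s_u (a b : G) : sp_s C σ a (sp_u k b).1 = σ (a, b) - C.ρ a (σ (1, 1)) := by
  rw [sp_u_val, map_sub, sp_s_single, sp_s_single, inv_inv, inv_one, one_smul, one_smul,
    cocycles₂_map_one_snd σ a]

open Classical in
/-- **Tate's theorem, degree 1.** If `H¹(H, C) = 0`, the order of `σ|_H` in `H²(H, C)` is a
multiple of `|H|` and `H¹(H, Fun(G, k)) = 0`, then `H¹(H, C(σ)) = 0`. -/
theorem sp_H1_vanish
    (hF1 : ∀ c : H → (G → k), (∀ a b : H, c (a * b) = fg_funRep k G k (a : G) (c b) + c a) →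
      ∃ x : G → k, ∀ a : H, c a = fg_funRep k G k (a : G) x - x)
    (hC1 : ∀ c : H → C.V, (∀ a b : H, c (a * b) = C.ρ (a : G) (c b) + c a) →
      ∃ m : C.V, ∀ a : H, c a = C.ρ (a : G) m - m)
    (hord : ∀ n : k, (∃ y : H → C.V, ∀ a b : H,
        n • σ ((a : G), (b : G)) = C.ρ (a : G) (y b) - y (a * b) + y a) →
      ∃ n' : k, n = (Fintype.card H : k) * n')
    (c : H → C.V × sp_aug k G)
    (hc : ∀ a b : H, c (a * b) = (sp_split C σ).ρ (a : G) (c b) + c a) :
    ∃ m : C.V × sp_aug k G, ∀ a : H, c a = (sp_split C σ).ρ (a : G) m - m := by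
  -- components of the cocycle condition
  have hc1 : ∀ a b : H, (c (a * b)).1 =
      C.ρ (a : G) (c b).1 + sp_s C σ (a : G) (c b).2.1 + (c a).1 := fun a b => by
    have := congrArg Prod.fst (hc a b)
    rw [sp_split_ρ_apply] at this
    exact this
  have hc2 : ∀ a b : H, (c (a * b)).2.1 =
      fg_funRep k G k (a : G) (c b).2.1 + (c a).2.1 := fun a b => by
    have := congrArg (fun m : C.V × sp_aug k G => m.2.1) (hc a b)
    rw [sp_split_ρ_apply] at this
    exact this
  obtain ⟨x, hx⟩ := hF1 (fun a => (c a).2.1) hc2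
  set n := sp_eps k G x with hn
  -- `x₀ = x - n δ₁` lies in the augmentation ideal
  set x₀ : G → k := x - n • Pi.single 1 1 with hx₀
  have hx₀mem : x₀ ∈ sp_aug k G := by
    rw [sp_aug, LinearMap.mem_ker, hx₀, map_sub, map_smul, sp_eps_single, smul_eq_mul, mul_one,
      ← hn, sub_self]
  have hc2' : ∀ a : H, (c a).2.1 = fg_funRep k G k (a : G) x₀ - x₀ + n • (sp_u k (a : G)).1 := by
    intro a
    rw [hx a, hx₀, sp_u_eq, map_sub, map_smul, smul_sub]
    abel
  -- `n • σ|_H` is a coboundary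
  have hcob : ∃ y : H → C.V, ∀ a b : H,
      n • σ ((a : G), (b : G)) = C.ρ (a : G) (y b) - y (a * b) + y a := by
    refine ⟨fun a => -((c a).1 - sp_s C σ (a : G) x₀) + n • σ (1, 1), fun a b => ?_⟩
    have h1 := hc1 a b
    have h2 := sp_s_mul C σ (a : G) (b : G) x₀ hx₀mem
    have h3 : sp_s C σ (a : G) (c b).2.1 =
        sp_s C σ (a : G) (fg_funRep k G k (b : G) x₀) - sp_s C σ (a : G) x₀ +
          n • (σ ((a : G), (b : G)) - C.ρ (a : G) (σ (1, 1))) := by
      rw [hc2' b, map_add, map_sub, map_smul, sp_s_u]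
    simp only [Subgroup.coe_mul, map_add, map_neg, map_sub, map_smul]
    rw [h1, h3]
    have h2' : sp_s C σ ((a : G) * (b : G)) x₀ =
        C.ρ (a : G) (sp_s C σ (b : G) x₀) + sp_s C σ (a : G) (fg_funRep k G k (b : G) x₀) := h2
    rw [h2', smul_sub]
    abel
  obtain ⟨n', hn'⟩ := hord n hcob
  -- correct `x` by a norm
  set x' : G → k := x - ∑ a : H, fg_funRep k G k (a : G) (n' • Pi.single 1 1) with hx'
  have hsum_inv : ∀ b : H, fg_funRep k G k (b : G)
      (∑ a : H, fg_funRep k G k (a : G) (n' • Pi.single 1 (1 : k))) =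
      ∑ a : H, fg_funRep k G k (a : G) (n' • Pi.single 1 (1 : k)) := by
    intro b
    rw [map_sum]
    refine Fintype.sum_equiv (Equiv.mulLeft b) _ _ fun a => ?_
    show fg_funRep k G k (b : G) (fg_funRep k G k (a : G) _) = fg_funRep k G k ((b * a : H) : G) _
    rw [Subgroup.coe_mul, map_mul]; rfl
  have hx'mem : x' ∈ sp_aug k G := by
    rw [sp_aug, LinearMap.mem_ker, hx', map_sub, map_sum]
    simp_rw [sp_eps_funRep, map_smul, sp_eps_single, smul_eq_mul, mul_one]
    rw [Finset.sum_const, Finset.card_univ, nsmul_eq_mul, ← hn, hn', sub_self]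
  have hx'd : ∀ a : H, (c a).2.1 = fg_funRep k G k (a : G) x' - x' := by
    intro a
    rw [hx a, hx', map_sub, hsum_inv a]
    abel
  -- the `C`-valued cocycle
  have hγ : ∀ a b : H, ((c (a * b)).1 - sp_s C σ ((a * b : H) : G) x') =
      C.ρ (a : G) ((c b).1 - sp_s C σ (b : G) x') + ((c a).1 - sp_s C σ (a : G) x') := by
    intro a b
    have h2 : sp_s C σ ((a : G) * (b : G)) x' =
        C.ρ (a : G) (sp_s C σ (b : G) x') + sp_s C σ (a : G) (fg_funRep k G k (b : G) x') :=
      sp_s_mul C σ (a : G) (b : G) x' hx'mem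
    rw [hc1 a b, hx'd b, Subgroup.coe_mul, h2]
    simp only [map_sub]
    abel
  obtain ⟨m₁, hm₁⟩ := hC1 (fun a => (c a).1 - sp_s C σ (a : G) x') hγ
  refine ⟨(m₁, ⟨x', hx'mem⟩), fun a => ?_⟩
  rw [sp_split_ρ_apply]
  refine Prod.ext ?_ (Subtype.ext ?_)
  · show (c a).1 = C.ρ (a : G) m₁ + sp_s C σ (a : G) x' - m₁
    have := hm₁ a
    rw [sub_eq_iff_eq_add] at this
    rw [this]; abel
  · show (c a).2.1 = fg_funRep k G k (a : G) x' - x'
    exact hx'd a

open Classical in
lemma sp_u_cocycle (a b : G) :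
    fg_funRep k G k a (sp_u k b).1 - (sp_u k (a * b)).1 + (sp_u k a).1 = 0 := by
  rw [sp_u_val, sp_u_val, sp_u_val, map_sub, sp_funRep_single, sp_funRep_single, mul_inv_rev,
    one_mul]
  abel

omit [Fintype H] in
open Classical in
/-- **Tate's theorem, degree 2.** If `H²(H, C)` is generated by the class of `σ|_H`,
`Hom(H, k) = 0` and `H²(H, Fun(G, k)) = 0`, then `H²(H, C(σ)) = 0`. -/
theorem sp_H2_vanish
    (hk : ∀ y : H → k, (∀ a b : H, y (a * b) = y a + y b) → ∀ a, y a = 0)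
    (hF2 : ∀ z : H × H → (G → k),
      (∀ a b c : H, z (a * b, c) + z (a, b) = fg_funRep k G k (a : G) (z (b, c)) + z (a, b * c)) →
      ∃ y : H → (G → k), ∀ a b : H, z (a, b) = fg_funRep k G k (a : G) (y b) - y (a * b) + y a)
    (hgen : ∀ ζ : H × H → C.V,
      (∀ a b c : H, ζ (a * b, c) + ζ (a, b) = C.ρ (a : G) (ζ (b, c)) + ζ (a, b * c)) →
      ∃ (n : k) (γ : H → C.V), ∀ a b : H,
        ζ (a, b) = n • σ ((a : G), (b : G)) + (C.ρ (a : G) (γ b) - γ (a * b) + γ a))
    (z : H × H → C.V × sp_aug k G)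
    (hz : ∀ a b c : H, z (a * b, c) + z (a, b) = (sp_split C σ).ρ (a : G) (z (b, c)) + z (a, b * c)) :
    ∃ w : H → C.V × sp_aug k G, ∀ a b : H,
      z (a, b) = (sp_split C σ).ρ (a : G) (w b) - w (a * b) + w a := by
  have hz1 : ∀ a b c : H, (z (a * b, c)).1 + (z (a, b)).1 =
      C.ρ (a : G) (z (b, c)).1 + sp_s C σ (a : G) (z (b, c)).2.1 + (z (a, b * c)).1 :=
    fun a b c => by
      have := congrArg Prod.fst (hz a b c)
      rw [sp_split_ρ_apply] at this
      exact this
  have hz2 : ∀ a b c : H, (z (a * b, c)).2.1 + (z (a, b)).2.1 =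
      fg_funRep k G k (a : G) (z (b, c)).2.1 + (z (a, b * c)).2.1 := fun a b c => by
    have := congrArg (fun m : C.V × sp_aug k G => m.2.1) (hz a b c)
    rw [sp_split_ρ_apply] at this
    exact this
  obtain ⟨y, hy⟩ := hF2 (fun q => (z q).2.1) hz2
  -- `y` takes values in the augmentation ideal
  have hyaug : ∀ a : H, y a ∈ sp_aug k G := by
    have hadd : ∀ a b : H, sp_eps k G (y (a * b)) = sp_eps k G (y a) + sp_eps k G (y b) := by
      intro a b
      have h0 : sp_eps k G (z (a, b)).2.1 = 0 := (z (a, b)).2.2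
      have h1 : (z (a, b)).2.1 = fg_funRep k G k (a : G) (y b) - y (a * b) + y a := hy a b
      rw [h1, map_add, map_sub, sp_eps_funRep] at h0
      linear_combination -h0
    intro a
    exact hk (fun a => sp_eps k G (y a)) hadd a
  -- the `C`-valued cocycle
  have hζ : ∀ a b c : H,
      ((z (a * b, c)).1 - sp_s C σ ((a * b : H) : G) (y c)) + ((z (a, b)).1 - sp_s C σ (a : G) (y b)) =
      C.ρ (a : G) ((z (b, c)).1 - sp_s C σ (b : G) (y c)) +
        ((z (a, b * c)).1 - sp_s C σ (a : G) (y (b * c))) := by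
    intro a b c
    have h2 : sp_s C σ ((a : G) * (b : G)) (y c) =
        C.ρ (a : G) (sp_s C σ (b : G) (y c)) + sp_s C σ (a : G) (fg_funRep k G k (b : G) (y c)) :=
      sp_s_mul C σ (a : G) (b : G) (y c) (hyaug c)
    have h3 : sp_s C σ (a : G) (z (b, c)).2.1 = sp_s C σ (a : G) (fg_funRep k G k (b : G) (y c)) -
        sp_s C σ (a : G) (y (b * c)) + sp_s C σ (a : G) (y b) := by
      have : (z (b, c)).2.1 = fg_funRep k G k (b : G) (y c) - y (b * c) + y b := hy b c
      rw [this, map_add, map_sub]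
    have h1 := hz1 a b c
    rw [Subgroup.coe_mul, h2]
    simp only [map_sub]
    rw [h3] at h1
    have h1' := eq_sub_of_add_eq h1
    rw [h1']
    abel
  obtain ⟨n, γ, hnγ⟩ := hgen (fun q => (z q).1 - sp_s C σ (q.1 : G) (y q.2)) hζ
  have hwmem : ∀ a : H, y a + n • (sp_u k (a : G)).1 ∈ sp_aug k G := fun a =>
    (sp_aug k G).add_mem (hyaug a) ((sp_aug k G).smul_mem n (sp_u k (a : G)).2)
  refine ⟨fun a => (γ a + n • σ (1, 1), ⟨y a + n • (sp_u k (a : G)).1, hwmem a⟩), fun a b => ?_⟩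
  rw [sp_split_ρ_apply]
  refine Prod.ext ?_ (Subtype.ext ?_)
  · show (z (a, b)).1 = C.ρ (a : G) (γ b + n • σ (1, 1)) +
        sp_s C σ (a : G) (y b + n • (sp_u k (b : G)).1) - (γ (a * b) + n • σ (1, 1)) +
        (γ a + n • σ (1, 1))
    have : (z (a, b)).1 - sp_s C σ (a : G) (y b) =
        n • σ ((a : G), (b : G)) + (C.ρ (a : G) (γ b) - γ (a * b) + γ a) := hnγ a b
    rw [sub_eq_iff_eq_add] at this
    rw [this, map_add, map_add, map_smul, map_smul, sp_s_u, smul_sub]
    abel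
  · show (z (a, b)).2.1 = fg_funRep k G k (a : G) (y b + n • (sp_u k (b : G)).1) -
        (y (a * b) + n • (sp_u k ((a * b : H) : G)).1) + (y a + n • (sp_u k (a : G)).1)
    have h1 : (z (a, b)).2.1 = fg_funRep k G k (a : G) (y b) - y (a * b) + y a := hy a b
    have h2 := sp_u_cocycle (k := k) (a : G) (b : G)
    rw [h1, map_add, map_smul, Subgroup.coe_mul]
    have h3 : n • fg_funRep k G k (a : G) (sp_u k (b : G)).1 - n • (sp_u k ((a : G) * (b : G))).1 +
        n • (sp_u k (a : G)).1 = 0 := by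
      rw [← smul_sub, ← smul_add, h2, smul_zero]
    have key : fg_funRep k G k (a : G) (y b) + n • fg_funRep k G k (a : G) (sp_u k (b : G)).1 -
        (y (a * b) + n • (sp_u k ((a : G) * (b : G))).1) + (y a + n • (sp_u k (a : G)).1) =
        (fg_funRep k G k (a : G) (y b) - y (a * b) + y a) +
        (n • fg_funRep k G k (a : G) (sp_u k (b : G)).1 - n • (sp_u k ((a : G) * (b : G))).1 +
        n • (sp_u k (a : G)).1) := by abel
    rw [key, h3, add_zero]

end vanish

end

end Fermat.Agent.S55
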