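import Fermat.Agent.S55.Tate.Splitting
import Fermat.Agent.S55.Tate.Explicit

/-!
# Tate's map `Θ_Y : Hom_G(Y, k) → H²(G, Hom(Y, C))`, `f ↦ [f · σ]`

For a 2-cocycle `σ` of `C` and a `G`-invariant functional `f` on `Y`, `(g, h) ↦ (y ↦ f y • σ (g, h))`
is a 2-cocycle of `Hom(Y, C)`.  Two explicit chases through the splitting module `C(σ)`:

* `tm_surj`: if `H²(G, Hom(Y, C(σ)))` vanishes (up to integers prime to `p`) and
  `H¹(G, Hom(Y, k[G])) = 0`, every 2-cocycle of `Hom(Y, C)` is, up to an integer prime to `p`,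
  cohomologous to some `f · σ`;
* `tm_ker`: if `H¹(G, Hom(Y, C(σ)))` vanishes (up to integers prime to `p`) and `f · σ` is a
  coboundary, then a prime-to-`p` multiple of `f` is a norm.
-/

set_option autoImplicit false

namespace Fermat.Agent.S55

open groupCohomology Finset

noncomputable section

variable {k G : Type} [CommRing k] [Group G] [Fintype G]
variable (Y C : Rep.{0} k G) (σ : cocycles₂ C)

/-- the cochain `f · σ` -/
def tm_mulσ (f : Y.V →ₗ[k] k) : G × G → (Y.V →ₗ[k] C.V) :=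
  fun q => f.smulRight (σ q)

omit [Fintype G] in
lemma tm_mulσ_apply (f : Y.V →ₗ[k] k) (g h : G) (y : Y.V) :
    tm_mulσ Y C σ f (g, h) y = f y • σ (g, h) := rfl

omit [Fintype G] in
/-- `f · σ` is a 2-cocycle of `Hom(Y, C)` when `f` is invariant. -/
theorem tm_mulσ_isZ2 (f : Y.V →ₗ[k] k) (hf : ∀ g y, f (Y.ρ g y) = f y) :
    te_IsZ2 (tt_hom Y C) (tm_mulσ Y C σ f) := by
  intro g h j
  apply LinearMap.ext
  intro y
  have hc := (mem_cocycles₂_iff σ).1 σ.2 g h j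
  rw [LinearMap.add_apply, LinearMap.add_apply, tt_hom_ρ_apply, tm_mulσ_apply, tm_mulσ_apply,
    tm_mulσ_apply, tm_mulσ_apply, hf, map_smul, ← smul_add, ← smul_add, hc]

open Classical in
/-- **Surjectivity of Tate's map** (up to integers prime to `p`). -/
theorem tm_surj (p : ℕ)
    (hV2 : ∀ w : G × G → (Y.V →ₗ[k] (C.V × sp_aug k G)),
      te_IsZ2 (tt_hom Y (sp_split C σ)) w →
      ∃ m : ℕ, ¬ p ∣ m ∧ ∃ c : G → (Y.V →ₗ[k] (C.V × sp_aug k G)),
        m • w = te_d1 (tt_hom Y (sp_split C σ)) c)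
    (hF1 : ∀ c : G → (Y.V →ₗ[k] (G → k)), te_IsZ1 (tt_hom Y (Rep.of (fg_funRep k G k))) c →
      ∃ F : Y.V →ₗ[k] (G → k), c = te_d0 (tt_hom Y (Rep.of (fg_funRep k G k))) F)
    (z : G × G → (Y.V →ₗ[k] C.V)) (hz : te_IsZ2 (tt_hom Y C) z) :
    ∃ m : ℕ, ¬ p ∣ m ∧ ∃ f : Y.V →ₗ[k] k, (∀ g y, f (Y.ρ g y) = f y) ∧
      ∃ γ : G → (Y.V →ₗ[k] C.V), ∀ g h y,
        m • z (g, h) y = f y • σ (g, h) + te_d1 (tt_hom Y C) γ (g, h) y := by
  -- push `z` into the splitting module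
  let iz : G × G → (Y.V →ₗ[k] (C.V × sp_aug k G)) :=
    fun q => (LinearMap.inl k C.V (sp_aug k G)) ∘ₗ z q
  have hiz : te_IsZ2 (tt_hom Y (sp_split C σ)) iz := by
    have := te_isZ2_map (MonoidHom.id G) (tt_homPost Y (sp_i C σ)) hz
    exact this
  obtain ⟨m, hm, c, hc⟩ := hV2 iz hiz
  refine ⟨m, hm, ?_⟩
  -- components of `c`
  let c₁ : G → (Y.V →ₗ[k] C.V) := fun g => (LinearMap.fst k C.V (sp_aug k G)) ∘ₗ c g
  let c₂ : G → (Y.V →ₗ[k] (G → k)) :=
    fun g => (sp_aug k G).subtype ∘ₗ (LinearMap.snd k C.V (sp_aug k G)) ∘ₗ c g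
  have hc₂aug : ∀ g y, c₂ g y ∈ sp_aug k G := fun g y => ((c g y).2).2
  -- the two components of `m • iz = d c`
  have hrel : ∀ g h y, ((m • z (g, h) y, 0) : C.V × sp_aug k G) =
      (sp_split C σ).ρ g (c h (Y.ρ g⁻¹ y)) - c (g * h) y + c g y := by
    intro g h y
    have := congrFun hc (g, h)
    have h2 := LinearMap.congr_fun this y
    rw [te_d1] at h2
    simp only [LinearMap.add_apply, LinearMap.sub_apply, Representation.linHom_apply,
      LinearMap.comp_apply] at h2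
    show _ = (sp_rho C σ) g (c h (Y.ρ g⁻¹ y)) - c (g * h) y + c g y
    rw [← h2]
    show _ = (m • iz (g, h)) y
    rw [LinearMap.smul_apply]
    show _ = m • ((z (g, h) y, 0) : C.V × sp_aug k G)
    rw [Prod.smul_mk, smul_zero]
  have hrel1 : ∀ g h y, m • z (g, h) y =
      C.ρ g (c₁ h (Y.ρ g⁻¹ y)) + sp_s C σ g (c₂ h (Y.ρ g⁻¹ y)) - c₁ (g * h) y + c₁ g y := by
    intro g h y
    have := congrArg Prod.fst (hrel g h y)
    rw [sp_split_ρ_apply] at this
    exact this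
  have hrel2 : ∀ g h y, (0 : G → k) =
      fg_funRep k G k g (c₂ h (Y.ρ g⁻¹ y)) - c₂ (g * h) y + c₂ g y := by
    intro g h y
    have := congrArg (fun t : C.V × sp_aug k G => t.2.1) (hrel g h y)
    rw [sp_split_ρ_apply] at this
    exact this
  -- `c₂` is a 1-cocycle of `Hom(Y, k[G])`
  have hc₂ : te_IsZ1 (tt_hom Y (Rep.of (fg_funRep k G k))) c₂ := by
    intro g h
    apply LinearMap.ext
    intro y
    have := hrel2 g h y
    rw [LinearMap.add_apply, tt_hom_ρ_apply]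
    have h3 : c₂ (g * h) y = fg_funRep k G k g (c₂ h (Y.ρ g⁻¹ y)) + c₂ g y := by
      have h4 := sub_eq_zero.mp (eq_comm.mp (by rw [sub_add_eq_add_sub] at this; exact this))
      exact h4.symm
    exact h3
  obtain ⟨F, hF⟩ := hF1 c₂ hc₂
  have hF' : ∀ g y, c₂ g y = fg_funRep k G k g (F (Y.ρ g⁻¹ y)) - F y := by
    intro g y
    have := LinearMap.congr_fun (congrFun hF g) y
    rw [this]; rfl
  -- the invariant functional
  let f : Y.V →ₗ[k] k := sp_eps k G ∘ₗ F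
  have hf : ∀ g y, f (Y.ρ g y) = f y := by
    intro g y
    have h0 : sp_eps k G (c₂ g⁻¹ y) = 0 := hc₂aug g⁻¹ y
    rw [hF', map_sub, sp_eps_funRep, inv_inv, sub_eq_zero] at h0
    exact h0
  refine ⟨f, hf, ?_⟩
  -- `F₁ = F - f δ₁` has values in the augmentation ideal
  let F₁ : Y.V → (G → k) := fun y => F y - f y • Pi.single 1 1
  have hF₁aug : ∀ y, F₁ y ∈ sp_aug k G := by
    intro y
    show sp_eps k G (F y - f y • Pi.single 1 1) = 0
    rw [map_sub, map_smul, sp_eps_single, smul_eq_mul, mul_one]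
    exact sub_self _
  have hF₁add : ∀ y y', F₁ (y + y') = F₁ y + F₁ y' := by
    intro y y'
    show F (y + y') - f (y + y') • Pi.single 1 (1 : k) = _
    rw [map_add, map_add, add_smul]
    show _ = (F y - f y • Pi.single 1 (1 : k)) + (F y' - f y' • Pi.single 1 (1 : k))
    abel
  have hF₁smul : ∀ (r : k) y, F₁ (r • y) = r • F₁ y := by
    intro r y
    show F (r • y) - f (r • y) • Pi.single 1 (1 : k) = r • (F y - f y • Pi.single 1 (1 : k))
    rw [map_smul, map_smul, smul_sub, smul_eq_mul, mul_smul]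
  -- the cochain γ
  let γ : G → (Y.V →ₗ[k] C.V) := fun g =>
    { toFun := fun y => c₁ g y - sp_s C σ g (F₁ (Y.ρ g⁻¹ y)) - f y • σ (1, 1)
      map_add' := fun y y' => by
        rw [map_add, map_add, hF₁add, map_add, map_add, add_smul]
        abel
      map_smul' := fun r y => by
        rw [map_smul, map_smul, hF₁smul, map_smul, map_smul, RingHom.id_apply, smul_sub, smul_sub,
          smul_eq_mul, mul_smul] }
  have hγ : ∀ g y, γ g y = c₁ g y - sp_s C σ g (F₁ (Y.ρ g⁻¹ y)) - f y • σ (1, 1) := fun _ _ => rfl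
  refine ⟨γ, fun g h y => ?_⟩
  rw [te_d1]
  simp only [LinearMap.add_apply, LinearMap.sub_apply, Representation.linHom_apply,
    LinearMap.comp_apply]
  rw [hγ, hγ, hγ, hrel1 g h y]
  -- abbreviations
  set w := Y.ρ h⁻¹ (Y.ρ g⁻¹ y) with hw
  have hw' : Y.ρ (g * h)⁻¹ y = w := by
    rw [hw, mul_inv_rev, map_mul, Module.End.mul_apply]
  have e1 : c₂ h (Y.ρ g⁻¹ y) = fg_funRep k G k h (F₁ w) - F₁ (Y.ρ g⁻¹ y) + f y • (sp_u k h).1 := by
    rw [hF', sp_u_eq]
    show _ = fg_funRep k G k h (F w - f w • Pi.single 1 1) -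
      (F (Y.ρ g⁻¹ y) - f (Y.ρ g⁻¹ y) • Pi.single 1 1) + _
    rw [hw, hf, hf, map_sub, map_smul, smul_sub]
    abel
  have e2 : sp_s C σ (g * h) (F₁ w) =
      C.ρ g (sp_s C σ h (F₁ w)) + sp_s C σ g (fg_funRep k G k h (F₁ w)) :=
    sp_s_mul C σ g h (F₁ w) (hF₁aug w)
  rw [hw', e1, e2, hf]
  simp only [map_add, map_sub, map_smul, sp_s_u]
  rw [smul_sub]
  abel

open Classical in
/-- **Injectivity of Tate's map** (up to integers prime to `p`): if `f · σ` is a coboundary then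
a prime-to-`p` multiple of `f` is a norm. -/
theorem tm_ker (p : ℕ)
    (hV1 : ∀ c : G → (Y.V →ₗ[k] (C.V × sp_aug k G)),
      te_IsZ1 (tt_hom Y (sp_split C σ)) c →
      ∃ m : ℕ, ¬ p ∣ m ∧ ∃ ψ : Y.V →ₗ[k] (C.V × sp_aug k G),
        m • c = te_d0 (tt_hom Y (sp_split C σ)) ψ)
    (f : Y.V →ₗ[k] k) (hf : ∀ g y, f (Y.ρ g y) = f y)
    (γ' : G → (Y.V →ₗ[k] C.V))
    (hγ' : ∀ g h y, f y • σ (g, h) = te_d1 (tt_hom Y C) γ' (g, h) y) :
    ∃ m : ℕ, ¬ p ∣ m ∧ ∃ φ' : Y.V →ₗ[k] k, ∀ y, m • f y = ∑ x : G, φ' (Y.ρ x y) := by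
  -- the 1-cocycle `c₀ - i ∘ γ'` of `Hom(Y, C(σ))`
  let c : G → (Y.V →ₗ[k] (C.V × sp_aug k G)) := fun g =>
    f.smulRight (sp_b C σ g) - (LinearMap.inl k C.V (sp_aug k G)) ∘ₗ γ' g
  have hcapp : ∀ g y, c g y = f y • sp_b C σ g - ((γ' g y, 0) : C.V × sp_aug k G) := fun _ _ => rfl
  have hγ'' : ∀ g h y, f y • σ (g, h) = C.ρ g (γ' h (Y.ρ g⁻¹ y)) - γ' (g * h) y + γ' g y := by
    intro g h y
    rw [hγ' g h y, te_d1]
    simp only [LinearMap.add_apply, LinearMap.sub_apply, Representation.linHom_apply,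
      LinearMap.comp_apply]
  have hc : te_IsZ1 (tt_hom Y (sp_split C σ)) c := by
    intro g h
    apply LinearMap.ext
    intro y
    rw [LinearMap.add_apply]
    show c (g * h) y = (sp_split C σ).ρ g (c h (Y.ρ g⁻¹ y)) + c g y
    rw [hcapp, hcapp, hcapp, hf, map_sub, map_smul]
    have h1 := sp_d_b C σ g h
    have h2 : (sp_split C σ).ρ g ((γ' h (Y.ρ g⁻¹ y), 0) : C.V × sp_aug k G) =
        ((C.ρ g (γ' h (Y.ρ g⁻¹ y)), 0) : C.V × sp_aug k G) := by
      rw [sp_split_ρ_apply]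
      refine Prod.ext ?_ (Subtype.ext ?_)
      · show C.ρ g _ + sp_s C σ g (0 : G → k) = _
        rw [map_zero, add_zero]
      · show fg_funRep k G k g (0 : G → k) = 0
        rw [map_zero]
    rw [h2]
    have h3 : f y • ((sp_split C σ).ρ g (sp_b C σ h)) =
        f y • sp_b C σ (g * h) - f y • sp_b C σ g + f y • ((σ (g, h), 0) : C.V × sp_aug k G) := by
      rw [← h1]
      simp only [smul_add, smul_sub]
      abel
    rw [h3]
    have h4 : f y • ((σ (g, h), 0) : C.V × sp_aug k G) =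
        ((C.ρ g (γ' h (Y.ρ g⁻¹ y)) - γ' (g * h) y + γ' g y, 0) : C.V × sp_aug k G) := by
      rw [Prod.smul_mk, smul_zero, hγ'' g h y]
    rw [h4]
    refine Prod.ext ?_ ?_
    · simp only [Prod.fst_add, Prod.fst_sub, Prod.smul_fst]
      abel
    · simp only [Prod.snd_add, Prod.snd_sub, Prod.smul_snd, sub_zero, add_zero]
      abel
  obtain ⟨m, hm, ψ, hψ⟩ := hV1 c hc
  refine ⟨m, hm, ?_⟩
  let ψ₂ : Y.V →ₗ[k] (G → k) :=
    (sp_aug k G).subtype ∘ₗ (LinearMap.snd k C.V (sp_aug k G)) ∘ₗ ψ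
  have hψ₂aug : ∀ y, sp_eps k G (ψ₂ y) = 0 := fun y => (ψ y).2.2
  -- second components of `m • c = d ψ`
  have hrel : ∀ g y, m • (f y • (sp_u k g).1) = fg_funRep k G k g (ψ₂ (Y.ρ g⁻¹ y)) - ψ₂ y := by
    intro g y
    have h1 := LinearMap.congr_fun (congrFun hψ g) y
    rw [te_d0] at h1
    simp only [LinearMap.sub_apply, Representation.linHom_apply, LinearMap.comp_apply] at h1
    have h2 := congrArg (fun t : C.V × sp_aug k G => t.2.1) h1
    have h3 : (fun t : C.V × sp_aug k G => t.2.1) ((m • c) g y) = m • (f y • (sp_u k g).1) := by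
      show ((m • c g) y).2.1 = _
      rw [LinearMap.smul_apply, hcapp]
      show (m • (f y • sp_b C σ g - ((γ' g y, 0) : C.V × sp_aug k G))).2.1 = _
      simp [sp_b]
    exact h3.symm.trans h2
  -- the invariant element Φ
  let Φ : Y.V →ₗ[k] (G → k) :=
    (m : k) • f.smulRight (Pi.single (1 : G) (1 : k)) - ψ₂
  have hΦapp : ∀ y, Φ y = (m : k) • (f y • Pi.single (1 : G) (1 : k)) - ψ₂ y := fun _ => rfl
  have hΦinv : ∀ g y, fg_funRep k G k g (Φ (Y.ρ g⁻¹ y)) = Φ y := by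
    intro g y
    rw [hΦapp, hΦapp, map_sub, hf, map_smul, map_smul]
    have h1 := hrel g y
    rw [sp_u_eq, smul_sub] at h1
    have h2 : fg_funRep k G k g (ψ₂ (Y.ρ g⁻¹ y)) =
        m • (f y • fg_funRep k G k g (Pi.single 1 1) - f y • Pi.single 1 (1 : k)) + ψ₂ y := by
      rw [h1]; abel
    rw [h2, ← Nat.cast_smul_eq_nsmul k m, smul_sub]
    abel
  have hΦx : ∀ y x, Φ y x = Φ (Y.ρ x y) 1 := by
    intro y x
    have := congrFun (hΦinv x⁻¹ y) x
    rw [fg_funRep_apply, inv_inv, mul_inv_cancel] at this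
    exact this.symm
  refine ⟨(LinearMap.proj 1 : (G → k) →ₗ[k] k) ∘ₗ Φ, fun y => ?_⟩
  have h1 : sp_eps k G (Φ y) = m • f y := by
    rw [hΦapp, map_sub, hψ₂aug, sub_zero, map_smul, map_smul, sp_eps_single, smul_eq_mul,
      smul_eq_mul, mul_one, nsmul_eq_mul]
  rw [← h1, sp_eps_apply]
  exact Finset.sum_congr rfl fun x _ => hΦx y x

end

end Fermat.Agent.S55
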