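import Mathlib

/-!
# S55 / block A5-Y, part 1: the evaluation cup product `H¹(Hom(B,C)) × H¹(B) → H²(C)`

Carrier: Mathlib's `groupCohomology` on `Rep k G` (`k` any commutative ring).
-/

set_option autoImplicit false

open CategoryTheory groupCohomology Rep

namespace Fermat.Agent.S55

universe u

noncomputable section

variable {k G : Type u} [CommRing k] [Group G]

/-- The internal Hom `Hom_k(B, C)` with the conjugation action `g • λ = ρ_C g ∘ λ ∘ ρ_B g⁻¹`. -/
abbrev yo_hom (B C : Rep.{u} k G) : Rep.{u} k G := Rep.of (Representation.linHom B.ρ C.ρ)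

lemma yo_hom_ρ_apply (B C : Rep.{u} k G) (g : G) (l : B.V →ₗ[k] C.V) (b : B.V) :
    (yo_hom B C).ρ g l b = C.ρ g (l (B.ρ g⁻¹ b)) := rfl

/-- Precomposition with a morphism `ψ : A ⟶ B`, as a morphism `Hom(B, C) ⟶ Hom(A, C)`. -/
def yo_pre {A B : Rep.{u} k G} (ψ : A ⟶ B) (C : Rep.{u} k G) : yo_hom B C ⟶ yo_hom A C :=
  Rep.ofHom ⟨LinearMap.lcomp k C.V ψ.hom.toLinearMap, fun g ↦ by
    ext l a
    simp [Representation.IntertwiningMap.toLinearMap_apply, hom_comm_apply]⟩

@[simp]
lemma yo_pre_apply {A B : Rep.{u} k G} (ψ : A ⟶ B) (C : Rep.{u} k G) (l : B.V →ₗ[k] C.V)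
    (a : A.V) : (yo_pre ψ C).hom l a = l (ψ.hom a) := rfl

/-! ### Split short exact sequences -/

lemma yo_g_f_apply (X : ShortComplex (Rep.{u} k G)) (x : X.X₁.V) :
    X.g.hom (X.f.hom x) = 0 := by
  show (X.f ≫ X.g).hom x = 0
  rw [X.zero]
  rfl

/-- A `k`-linear splitting of a short complex of representations. -/
structure yo_Splitting (X : ShortComplex (Rep.{u} k G)) where
  /-- the retraction of `X.f` -/
  r : X.X₂.V →ₗ[k] X.X₁.V
  /-- the section of `X.g` -/
  s : X.X₃.V →ₗ[k] X.X₂.V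
  r_f : ∀ x, r (X.f.hom x) = x
  g_s : ∀ z, X.g.hom (s z) = z
  f_r_add_s_g : ∀ y, X.f.hom (r y) + s (X.g.hom y) = y

namespace yo_Splitting

variable {X : ShortComplex (Rep.{u} k G)} (σ : yo_Splitting X)

lemma r_s (z : X.X₃.V) : σ.r (σ.s z) = 0 := by
  have h := σ.f_r_add_s_g (σ.s z)
  rw [σ.g_s] at h
  have h2 : X.f.hom (σ.r (σ.s z)) = 0 := by
    have := congrArg (fun t => t - σ.s z) h
    simpa using this
  have := σ.r_f (σ.r (σ.s z))
  rw [h2, map_zero] at this
  exact this.symm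

lemma f_r (y : X.X₂.V) : X.f.hom (σ.r y) = y - σ.s (X.g.hom y) :=
  eq_sub_of_add_eq (σ.f_r_add_s_g y)

lemma f_r_of_g_eq_zero {y : X.X₂.V} (hy : X.g.hom y = 0) : X.f.hom (σ.r y) = y := by
  rw [σ.f_r, hy, map_zero, sub_zero]

include σ in
lemma f_injective : Function.Injective X.f.hom := fun a b h => by
  rw [← σ.r_f a, ← σ.r_f b, h]

include σ in
lemma g_surjective : Function.Surjective X.g.hom := fun z => ⟨σ.s z, σ.g_s z⟩

end yo_Splitting

section constructors

variable {X : ShortComplex (Rep.{u} k G)}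

lemma yo_exact_apply (hX : X.ShortExact) {y : X.X₂.V} (hy : X.g.hom y = 0) :
    ∃ x : X.X₁.V, X.f.hom x = y := by
  have hex : LinearMap.range X.f.hom.toLinearMap = LinearMap.ker X.g.hom.toLinearMap :=
    (hX.exact.map (forget₂ (Rep k G) (ModuleCat k))).moduleCat_range_eq_ker
  have : y ∈ LinearMap.ker X.g.hom.toLinearMap := hy
  rw [← hex] at this
  exact this

lemma yo_f_injective (hX : X.ShortExact) : Function.Injective X.f.hom :=
  (Rep.mono_iff_injective X.f).1 hX.2

lemma yo_g_surjective (hX : X.ShortExact) : Function.Surjective X.g.hom :=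
  (Rep.epi_iff_surjective X.g).1 hX.3

/-- A splitting from a `k`-linear retraction of `X.f`. -/
def yo_Splitting.ofRetraction (hX : X.ShortExact) (r : X.X₂.V →ₗ[k] X.X₁.V)
    (hr : ∀ x, r (X.f.hom x) = x) : yo_Splitting X :=
  have hg := yo_g_surjective hX
  have key : ∀ y y' : X.X₂.V, X.g.hom y = X.g.hom y' →
      y - X.f.hom (r y) = y' - X.f.hom (r y') := by
    intro y y' h
    have h0 : X.g.hom (y - y') = 0 := by rw [map_sub, h, sub_self]
    obtain ⟨x, hx⟩ := yo_exact_apply hX h0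
    have h1 : r (y - y') = x := by rw [← hx, hr]
    have h2 : X.f.hom (r y) - X.f.hom (r y') = y - y' := by
      rw [← map_sub, ← map_sub, h1, hx]
    have h3 : (y - X.f.hom (r y)) - (y' - X.f.hom (r y')) = 0 := by
      rw [sub_sub_sub_comm, h2, sub_self]
    exact sub_eq_zero.1 h3
  { r := r
    s :=
      { toFun := fun z => Function.surjInv hg z - X.f.hom (r (Function.surjInv hg z))
        map_add' := fun z z' => by
          rw [key (Function.surjInv hg (z + z')) (Function.surjInv hg z + Function.surjInv hg z')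
            (by rw [map_add, Function.surjInv_eq hg, Function.surjInv_eq hg,
              Function.surjInv_eq hg])]
          simp only [map_add]
          abel
        map_smul' := fun c z => by
          rw [key (Function.surjInv hg (c • z)) (c • Function.surjInv hg z)
            (by rw [map_smul, Function.surjInv_eq hg, Function.surjInv_eq hg])]
          simp only [map_smul, RingHom.id_apply, smul_sub] }
    r_f := hr
    g_s := fun z => by
      show X.g.hom (Function.surjInv hg z - X.f.hom (r (Function.surjInv hg z))) = z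
      rw [map_sub, yo_g_f_apply, sub_zero, Function.surjInv_eq hg]
    f_r_add_s_g := fun y => by
      show X.f.hom (r y) + (Function.surjInv hg (X.g.hom y)
        - X.f.hom (r (Function.surjInv hg (X.g.hom y)))) = y
      rw [key (Function.surjInv hg (X.g.hom y)) y (Function.surjInv_eq hg _)]
      abel }

/-- A splitting from a `k`-linear section of `X.g`. -/
def yo_Splitting.ofSection (hX : X.ShortExact) (s : X.X₃.V →ₗ[k] X.X₂.V)
    (hs : ∀ z, X.g.hom (s z) = z) : yo_Splitting X :=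
  have hf := yo_f_injective hX
  have ex : ∀ y : X.X₂.V, ∃ x : X.X₁.V, X.f.hom x = y - s (X.g.hom y) := fun y =>
    yo_exact_apply hX (by rw [map_sub, hs, sub_self])
  { r :=
      { toFun := fun y => (ex y).choose
        map_add' := fun y y' => hf (by
          show X.f.hom (ex (y + y')).choose = X.f.hom ((ex y).choose + (ex y').choose)
          rw [map_add X.f.hom, (ex (y + y')).choose_spec, (ex y).choose_spec,
            (ex y').choose_spec]
          simp only [map_add]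
          abel)
        map_smul' := fun c y => hf (by
          show X.f.hom (ex (c • y)).choose = X.f.hom (c • (ex y).choose)
          rw [map_smul X.f.hom, (ex (c • y)).choose_spec, (ex y).choose_spec]
          simp only [map_smul, smul_sub]) }
    s := s
    r_f := fun x => hf (by
      show X.f.hom (ex (X.f.hom x)).choose = X.f.hom x
      rw [(ex (X.f.hom x)).choose_spec, yo_g_f_apply, map_zero, sub_zero])
    g_s := hs
    f_r_add_s_g := fun y => by
      show X.f.hom (ex y).choose + s (X.g.hom y) = y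
      rw [(ex y).choose_spec]
      abel }

end constructors

/-! ### The Hom sequence -/

/-- The short complex `Hom(X₃, C) ⟶ Hom(X₂, C) ⟶ Hom(X₁, C)`. -/
def yo_homSC (X : ShortComplex (Rep.{u} k G)) (C : Rep.{u} k G) : ShortComplex (Rep.{u} k G) :=
  ShortComplex.mk (yo_pre X.g C) (yo_pre X.f C) (by
    ext l x
    show l (X.g.hom (X.f.hom x)) = 0
    rw [yo_g_f_apply, map_zero])

lemma yo_homSC_shortExact {X : ShortComplex (Rep.{u} k G)} (σ : yo_Splitting X)
    (C : Rep.{u} k G) : (yo_homSC X C).ShortExact where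
  exact := by
    rw [← ShortComplex.exact_map_iff_of_faithful _ (forget₂ (Rep k G) (ModuleCat k)),
      ShortComplex.moduleCat_exact_iff]
    intro (l : X.X₂.V →ₗ[k] C.V) hl
    refine ⟨(l ∘ₗ σ.s : X.X₃.V →ₗ[k] C.V), ?_⟩
    refine LinearMap.ext fun y => ?_
    have hl' : ∀ x, l (X.f.hom x) = 0 := fun x =>
      congrArg (fun m : X.X₁.V →ₗ[k] C.V => m x) hl
    show l (σ.s (X.g.hom y)) = l y
    have := congrArg l (σ.f_r_add_s_g y)
    rw [map_add, hl', zero_add] at this
    exact this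
  mono_f := by
    rw [Rep.mono_iff_injective]
    intro (l : X.X₃.V →ₗ[k] C.V) (l' : X.X₃.V →ₗ[k] C.V) h
    refine LinearMap.ext fun z => ?_
    obtain ⟨y, rfl⟩ := σ.g_surjective z
    exact congrArg (fun m : X.X₂.V →ₗ[k] C.V => m y) h
  epi_g := by
    rw [Rep.epi_iff_surjective]
    intro (l : X.X₁.V →ₗ[k] C.V)
    refine ⟨(l ∘ₗ σ.r : X.X₂.V →ₗ[k] C.V), ?_⟩
    refine LinearMap.ext fun x => ?_
    show l (σ.r (X.f.hom x)) = l x
    rw [σ.r_f]

/-! ### Descending a bilinear map along two surjections -/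

section descend

variable {Z₁ Z₂ H₁ H₂ T : Type*} [AddCommGroup Z₁] [AddCommGroup Z₂] [AddCommGroup H₁]
  [AddCommGroup H₂] [AddCommGroup T] [Module k Z₁] [Module k Z₂] [Module k H₁] [Module k H₂]
  [Module k T]

/-- A bilinear map which vanishes on `ker π₁ × Z₂` and on `Z₁ × ker π₂` descends along the two
surjections `π₁`, `π₂`. -/
def yo_descend₂ (π₁ : Z₁ →ₗ[k] H₁) (π₂ : Z₂ →ₗ[k] H₂) (h₁ : Function.Surjective π₁)
    (h₂ : Function.Surjective π₂) (f : Z₁ →ₗ[k] Z₂ →ₗ[k] T)
    (hf₁ : ∀ α a, π₁ α = 0 → f α a = 0) (hf₂ : ∀ α a, π₂ a = 0 → f α a = 0) :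
    H₁ →ₗ[k] H₂ →ₗ[k] T :=
  have key₁ : ∀ α α' a, π₁ α = π₁ α' → f α a = f α' a := fun α α' a h => by
    have := hf₁ (α - α') a (by rw [map_sub, h, sub_self])
    rw [map_sub, LinearMap.sub_apply] at this
    exact sub_eq_zero.1 this
  have key₂ : ∀ α a a', π₂ a = π₂ a' → f α a = f α a' := fun α a a' h => by
    have := hf₂ α (a - a') (by rw [map_sub, h, sub_self])
    rw [map_sub] at this
    exact sub_eq_zero.1 this
  LinearMap.mk₂ k (fun x y => f (Function.surjInv h₁ x) (Function.surjInv h₂ y))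
    (fun x x' y => by
      rw [key₁ (Function.surjInv h₁ (x + x')) (Function.surjInv h₁ x + Function.surjInv h₁ x') _
        (by rw [map_add, Function.surjInv_eq h₁, Function.surjInv_eq h₁,
          Function.surjInv_eq h₁]), map_add, LinearMap.add_apply])
    (fun c x y => by
      rw [key₁ (Function.surjInv h₁ (c • x)) (c • Function.surjInv h₁ x) _
        (by rw [map_smul, Function.surjInv_eq h₁, Function.surjInv_eq h₁]), map_smul,
        LinearMap.smul_apply])
    (fun x y y' => by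
      rw [key₂ _ (Function.surjInv h₂ (y + y')) (Function.surjInv h₂ y + Function.surjInv h₂ y')
        (by rw [map_add, Function.surjInv_eq h₂, Function.surjInv_eq h₂,
          Function.surjInv_eq h₂]), map_add])
    (fun c x y => by
      rw [key₂ _ (Function.surjInv h₂ (c • y)) (c • Function.surjInv h₂ y)
        (by rw [map_smul, Function.surjInv_eq h₂, Function.surjInv_eq h₂]), map_smul])

lemma yo_descend₂_apply (π₁ : Z₁ →ₗ[k] H₁) (π₂ : Z₂ →ₗ[k] H₂) (h₁ : Function.Surjective π₁)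
    (h₂ : Function.Surjective π₂) (f : Z₁ →ₗ[k] Z₂ →ₗ[k] T)
    (hf₁ : ∀ α a, π₁ α = 0 → f α a = 0) (hf₂ : ∀ α a, π₂ a = 0 → f α a = 0) (α : Z₁) (a : Z₂) :
    yo_descend₂ π₁ π₂ h₁ h₂ f hf₁ hf₂ (π₁ α) (π₂ a) = f α a := by
  show f (Function.surjInv h₁ (π₁ α)) (Function.surjInv h₂ (π₂ a)) = f α a
  have e₁ : f (Function.surjInv h₁ (π₁ α)) (Function.surjInv h₂ (π₂ a)) =
      f α (Function.surjInv h₂ (π₂ a)) := by
    have := hf₁ (Function.surjInv h₁ (π₁ α) - α) (Function.surjInv h₂ (π₂ a))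
      (by rw [map_sub, Function.surjInv_eq h₁, sub_self])
    rw [map_sub, LinearMap.sub_apply] at this
    exact sub_eq_zero.1 this
  have e₂ : f α (Function.surjInv h₂ (π₂ a)) = f α a := by
    have := hf₂ α (Function.surjInv h₂ (π₂ a) - a)
      (by rw [map_sub, Function.surjInv_eq h₂, sub_self])
    rw [map_sub] at this
    exact sub_eq_zero.1 this
  rw [e₁, e₂]

end descend

/-! ### The evaluation cup product on cochains -/

section cup

variable {B C : Rep.{u} k G}

/-- The cup product of a `Hom(B, C)`-valued 1-cochain and a `B`-valued 1-cochain with respect to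
the evaluation pairing: `(α ∪ a)(g, h) = α(g)(g • a(h))`. -/
def yo_cupFun (α : G → (B.V →ₗ[k] C.V)) (a : G → B.V) : G × G → C.V :=
  fun p => α p.1 (B.ρ p.1 (a p.2))

@[simp]
lemma yo_cupFun_apply (α : G → (B.V →ₗ[k] C.V)) (a : G → B.V) (g h : G) :
    yo_cupFun α a (g, h) = α g (B.ρ g (a h)) := rfl

lemma yo_cupFun_mem_cocycles₂ {α : G → (B.V →ₗ[k] C.V)} (hα : α ∈ cocycles₁ (yo_hom B C))
    {a : G → B.V} (ha : a ∈ cocycles₁ B) : yo_cupFun α a ∈ cocycles₂ C := by
  rw [mem_cocycles₂_iff]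
  intro g h j
  have hα' := (mem_cocycles₁_iff (A := yo_hom B C) α).1 hα g h
  have ha' := (mem_cocycles₁_iff a).1 ha h j
  simp only [yo_cupFun_apply]
  rw [hα', ha']
  have e : ((yo_hom B C).ρ g (α h) + α g) (B.ρ (g * h) (a j)) =
      C.ρ g (α h (B.ρ g⁻¹ (B.ρ (g * h) (a j)))) + α g (B.ρ (g * h) (a j)) := rfl
  rw [e]
  have e2 : B.ρ g⁻¹ (B.ρ (g * h) (a j)) = B.ρ h (a j) := by
    rw [← Module.End.mul_apply, ← map_mul, inv_mul_cancel_left]
  have e3 : B.ρ (g * h) (a j) = B.ρ g (B.ρ h (a j)) := by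
    rw [map_mul, Module.End.mul_apply]
  rw [e2, e3]
  simp only [map_add]
  abel

/-- If `α = d⁰λ` is a coboundary and `a` a cocycle, then `α ∪ a = d¹(g ↦ λ(a g))`. -/
lemma yo_cupFun_d₀₁_left (l : B.V →ₗ[k] C.V) {a : G → B.V} (ha : a ∈ cocycles₁ B) :
    yo_cupFun ((d₀₁.{u, u} (yo_hom B C)).hom l) a =
      (d₁₂ C).hom (fun g => l (a g) : G → C.V) := by
  funext ⟨g, h⟩
  have ha' := (mem_cocycles₁_iff a).1 ha g h
  rw [yo_cupFun_apply, d₁₂_hom_apply, d₀₁_hom_apply]
  have e : ((yo_hom B C).ρ g l - l) (B.ρ g (a h)) =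
      C.ρ g (l (B.ρ g⁻¹ (B.ρ g (a h)))) - l (B.ρ g (a h)) := rfl
  rw [e]
  have e2 : B.ρ g⁻¹ (B.ρ g (a h)) = a h := by
    rw [← Module.End.mul_apply, ← map_mul, inv_mul_cancel, map_one, Module.End.one_apply]
  rw [e2]
  show _ = C.ρ g (l (a h)) - l (a (g * h)) + l (a g)
  rw [ha', map_add]
  abel

/-- If `α` is a cocycle and `a = d⁰b` a coboundary, then `α ∪ a = d¹(g ↦ -α(g)(g • b))`. -/
lemma yo_cupFun_d₀₁_right {α : G → (B.V →ₗ[k] C.V)} (hα : α ∈ cocycles₁ (yo_hom B C))
    (b : B.V) : yo_cupFun α ((d₀₁ B).hom b) =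
      (d₁₂ C).hom (fun g => - α g (B.ρ g b) : G → C.V) := by
  funext ⟨g, h⟩
  have hα' := (mem_cocycles₁_iff (A := yo_hom B C) α).1 hα g h
  rw [yo_cupFun_apply, d₁₂_hom_apply, d₀₁_hom_apply]
  show α g (B.ρ g (B.ρ h b - b)) =
    C.ρ g (- α h (B.ρ h b)) - (- α (g * h) (B.ρ (g * h) b)) + (- α g (B.ρ g b))
  rw [hα']
  have e : ((yo_hom B C).ρ g (α h) + α g) (B.ρ (g * h) b) =
      C.ρ g (α h (B.ρ g⁻¹ (B.ρ (g * h) b))) + α g (B.ρ (g * h) b) := rfl
  rw [e]
  have e2 : B.ρ g⁻¹ (B.ρ (g * h) b) = B.ρ h b := by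
    rw [← Module.End.mul_apply, ← map_mul, inv_mul_cancel_left]
  have e3 : B.ρ (g * h) b = B.ρ g (B.ρ h b) := by
    rw [map_mul, Module.End.mul_apply]
  rw [e2, e3]
  simp only [map_sub, map_neg]
  abel

/-- The cup product on cocycles, as a bilinear map. -/
def yo_cupCocycles (B C : Rep.{u} k G) :
    cocycles₁ (yo_hom B C) →ₗ[k] cocycles₁ B →ₗ[k] cocycles₂ C :=
  LinearMap.mk₂ k
    (fun α a => ⟨yo_cupFun (α : G → (B.V →ₗ[k] C.V)) (a : G → B.V),
      yo_cupFun_mem_cocycles₂ α.2 a.2⟩)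
    (fun α α' a => by
      apply Subtype.ext; funext ⟨g, h⟩
      show (α.1 g + α'.1 g) (B.ρ g (a.1 h)) = α.1 g (B.ρ g (a.1 h)) + α'.1 g (B.ρ g (a.1 h))
      rfl)
    (fun c α a => by
      apply Subtype.ext; funext ⟨g, h⟩
      show (c • α.1 g) (B.ρ g (a.1 h)) = c • α.1 g (B.ρ g (a.1 h))
      rfl)
    (fun α a a' => by
      apply Subtype.ext; funext ⟨g, h⟩
      show α.1 g (B.ρ g (a.1 h + a'.1 h)) = α.1 g (B.ρ g (a.1 h)) + α.1 g (B.ρ g (a'.1 h))
      rw [map_add, map_add])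
    (fun c α a => by
      apply Subtype.ext; funext ⟨g, h⟩
      show α.1 g (B.ρ g (c • a.1 h)) = c • α.1 g (B.ρ g (a.1 h))
      rw [map_smul, map_smul])

@[simp]
lemma yo_cupCocycles_apply (α : cocycles₁ (yo_hom B C)) (a : cocycles₁ B) (g h : G) :
    (yo_cupCocycles B C α a : G × G → C.V) (g, h) = (α : G → (B.V →ₗ[k] C.V)) g (B.ρ g (a h)) :=
  rfl

lemma yo_H1π_surjective (A : Rep.{u} k G) : Function.Surjective (H1π A).hom := fun x =>
  H1_induction_on x fun z => ⟨z, rfl⟩

lemma yo_H2π_surjective (A : Rep.{u} k G) : Function.Surjective (H2π A).hom := fun x =>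
  H2_induction_on x fun z => ⟨z, rfl⟩

/-- **The evaluation cup product** `H¹(G, Hom(B, C)) × H¹(G, B) → H²(G, C)`. -/
def yo_cup (B C : Rep.{u} k G) : H1 (yo_hom B C) →ₗ[k] H1 B →ₗ[k] H2 C :=
  yo_descend₂ (H1π (yo_hom B C)).hom (H1π B).hom (yo_H1π_surjective _) (yo_H1π_surjective _)
    ((yo_cupCocycles B C).compr₂ (H2π C).hom)
    (fun α a h => by
      obtain ⟨l, hl⟩ := (H1π_eq_zero_iff α).1 h
      show (H2π C) (yo_cupCocycles B C α a) = 0
      rw [H2π_eq_zero_iff]
      refine ⟨fun g => l (a g), ?_⟩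
      have := yo_cupFun_d₀₁_left l a.2
      rw [hl] at this
      exact this.symm)
    (fun α a h => by
      obtain ⟨b, hb⟩ := (H1π_eq_zero_iff a).1 h
      show (H2π C) (yo_cupCocycles B C α a) = 0
      rw [H2π_eq_zero_iff]
      refine ⟨fun g => - (α : G → (B.V →ₗ[k] C.V)) g (B.ρ g b), ?_⟩
      have := yo_cupFun_d₀₁_right α.2 b
      rw [hb] at this
      exact this.symm)

lemma yo_cup_π (α : cocycles₁ (yo_hom B C)) (a : cocycles₁ B) :
    yo_cup B C (H1π (yo_hom B C) α) (H1π B a) = H2π C (yo_cupCocycles B C α a) :=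
  yo_descend₂_apply _ _ _ _ _ _ _ α a

end cup

end

end Fermat.Agent.S55
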