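import Fermat.Agent.S55.Tate.Yoneda
import Fermat.Agent.S55.Tate.Hom

/-!
# S55 / block A5-Y, part 3: additivity of `yo_homClass`, the double-shift composite of
(Y1) and (Y2), and the dictionary with the `tt_` names of `Tate/Hom.lean`.
-/

set_option autoImplicit false

open CategoryTheory groupCohomology Rep

namespace Fermat.Agent.S55

universe u

noncomputable section

section additive

variable {k G : Type u} [CommRing k] [Group G] {B C : Rep.{u} k G}

lemma yo_homInv_add (φ ψ : B ⟶ C) : yo_homInv (φ + ψ) = yo_homInv φ + yo_homInv ψ :=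
  Subtype.ext rfl

lemma yo_homInv_zero : yo_homInv (0 : B ⟶ C) = 0 := Subtype.ext rfl

/-- `φ ↦ [φ] ∈ H⁰(G, Hom(B, C))` as an additive map. -/
def yo_homClassHom (B C : Rep.{u} k G) : (B ⟶ C) →+ H0 (yo_hom B C) where
  toFun := yo_homClass
  map_zero' := by
    show (H0Iso (yo_hom B C)).inv (yo_homInv (0 : B ⟶ C)) = 0
    rw [yo_homInv_zero, map_zero]
  map_add' φ ψ := by
    show (H0Iso (yo_hom B C)).inv (yo_homInv (φ + ψ)) =
      (H0Iso (yo_hom B C)).inv (yo_homInv φ) + (H0Iso (yo_hom B C)).inv (yo_homInv ψ)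
    rw [yo_homInv_add, map_add]

@[simp]
lemma yo_homClassHom_apply (φ : B ⟶ C) : yo_homClassHom B C φ = yo_homClass φ := rfl

/-- Every class of `H⁰(G, Hom(B, C))` is the class of a morphism. -/
lemma yo_homClass_surjective (x : H0 (yo_hom B C)) : ∃ φ : B ⟶ C, yo_homClass φ = x := by
  let v : (yo_hom B C).ρ.invariants := (H0Iso (yo_hom B C)).hom x
  refine ⟨(Representation.linHom.invariantsEquivRepHom B C) v, ?_⟩
  have : yo_homInv ((Representation.linHom.invariantsEquivRepHom B C) v) = v := Subtype.ext rfl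
  show (H0Iso (yo_hom B C)).inv (yo_homInv _) = x
  rw [this]
  exact Iso.hom_inv_id_apply (H0Iso (yo_hom B C)) x

lemma yo_homClass_injective : Function.Injective (yo_homClass : (B ⟶ C) → H0 (yo_hom B C)) := by
  intro φ ψ h
  have h1 : yo_homInv φ = yo_homInv ψ := by
    have := congrArg (H0Iso (yo_hom B C)).hom h
    simpa [yo_homClass] using this
  apply Rep.hom_ext
  apply Representation.IntertwiningMap.ext
  exact congrArg Subtype.val h1

end additive

section composite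

variable {k G : Type u} [CommRing k] [Group G]

/-- **Double shift.**  For two `k`-split short exact sequences `X : 0 → Z → I → Z⁺ → 0` and
`X' : 0 → Z⁺ → I' → Z⁺⁺ → 0` (so `X'.X₁ = X.X₃` definitionally: `X' = ShortComplex.mk f' g' w'`
with `f' : X.X₃ ⟶ I'`), `φ : Z ⟶ C` and `y ∈ (Z⁺⁺)^G`:
`(ev_y)_*(δ δ [φ]) = - φ_*(δ δ [y])`. -/
theorem yo_Y12 {X : ShortComplex (Rep.{u} k G)} (hX : X.ShortExact) (σ : yo_Splitting X)
    {I' Z'' : Rep.{u} k G} (f' : X.X₃ ⟶ I') (g' : I' ⟶ Z'') (w' : f' ≫ g' = 0)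
    (hX' : (ShortComplex.mk f' g' w').ShortExact) (σ' : yo_Splitting (ShortComplex.mk f' g' w'))
    (C : Rep.{u} k G) (φ : X.X₁ ⟶ C) (y : Z''.ρ.invariants) :
    (map (MonoidHom.id G) (yo_ev C y) 2).hom
        (δ (yo_homSC_shortExact σ' C) 1 2 rfl
          (δ (yo_homSC_shortExact σ C) 0 1 rfl (yo_homClass φ))) =
      - (map (MonoidHom.id G) φ 2).hom
        (δ hX 1 2 rfl (δ hX' 0 1 rfl ((H0Iso Z'').inv y))) := by
  rw [yo_Y1 hX σ C φ, neg_neg]
  exact yo_Y2 hX' σ' C _ y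

end composite

section dictionary

variable {k G : Type} [CommRing k] [Group G]

lemma yo_hom_eq_tt_hom (Y C : Rep.{0} k G) : yo_hom Y C = tt_hom Y C := rfl

lemma yo_ev_eq_tt_ev {Y : Rep.{0} k G} (C : Rep.{0} k G) (y : Y.V) (hy : ∀ g, Y.ρ g y = y) :
    yo_ev C (⟨y, hy⟩ : Y.ρ.invariants) = tt_ev C y hy := rfl

lemma yo_pre_eq_tt_homPre {Z Y : Rep.{0} k G} (ψ : Z ⟶ Y) (C : Rep.{0} k G) :
    yo_pre ψ C = tt_homPre ψ C := rfl

end dictionary

end

end Fermat.Agent.S55
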